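import Fermat.Prelude.Def_FLTPrelim_Modularity
import Fermat.Agent.EC.Det.VariableChangePoint
import Mathlib.NumberTheory.Padics.RingHoms
import Mathlib.Tactic.LinearCombination

/-!
# `a_ℓ` does not depend on the integral model at a good prime

If two integral models of the same curve over `ℚ` both have good reduction at `ℓ`, the change
of variables between them is `ℓ`-integral with unit `u`, hence the reductions mod `ℓ` are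
isomorphic and have the same number of points.
-/

set_option autoImplicit false

namespace Fermat.Agent.RT

open WeierstrassCurve

section Ultrametric

variable {p : ℕ} [Fact p.Prime]

theorem padic_norm_le_one_of_monic_four {x c a₃ a₂ a₁ a₀ : ℚ_[p]} (hc : ‖c‖ = 1)
    (h₃ : ‖a₃‖ ≤ 1) (h₂ : ‖a₂‖ ≤ 1) (h₁ : ‖a₁‖ ≤ 1) (h₀ : ‖a₀‖ ≤ 1)
    (h : c * x ^ 4 + a₃ * x ^ 3 + a₂ * x ^ 2 + a₁ * x + a₀ = 0) : ‖x‖ ≤ 1 := by
  by_contra hx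
  rw [not_le] at hx
  have hb : ∀ (a : ℚ_[p]) (i : ℕ), i ≤ 3 → ‖a‖ ≤ 1 → ‖a * x ^ i‖ ≤ ‖x‖ ^ 3 := fun a i hi ha => by
    rw [norm_mul, norm_pow]
    exact (mul_le_of_le_one_left (by positivity) ha).trans (pow_le_pow_right₀ hx.le hi)
  have htail : ‖a₃ * x ^ 3 + a₂ * x ^ 2 + a₁ * x + a₀‖ ≤ ‖x‖ ^ 3 := by
    have e₁ := hb a₁ 1 (by norm_num) h₁
    have e₀ := hb a₀ 0 (by norm_num) h₀
    simp only [pow_one, pow_zero, mul_one] at e₁ e₀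
    exact (Padic.nonarchimedean _ _).trans (max_le ((Padic.nonarchimedean _ _).trans
      (max_le ((Padic.nonarchimedean _ _).trans
        (max_le (hb a₃ 3 le_rfl h₃) (hb a₂ 2 (by norm_num) h₂))) e₁)) e₀)
  have e : c * x ^ 4 = -(a₃ * x ^ 3 + a₂ * x ^ 2 + a₁ * x + a₀) := by linear_combination h
  have e' : ‖x‖ ^ 4 = ‖a₃ * x ^ 3 + a₂ * x ^ 2 + a₁ * x + a₀‖ := by
    have := congrArg norm e
    rwa [norm_mul, norm_neg, hc, one_mul, norm_pow] at this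
  have : ‖x‖ ^ 3 < ‖x‖ ^ 4 := pow_lt_pow_right₀ hx (by norm_num)
  linarith

theorem padic_norm_le_one_of_monic_three {x c a₂ a₁ a₀ : ℚ_[p]} (hc : ‖c‖ = 1)
    (h₂ : ‖a₂‖ ≤ 1) (h₁ : ‖a₁‖ ≤ 1) (h₀ : ‖a₀‖ ≤ 1)
    (h : c * x ^ 3 + a₂ * x ^ 2 + a₁ * x + a₀ = 0) : ‖x‖ ≤ 1 :=
  padic_norm_le_one_of_monic_four hc h₂ h₁ h₀ (by simp : ‖(0 : ℚ_[p])‖ ≤ 1)
    (by linear_combination x * h)

theorem padic_norm_le_one_of_monic_two {x a₁ a₀ : ℚ_[p]}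
    (h₁ : ‖a₁‖ ≤ 1) (h₀ : ‖a₀‖ ≤ 1) (h : x ^ 2 + a₁ * x + a₀ = 0) : ‖x‖ ≤ 1 :=
  padic_norm_le_one_of_monic_three norm_one h₁ h₀ (by simp : ‖(0 : ℚ_[p])‖ ≤ 1)
    (by linear_combination x * h)

end Ultrametric

variable {ℓ : ℕ} [Fact ℓ.Prime]

/-- Between two models with unit discriminant, a change of variables over `ℚ_ℓ` is integral. -/
theorem exists_integral_variableChange {W W' : WeierstrassCurve ℤ_[ℓ]}
    (hΔ : IsUnit W.Δ) (hΔ' : IsUnit W'.Δ) {C : VariableChange ℚ_[ℓ]}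
    (h : C • W.map PadicInt.Coe.ringHom = W'.map PadicInt.Coe.ringHom) :
    ∃ D : VariableChange ℤ_[ℓ], D • W = W' := by
  set V := W.map (PadicInt.Coe.ringHom (p := ℓ)) with hV
  set V' := W'.map (PadicInt.Coe.ringHom (p := ℓ)) with hV'
  have int : ∀ z : ℤ_[ℓ], ‖(PadicInt.Coe.ringHom z : ℚ_[ℓ])‖ ≤ 1 := fun z => z.2
  have hW : ‖V.a₁‖ ≤ 1 ∧ ‖V.a₂‖ ≤ 1 ∧ ‖V.a₃‖ ≤ 1 ∧ ‖V.a₄‖ ≤ 1 ∧ ‖V.a₆‖ ≤ 1 :=
    ⟨int _, int _, int _, int _, int _⟩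
  have hW' : ‖V'.a₁‖ ≤ 1 ∧ ‖V'.a₂‖ ≤ 1 ∧ ‖V'.a₃‖ ≤ 1 ∧ ‖V'.a₄‖ ≤ 1 ∧ ‖V'.a₆‖ ≤ 1 :=
    ⟨int _, int _, int _, int _, int _⟩
  have hb : ∀ (x : ℤ_[ℓ]) (y : ℚ_[ℓ]), PadicInt.Coe.ringHom x = y → ‖y‖ ≤ 1 := fun x _ e => e ▸ int x
  have hb₂ : ‖V.b₂‖ ≤ 1 := hb _ _ (W.map_b₂ _).symm
  have hb₄ : ‖V.b₄‖ ≤ 1 := hb _ _ (W.map_b₄ _).symm
  have hb₆ : ‖V.b₆‖ ≤ 1 := hb _ _ (W.map_b₆ _).symm
  have hb₈ : ‖V.b₈‖ ≤ 1 := hb _ _ (W.map_b₈ _).symm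
  have hb₆' : ‖V'.b₆‖ ≤ 1 := hb _ _ (W'.map_b₆ _).symm
  have hb₈' : ‖V'.b₈‖ ≤ 1 := hb _ _ (W'.map_b₈ _).symm
  have hu : ‖(C.u : ℚ_[ℓ])‖ = 1 := by
    have e : ((C.u⁻¹ : ℚ_[ℓ]ˣ) : ℚ_[ℓ]) ^ 12 * V.Δ = V'.Δ := by
      rw [← variableChange_Δ, h]
    have n1 : ‖V.Δ‖ = 1 := by
      rw [hV, map_Δ]
      exact PadicInt.isUnit_iff.1 hΔ
    have n2 : ‖V'.Δ‖ = 1 := by
      rw [hV', map_Δ]
      exact PadicInt.isUnit_iff.1 hΔ'
    have e' := congrArg norm e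
    rw [norm_mul, norm_pow, n1, n2, mul_one, Units.val_inv_eq_inv_val, norm_inv] at e'
    have := (pow_eq_one_iff_of_nonneg (by positivity) (by norm_num : (12 : ℕ) ≠ 0)).1 e'
    exact inv_eq_one.1 this
  set u : ℚ_[ℓ] := ↑C.u with hu'
  have huinv : ((C.u⁻¹ : ℚ_[ℓ]ˣ) : ℚ_[ℓ]) * u = 1 := C.u.inv_mul
  have hunorm : ∀ (k : ℕ) (y : ℚ_[ℓ]), ‖y‖ ≤ 1 → ‖u ^ k * y‖ ≤ 1 := fun k y hy => by
    rw [norm_mul, norm_pow, hu, one_pow, one_mul]; exact hy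
  -- `r` is integral
  have e8 : V.b₈ + 3 * C.r * V.b₆ + 3 * C.r ^ 2 * V.b₄ + C.r ^ 3 * V.b₂ + 3 * C.r ^ 4
      = u ^ 8 * V'.b₈ := by
    rw [← h, variableChange_b₈, ← mul_assoc, ← mul_pow, mul_comm u, huinv, one_pow, one_mul]
  have e6 : V.b₆ + 2 * C.r * V.b₄ + C.r ^ 2 * V.b₂ + 4 * C.r ^ 3 = u ^ 6 * V'.b₆ := by
    rw [← h, variableChange_b₆, ← mul_assoc, ← mul_pow, mul_comm u, huinv, one_pow, one_mul]
  have nsmall : ∀ (k : ℕ) (y : ℚ_[ℓ]), ‖y‖ ≤ 1 → ‖(k : ℚ_[ℓ]) * y‖ ≤ 1 := fun k y hy => by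
    rw [norm_mul]
    refine mul_le_one₀ ?_ (norm_nonneg _) hy
    exact_mod_cast Padic.norm_int_le_one (k : ℤ)
  have hsub : ∀ y z : ℚ_[ℓ], ‖y‖ ≤ 1 → ‖z‖ ≤ 1 → ‖y - z‖ ≤ 1 := fun y z hy hz => by
    rw [sub_eq_add_neg]
    exact (Padic.nonarchimedean _ _).trans (max_le hy (by rwa [norm_neg]))
  have hadd : ∀ y z : ℚ_[ℓ], ‖y‖ ≤ 1 → ‖z‖ ≤ 1 → ‖y + z‖ ≤ 1 := fun y z hy hz =>
    (Padic.nonarchimedean _ _).trans (max_le hy hz)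
  have hmul : ∀ y z : ℚ_[ℓ], ‖y‖ ≤ 1 → ‖z‖ ≤ 1 → ‖y * z‖ ≤ 1 := fun y z hy hz => by
    rw [norm_mul]; exact mul_le_one₀ hy (norm_nonneg _) hz
  have hr : ‖C.r‖ ≤ 1 := by
    rcases eq_or_ne ℓ 3 with h3 | h3
    · have n4 : ‖((4 : ℤ) : ℚ_[ℓ])‖ = 1 := by
        refine le_antisymm (Padic.norm_int_le_one 4) (not_lt.1 fun hlt => ?_)
        have := (Padic.norm_intCast_lt_one_iff (k := 4)).1 hlt
        rw [h3] at this
        norm_num at this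
      refine padic_norm_le_one_of_monic_three n4 hb₂ (nsmall 2 _ hb₄)
        (hsub _ _ hb₆ (hunorm 6 _ hb₆')) ?_
      push_cast
      linear_combination e6
    · have n3 : ‖((3 : ℤ) : ℚ_[ℓ])‖ = 1 := by
        refine le_antisymm (Padic.norm_int_le_one 3) (not_lt.1 fun hlt => ?_)
        have := (Padic.norm_intCast_lt_one_iff (k := 3)).1 hlt
        norm_cast at this
        exact h3 ((Nat.prime_dvd_prime_iff_eq Fact.out Nat.prime_three).1 this)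
      refine padic_norm_le_one_of_monic_four n3 hb₂ (nsmall 3 _ hb₄) (nsmall 3 _ hb₆)
        (hsub _ _ hb₈ (hunorm 8 _ hb₈')) ?_
      push_cast
      linear_combination e8
  -- `s` is integral
  have e2 : V.a₂ - C.s * V.a₁ + 3 * C.r - C.s ^ 2 = u ^ 2 * V'.a₂ := by
    rw [← h, variableChange_a₂, ← mul_assoc, ← mul_pow, mul_comm u, huinv, one_pow, one_mul]
  have hs : ‖C.s‖ ≤ 1 :=
    padic_norm_le_one_of_monic_two hW.1
      (hsub _ _ (hunorm 2 _ hW'.2.1) (hadd _ _ hW.2.1 (nsmall 3 _ hr)))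
      (by push_cast; linear_combination -e2)
  -- `t` is integral
  have e6a : V.a₆ + C.r * V.a₄ + C.r ^ 2 * V.a₂ + C.r ^ 3 - C.t * V.a₃ - C.t ^ 2
      - C.r * C.t * V.a₁ = u ^ 6 * V'.a₆ := by
    rw [← h, variableChange_a₆, ← mul_assoc, ← mul_pow, mul_comm u, huinv, one_pow, one_mul]
  have ht : ‖C.t‖ ≤ 1 :=
    padic_norm_le_one_of_monic_two (hadd _ _ hW.2.2.1 (hmul _ _ hr hW.1))
      (hsub _ _ (hunorm 6 _ hW'.2.2.2.2)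
        (hadd _ _ (hadd _ _ (hadd _ _ hW.2.2.2.2 (hmul _ _ hr hW.2.2.2.1))
          (hmul _ _ (hmul _ _ hr hr) hW.2.1)) (hmul _ _ (hmul _ _ hr hr) hr)))
      (by linear_combination -e6a)
  let U : ℤ_[ℓ]ˣ := PadicInt.mkUnits hu
  refine ⟨⟨U, ⟨C.r, hr⟩, ⟨C.s, hs⟩, ⟨C.t, ht⟩⟩, ?_⟩
  refine WeierstrassCurve.map_injective (f := PadicInt.Coe.ringHom (p := ℓ))
    Subtype.coe_injective ?_
  show _ = W'.map PadicInt.Coe.ringHom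
  simp only [← map_variableChange]
  rw [← hV', ← h, hV]
  congr 1
  ext <;> simp [VariableChange.map, U, PadicInt.Coe.ringHom] <;> rfl

/-- `a_ℓ` is the same for all integral models with good reduction at `ℓ`. -/
theorem apOfModel_eq_of_integralModels {E : WeierstrassCurve ℚ} {W W' : WeierstrassCurve ℤ}
    (hW : W.IsIntegralModelOf E) (hW' : W'.IsIntegralModelOf E) {ℓ : ℕ} (hℓ : ℓ.Prime)
    (hgood : W.IsGoodPrimeFor ℓ) (hgood' : W'.IsGoodPrimeFor ℓ) :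
    W.apOfModel ℓ = W'.apOfModel ℓ := by
  have : Fact ℓ.Prime := ⟨hℓ⟩
  obtain ⟨C₁, hC₁⟩ := hW
  obtain ⟨C₂, hC₂⟩ := hW'
  set c : ℤ →+* ℤ_[ℓ] := Int.castRingHom ℤ_[ℓ]
  have hunit : ∀ V : WeierstrassCurve ℤ, V.IsGoodPrimeFor ℓ → IsUnit (V.map c).Δ := fun V hV => by
    rw [map_Δ, PadicInt.isUnit_iff]
    exact le_antisymm (PadicInt.norm_le_one _) (not_lt.1 fun hlt =>
      hV ((PadicInt.norm_int_lt_one_iff_dvd _).1 hlt))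
  have hcomp : (PadicInt.Coe.ringHom (p := ℓ)).comp c =
      (Rat.castHom ℚ_[ℓ]).comp (Int.castRingHom ℚ) := RingHom.ext_int _ _
  have hQ : (C₂ * C₁⁻¹) • W.map (Int.castRingHom ℚ) = W'.map (Int.castRingHom ℚ) := by
    rw [← hC₁, ← hC₂, mul_smul, inv_smul_smul]
  have hK : ((C₂ * C₁⁻¹).map (Rat.castHom ℚ_[ℓ])) • (W.map c).map PadicInt.Coe.ringHom
      = (W'.map c).map PadicInt.Coe.ringHom := by
    rw [WeierstrassCurve.map_map, WeierstrassCurve.map_map, hcomp, ← WeierstrassCurve.map_map,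
      ← WeierstrassCurve.map_map, map_variableChange, hQ]
  obtain ⟨D, hD⟩ := exists_integral_variableChange (hunit W hgood) (hunit W' hgood') hK
  have hred : (D.map (PadicInt.toZMod (p := ℓ))) • W.reductionMod ℓ = W'.reductionMod ℓ := by
    have e : (PadicInt.toZMod (p := ℓ)).comp c = Int.castRingHom (ZMod ℓ) := RingHom.ext_int _ _
    rw [reductionMod, reductionMod, ← e, ← WeierstrassCurve.map_map, ← WeierstrassCurve.map_map,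
      map_variableChange, hD]
  have hcard : (W'.reductionMod ℓ).card = (W.reductionMod ℓ).card :=
    Nat.card_congr (Fermat.Agent.EC.vcPointEquiv hred).toEquiv
  rw [apOfModel, apOfModel, traceOfFrobenius, traceOfFrobenius, hcard]

end Fermat.Agent.RT
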