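import Fermat.Prelude.Def_FLTPrelim_ModularRep
import Fermat.Prelude.Def_GaloisRep_Residual
import Fermat.Agent.EC.Torsion.Rat
import Fermat.Agent.Density.CharpolyDetermines
import Fermat.Agent.Galois.Frobenius
import Mathlib.LinearAlgebra.Charpoly.BaseChange
import Mathlib.RingTheory.Ideal.Quotient.Basic

/-!
# Residual modularity is insensitive to finitely many primes

If the coefficients of an eigenform of level `M` are congruent to the `a_ℓ` of a curve at almost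
all primes, they are congruent at every good prime `ℓ ∤ M`, `ℓ ≠ p`: both are traces of Frobenius
in residual representations with equal characteristic polynomials.
-/

set_option autoImplicit false

set_option linter.style.haveILetI false
set_option maxHeartbeats 200000

noncomputable section

open scoped WeierstrassCurve.Affine
open Polynomial

namespace Fermat.Agent.RT

local notation "ℚ̄" => AlgebraicClosure ℚ

local instance : DecidableEq ℚ̄ := Classical.decEq _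

/-- The statement of S29, as a proposition. -/
def EigenformResidualRep : Prop :=
  ∀ {N : ℕ} {g : CuspForm (CongruenceSubgroup.Gamma0 N) 2}, g.IsNormalizedEigenform →
    ∀ {p : ℕ}, p.Prime → ∀ {k : Type} [Field k] [CharP k p] (φ : integralClosure ℤ ℂ →+* k),
    ∃ ρ : ResidualGaloisRep k, ρ.IsAttachedTo g φ ∧
      ∀ ℓ : ℕ, ℓ.Prime → ¬ ℓ ∣ N * p → ρ.IsUnramifiedAt ℓ

/-- The characteristic polynomial of Frobenius on the torsion of an integral curve. -/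
def TorsionFrobeniusCharpoly : Prop :=
  ∀ (W : WeierstrassCurve ℤ) [(W.map (Int.castRingHom ℚ)).IsElliptic] (p : ℕ) [Fact p.Prime]
    (ℓ : ℕ), ℓ.Prime → ℓ ≠ p → W.IsGoodPrimeFor ℓ →
    ∀ A : ValuationSubring ℚ̄, A.LiesOverPrime ℓ → ∀ σ : ℚ̄ ≃ₐ[ℚ] ℚ̄, A.IsFrobeniusAt σ ℓ →
      LinearMap.charpoly ((EC.torsionRepRat (W.map (Int.castRingHom ℚ)) p).ρ σ) =
        X ^ 2 - C (W.apOfModel ℓ : ZMod p) * X + C (ℓ : ZMod p)

theorem charpoly_baseChangeAlong {k k' : Type} [Field k] [Field k'] (f : k →+* k')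
    (ρ : ResidualGaloisRep k) (σ : ℚ̄ ≃ₐ[ℚ] ℚ̄) :
    LinearMap.charpoly ((ρ.baseChangeAlong f).ρ σ) = (LinearMap.charpoly (ρ.ρ σ)).map f := by
  let : Algebra k k' := f.toAlgebra
  show LinearMap.charpoly ((ρ.ρ σ).baseChange k') = _
  exact LinearMap.charpoly_baseChange _ _

theorem isResiduallyModularOfLevel_of_cofinite (hS29 : EigenformResidualRep)
    (hFrob : TorsionFrobeniusCharpoly) {W : WeierstrassCurve ℤ} (hΔ : W.Δ ≠ 0)
    {p : ℕ} (hp : p.Prime) {M : ℕ} (hM : 0 < M)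
    {g : CuspForm (CongruenceSubgroup.Gamma0 M) 2} (hg : g.IsNormalizedEigenform)
    {𝔪 : Ideal (integralClosure ℤ ℂ)} (hmax : 𝔪.IsMaximal)
    (hpm : (p : integralClosure ℤ ℂ) ∈ 𝔪) (S : Finset ℕ)
    (hcong : ∀ ℓ : ℕ, ℓ.Prime → ℓ ∉ S → ∃ a : integralClosure ℤ ℂ,
      (a : ℂ) = ModularFormClass.qCoeff g ℓ ∧
        a - ((W.apOfModel ℓ : ℤ) : integralClosure ℤ ℂ) ∈ 𝔪) :
    W.IsResiduallyModularOfLevel p M := by
  classical
  haveI : Fact p.Prime := ⟨hp⟩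
  haveI : (W.map (Int.castRingHom ℚ)).IsElliptic :=
    ⟨isUnit_iff_ne_zero.2 (by simpa [WeierstrassCurve.map_Δ] using hΔ)⟩
  letI : Field (integralClosure ℤ ℂ ⧸ 𝔪) := Ideal.Quotient.field 𝔪
  set φ : integralClosure ℤ ℂ →+* integralClosure ℤ ℂ ⧸ 𝔪 := Ideal.Quotient.mk 𝔪 with hφ
  have hp0 : (p : integralClosure ℤ ℂ ⧸ 𝔪) = 0 := by
    rw [← map_natCast φ, hφ, Ideal.Quotient.eq_zero_iff_mem]
    exact hpm
  haveI : CharP (integralClosure ℤ ℂ ⧸ 𝔪) p := (CharP.charP_iff_prime_eq_zero hp).2 hp0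
  obtain ⟨ρ, hρ, -⟩ := hS29 hg hp φ
  set ι : ZMod p →+* integralClosure ℤ ℂ ⧸ 𝔪 := ZMod.castHom dvd_rfl _ with hι
  set ρW : ResidualGaloisRep (integralClosure ℤ ℂ ⧸ 𝔪) :=
    (EC.torsionRepRat (W.map (Int.castRingHom ℚ)) p).baseChangeAlong ι with hρW
  have hW : ∀ ℓ : ℕ, ℓ.Prime → ℓ ≠ p → W.IsGoodPrimeFor ℓ → ∀ A : ValuationSubring ℚ̄,
      A.LiesOverPrime ℓ → ∀ σ : ℚ̄ ≃ₐ[ℚ] ℚ̄, A.IsFrobeniusAt σ ℓ →
      LinearMap.charpoly (ρW.ρ σ) = X ^ 2 - C (φ ((W.apOfModel ℓ : ℤ) : integralClosure ℤ ℂ)) * X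
        + C (ℓ : integralClosure ℤ ℂ ⧸ 𝔪) := by
    intro ℓ hℓ hℓp hgood A hA σ hσ
    rw [hρW, charpoly_baseChangeAlong, hFrob W p ℓ hℓ hℓp hgood A hA σ hσ]
    simp [hι]
  have hne : ∀ ℓ : ℕ, ℓ.Prime → ℓ ≠ p → (ℓ : integralClosure ℤ ℂ ⧸ 𝔪) ≠ 0 := fun ℓ hℓ hℓp h0 =>
    hℓp ((Nat.prime_dvd_prime_iff_eq hp hℓ).1 ((CharP.cast_eq_zero_iff _ p ℓ).1 h0)).symm
  set S' : Finset ℕ := S ∪ {p} ∪ M.primeFactors ∪ W.Δ.natAbs.primeFactors with hS'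
  have key : ∀ σ, LinearMap.charpoly (ρ.ρ σ) = LinearMap.charpoly (ρW.ρ σ) := by
    refine Density.residual_charpoly_eq_of_frobenius ρ ρW S' fun ℓ hℓ hℓS A hA σ hσ => ?_
    simp only [hS', Finset.mem_union, Finset.mem_singleton, Nat.mem_primeFactors, not_or] at hℓS
    obtain ⟨⟨⟨h1, h2⟩, h3⟩, h4⟩ := hℓS
    have hℓM : ¬ ℓ ∣ M := fun hd => h3 ⟨hℓ, hd, hM.ne'⟩
    have hgood : W.IsGoodPrimeFor ℓ := fun hd =>
      h4 ⟨hℓ, Int.natCast_dvd.1 hd, Int.natAbs_ne_zero.2 hΔ⟩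
    obtain ⟨a, ha, hch⟩ := hρ ℓ hℓ hℓM (hne ℓ hℓ h2) A hA σ hσ
    obtain ⟨b, hb, hbm⟩ := hcong ℓ hℓ h1
    obtain rfl : a = b := Subtype.ext (ha.trans hb.symm)
    rw [hch, hW ℓ hℓ h2 hgood A hA σ hσ,
      show φ a = φ ((W.apOfModel ℓ : ℤ) : integralClosure ℤ ℂ) from Ideal.Quotient.eq.2 hbm]
  refine ⟨g, 𝔪, hg, hmax, hpm, fun ℓ hℓ hgood hℓM hℓp => ?_⟩
  obtain ⟨A, σ, hA, hσ⟩ := Galois.exists_valuationSubring_isFrobeniusAt hℓ
  obtain ⟨a, ha, hch⟩ := hρ ℓ hℓ hℓM (hne ℓ hℓ hℓp) A hA σ hσ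
  refine ⟨a, ha, Ideal.Quotient.eq.1 ?_⟩
  have h := congrArg (fun P => Polynomial.coeff P 1)
    ((hch.symm.trans (key σ)).trans (hW ℓ hℓ hℓp hgood A hA σ hσ))
  simpa [hφ, coeff_X, coeff_C, coeff_X_pow] using h

/-- A Frey modularity witness on any integral model gives one on any other model. -/
theorem isResiduallyModularOfLevel_of_model (hS29 : EigenformResidualRep)
    (hFrob : TorsionFrobeniusCharpoly) {W : WeierstrassCurve ℤ} (hΔ : W.Δ ≠ 0) {p : ℕ}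
    (hp : p.Prime) {M : ℕ} (hM : 0 < M) {W' : WeierstrassCurve ℤ} (hΔ' : W'.Δ ≠ 0)
    (hap : ∀ ℓ : ℕ, ℓ.Prime → W.IsGoodPrimeFor ℓ → W'.IsGoodPrimeFor ℓ →
      W'.apOfModel ℓ = W.apOfModel ℓ)
    (h : W'.IsResiduallyModularOfLevel p M) : W.IsResiduallyModularOfLevel p M := by
  classical
  obtain ⟨g, 𝔪, hg, hmax, hpm, hcong⟩ := h
  refine isResiduallyModularOfLevel_of_cofinite hS29 hFrob hΔ hp hM hg hmax hpm
    ({p} ∪ M.primeFactors ∪ W.Δ.natAbs.primeFactors ∪ W'.Δ.natAbs.primeFactors)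
    fun ℓ hℓ hℓS => ?_
  simp only [Finset.mem_union, Finset.mem_singleton, Nat.mem_primeFactors, not_or] at hℓS
  obtain ⟨⟨⟨h1, h2⟩, h3⟩, h4⟩ := hℓS
  have hgood : W.IsGoodPrimeFor ℓ := fun hd =>
    h3 ⟨hℓ, Int.natCast_dvd.1 hd, Int.natAbs_ne_zero.2 hΔ⟩
  have hgood' : W'.IsGoodPrimeFor ℓ := fun hd =>
    h4 ⟨hℓ, Int.natCast_dvd.1 hd, Int.natAbs_ne_zero.2 hΔ'⟩
  obtain ⟨a, ha, ham⟩ := hcong ℓ hℓ hgood' (fun hd => h2 ⟨hℓ, hd, hM.ne'⟩) h1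
  exact ⟨a, ha, by rwa [← hap ℓ hℓ hgood hgood']⟩

end Fermat.Agent.RT
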