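import Fermat.Prelude.Def_FreyPackage_GaloisRep
import Fermat.Prelude.Def_FreyPackage_IsConductorLevel
import Fermat.Prelude.Def_WeierstrassCurve_PeuRamifiee
import Fermat.Agent.Endgame.FreyCurve
import Fermat.Agent.EC.Det.Transport
import Fermat.Agent.RT.ModelInvariance
import Fermat.Agent.RT.ResidualExtend

/-!
# The Frey forms of level lowering (S43, S44) from the curve forms (S38, S39)
-/

set_option autoImplicit false

noncomputable section

open scoped WeierstrassCurve.Affine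
open WeierstrassCurve WeierstrassCurve.Affine.Point

namespace Fermat.Agent.RT

local notation "ℚ̄" => AlgebraicClosure ℚ

/-- The statement of S38, as a proposition. -/
def RibetLowering : Prop :=
  ∀ (p : ℕ) [Fact p.Prime], p ≠ 2 → ∀ (W : WeierstrassCurve ℤ), W.Δ ≠ 0 → W.IsSemistableModel →
    ∀ (hcard₁ : Nat.card (Submodule.torsionBy ℤ
      ((W.map (Int.castRingHom ℚ))⁄(AlgebraicClosure ℚ)).Point p) = p ^ 2)
    (hker : GaloisFactorsThroughFiniteLevel
      (WeierstrassCurve.Affine.Point.galoisRepModuleEnd (K := AlgebraicClosure ℚ) ℚ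
        (W.map (Int.castRingHom ℚ)) p)),
    W.ModRepIsIrreducible p → ∀ (M q : ℕ), q.Prime → q ≠ p → q ∣ M → ¬ q ^ 2 ∣ M → Squarefree M →
    ((W.map (Int.castRingHom ℚ)).residualGaloisRepOf p hcard₁ hker).IsUnramifiedAt q →
    W.IsResiduallyModularOfLevel p M → W.IsResiduallyModularOfLevel p (M / q)

/-- The statement of S39, as a proposition. -/
def MazurRibetLowering : Prop :=
  ∀ (W : WeierstrassCurve ℤ), W.Δ ≠ 0 → ∀ {p : ℕ}, p.Prime → p ≠ 2 →
    ((p : ℤ) ∣ W.Δ → ¬ (p : ℤ) ∣ W.c₄) → W.ModRepIsIrreducible p →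
    (W.map (Int.castRingHom ℚ)).IsPeuRamifieeAt p p →
    ∀ {M : ℕ}, 0 < M → p ∣ M → ¬ p ^ 2 ∣ M →
    W.IsResiduallyModularOfLevel p M → W.IsResiduallyModularOfLevel p (M / p)

variable (P : FreyPackage)

theorem frey_modRepIsIrreducible
    (hirr : GaloisRepIsIrreducible (K := AlgebraicClosure ℚ) ℚ P.freyCurve P.p) :
    P.freyCurveInt.ModRepIsIrreducible P.p := by
  rw [WeierstrassCurve.ModRepIsIrreducible, Endgame.freyCurveInt_map]
  exact hirr

/-- A Frey modularity witness can be moved to the standard integral model. -/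
theorem freyCurveInt_isResiduallyModular (hS29 : EigenformResidualRep)
    (hFrob : TorsionFrobeniusCharpoly) {N : ℕ} (hN : 0 < N) (h : P.ModularRepOfLevel N) :
    P.freyCurveInt.IsResiduallyModularOfLevel P.p N := by
  obtain ⟨f, W, 𝔪, hf, hW, hmax, hpm, hcong⟩ := h
  have : P.freyCurve.IsElliptic := Endgame.freyCurve_isElliptic P
  exact isResiduallyModularOfLevel_of_model hS29 hFrob (Endgame.freyCurveInt_Δ_ne_zero P) P.pp hN
    (EC.IsIntegralModelOf.Δ_ne_zero hW)
    (fun ℓ hℓ hg hg' => apOfModel_eq_of_integralModels hW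
      (Endgame.isIntegralModelOf_freyCurve P) hℓ hg' hg)
    ⟨f, 𝔪, hf, hmax, hpm, hcong⟩

theorem modularRepOfLevel_of_freyCurveInt {N : ℕ}
    (h : P.freyCurveInt.IsResiduallyModularOfLevel P.p N) : P.ModularRepOfLevel N := by
  obtain ⟨f, 𝔪, hf, hmax, hpm, hcong⟩ := h
  exact ⟨f, P.freyCurveInt, 𝔪, hf, Endgame.isIntegralModelOf_freyCurve P, hmax, hpm, hcong⟩

/-- S43 from S38, S29 and the Frobenius characteristic polynomial on torsion. -/
theorem frey_lowering_of_ribet (hS29 : EigenformResidualRep) (hFrob : TorsionFrobeniusCharpoly)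
    (hS38 : RibetLowering) {N q : ℕ} (hcond : P.IsConductorLevel N) (hq : q.Prime)
    (hqp : q ≠ P.p) (hqN : q ∣ N)
    (hirr : GaloisRepIsIrreducible (K := AlgebraicClosure ℚ) ℚ P.freyCurve P.p)
    (hmod : P.ModularRepOfLevel N) (hunr : P.GaloisRepUnramifiedAt q) :
    ∃ M : ℕ, M ∣ N ∧ ¬ q ∣ M ∧ P.ModularRepOfLevel M := by
  have : Fact P.p.Prime := ⟨P.pp⟩
  have hE : (P.freyCurveInt.map (Int.castRingHom ℚ)).IsElliptic := by
    rw [Endgame.freyCurveInt_map]
    exact Endgame.freyCurve_isElliptic P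
  refine ⟨N / q, Nat.div_dvd_of_dvd hqN, fun hd => hcond.sq_not_dvd hq ?_,
    modularRepOfLevel_of_freyCurveInt P ?_⟩
  · rw [pow_two]
    exact (mul_dvd_mul_left q hd).trans (dvd_of_eq (Nat.mul_div_cancel' hqN))
  refine hS38 P.p (by have := P.hp5; omega) P.freyCurveInt (Endgame.freyCurveInt_Δ_ne_zero P)
    (Endgame.isSemistableModel P) (EC.natCard_torsion_rat _ P.pp.ne_zero)
    (EC.galoisRepModuleEnd_factorsThroughFiniteLevel _ P.pp.ne_zero)
    (frey_modRepIsIrreducible P hirr) N q hq hqp hqN (hcond.sq_not_dvd hq) hcond.squarefree ?_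
    (freyCurveInt_isResiduallyModular P hS29 hFrob hcond.pos hmod)
  have h := hunr
  rw [FreyPackage.GaloisRepUnramifiedAt, ← Endgame.freyCurveInt_map P] at h
  intro A hA σ hσ
  exact LinearMap.ext fun x => h A hA σ hσ x

theorem freyCurve_isPeuRamifieeAt :
    (P.freyCurveInt.map (Int.castRingHom ℚ)).IsPeuRamifieeAt P.p P.p := by
  have : Fact P.p.Prime := ⟨P.pp⟩
  rw [Endgame.freyCurveInt_map, WeierstrassCurve.IsPeuRamifieeAt, Endgame.freyCurve_Δ]
  have hX : ((P.a * P.b * P.c : ℤ) : ℚ) ≠ 0 := Int.cast_ne_zero.2 P.habc0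
  rw [padicValRat.div (pow_ne_zero _ hX) (by norm_num), padicValRat.pow,
    padicValRat.pow, show padicValRat P.p (2 : ℚ) = 0 from ?_]
  · simp only [mul_zero, sub_zero]
    exact Dvd.dvd.mul_right (by push_cast; exact dvd_mul_left _ _) _
  · rw [show (2 : ℚ) = ((2 : ℕ) : ℚ) by norm_num, padicValRat.of_nat,
      padicValNat.eq_zero_of_not_dvd fun hd => by
        have := Nat.le_of_dvd two_pos hd
        have := P.hp5
        omega]
    rfl

/-- S44 from S39, S29 and the Frobenius characteristic polynomial on torsion. -/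
theorem frey_lowering_at_p_of (hS29 : EigenformResidualRep) (hFrob : TorsionFrobeniusCharpoly)
    (hS39 : MazurRibetLowering) {N : ℕ} (hcond : P.IsConductorLevel N) (hpN : P.p ∣ N)
    (hirr : GaloisRepIsIrreducible (K := AlgebraicClosure ℚ) ℚ P.freyCurve P.p)
    (hmod : P.ModularRepOfLevel N) :
    ∃ M : ℕ, M ∣ N ∧ ¬ P.p ∣ M ∧ P.ModularRepOfLevel M := by
  refine ⟨N / P.p, Nat.div_dvd_of_dvd hpN, fun hd => hcond.sq_not_dvd P.pp ?_,
    modularRepOfLevel_of_freyCurveInt P ?_⟩
  · rw [pow_two]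
    exact (mul_dvd_mul_left P.p hd).trans (dvd_of_eq (Nat.mul_div_cancel' hpN))
  exact hS39 P.freyCurveInt (Endgame.freyCurveInt_Δ_ne_zero P) P.pp
    (by have := P.hp5; omega) (fun hd => Endgame.isSemistableModel P P.p P.pp hd)
    (frey_modRepIsIrreducible P hirr) (freyCurve_isPeuRamifieeAt P) hcond.pos hpN
    (hcond.sq_not_dvd P.pp) (freyCurveInt_isResiduallyModular P hS29 hFrob hcond.pos hmod)

end Fermat.Agent.RT
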