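import Fermat.Prelude.Def_GaloisRep_LocalConditions
import Fermat.Agent.Endgame.FreyCurve
import Fermat.Agent.EC.Det.Cyclotomic
import Fermat.Agent.EC.Mult.FixedLine
import Fermat.Agent.EC.Torsion.Rat
import Fermat.Agent.Density.AbsIrr
import Fermat.Agent.RT.FreyLowering
import Mathlib.FieldTheory.Finite.Basic

/-!
# Residual facts about the Frey representation (PATCH part 0)

* `freyRep P`: `E[p]` as a `ResidualGaloisRep (ZMod p)`, and its properties;
* `freyRep_tw`: the Taylor–Wiles hypothesis, from a non-trivial unipotent inertia element at `2`.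
-/

set_option autoImplicit false
set_option linter.style.haveILetI false

noncomputable section

open WeierstrassCurve.Affine.Point (GaloisRepIsIrreducible galoisRepModuleEnd)
open scoped WeierstrassCurve.Affine TensorProduct
open Polynomial

namespace Fermat.Agent.RT

local notation "ℚ̄" => AlgebraicClosure ℚ
local notation "Γℚ" => (AlgebraicClosure ℚ ≃ₐ[ℚ] AlgebraicClosure ℚ)

section Abstract

variable {k : Type} [Field k]

theorem tmul_one_injective {K : Type*} [Field K] [Algebra k K] {V : Type*} [AddCommGroup V]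
    [Module k V] {v w : V} (h : (1 : K) ⊗ₜ[k] v = (1 : K) ⊗ₜ[k] w) : v = w := by
  rw [← sub_eq_zero, ← TensorProduct.tmul_sub] at h
  exact sub_eq_zero.1 ((Module.FaithfullyFlat.one_tmul_eq_zero_iff k V (A := K) (v - w)).1 h)

theorem pow_char_eq_one_of_unipotent {V : Type*} [AddCommGroup V] [Module k V] {p : ℕ}
    [Fact p.Prime] (hp : (p : k) = 0) (u : Module.End k V) (hu : (u - 1) * (u - 1) = 0) :
    u ^ p = 1 := by
  have h : ∀ n : ℕ, u ^ n = 1 + n • (u - 1) := by
    intro n
    induction n with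
    | zero => simp
    | succ n ih =>
      rw [pow_succ, ih, succ_nsmul, add_mul, one_mul, smul_mul_assoc,
        show (u - 1) * u = (u - 1) * (u - 1) + (u - 1) by noncomm_ring, hu, zero_add]
      abel
  rw [h, ← Nat.cast_smul_eq_nsmul k, hp, zero_smul, add_zero]

/-- An absolutely irreducible representation with a non-trivial unipotent element stays
irreducible on every subgroup of index `2`, over every field extension. -/
theorem eq_bot_or_top_of_index_two {p : ℕ} [Fact p.Prime] (hp2 : p ≠ 2) (hp : (p : k) = 0)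
    (ρ : ResidualGaloisRep k) (habs : ρ.IsAbsolutelyIrreducible)
    (hu : ∃ σ : Γℚ, (ρ.ρ σ - 1) * (ρ.ρ σ - 1) = 0 ∧ ρ.ρ σ ≠ 1)
    (K : Type) [Field K] [Algebra k K] (G : Subgroup Γℚ) (hG : G.index = 2)
    (V : Submodule K (ρ.baseChange K).V)
    (hV : ∀ σ ∈ G, ∀ x ∈ V, (ρ.baseChange K).ρ σ x ∈ V) : V = ⊥ ∨ V = ⊤ := by
  obtain ⟨σ, hσ, hσ1⟩ := hu
  set R := (ρ.baseChange K).ρ with hR
  have h2 : Module.finrank K (ρ.baseChange K).V = 2 := (ρ.baseChange K).finrank_eq
  -- the unipotent element lies in the image of `G`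
  obtain ⟨τ, hτG, hτ⟩ : ∃ τ ∈ G, ρ.ρ τ = ρ.ρ σ := by
    obtain ⟨m, hm⟩ := (Fact.out : p.Prime).odd_of_ne_two hp2
    refine ⟨σ ^ (p + 1), ?_, ?_⟩
    · rw [hm, show 2 * m + 1 + 1 = 2 * (m + 1) by ring, pow_mul, pow_two]
      exact pow_mem (Subgroup.mul_self_mem_of_index_two hG σ) _
    · rw [map_pow, pow_succ, pow_char_eq_one_of_unipotent hp (ρ.ρ σ) hσ, one_mul]
  set N : Module.End K (ρ.baseChange K).V := R τ - 1 with hN
  have hNeq : N = (ρ.ρ σ - 1).baseChange K := by
    rw [hN, LinearMap.baseChange_sub, ← hτ, LinearMap.baseChange_one]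
    rfl
  have hN2 : N * N = 0 := by
    rw [hNeq, ← LinearMap.baseChange_mul, hσ, LinearMap.baseChange_zero]
  have hN0 : N ≠ 0 := by
    intro h0
    refine hσ1 (sub_eq_zero.1 (LinearMap.ext fun v => ?_))
    have h : (ρ.ρ σ - 1).baseChange K ((1 : K) ⊗ₜ[k] v) = 0 :=
      LinearMap.congr_fun (hNeq.symm.trans h0) _
    rw [LinearMap.baseChange_tmul] at h
    rw [LinearMap.zero_apply]
    exact tmul_one_injective (h.trans (TensorProduct.tmul_zero _ _).symm)
  by_cases hb : V = ⊥
  · exact Or.inl hb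
  by_cases ht : V = ⊤
  · exact Or.inr ht
  exfalso
  -- every proper non-zero `G`-stable subspace is the kernel of `N`
  have key : ∀ U : Submodule K (ρ.baseChange K).V, (∀ g ∈ G, ∀ x ∈ U, R g x ∈ U) →
      U ≠ ⊥ → U ≠ ⊤ → U = LinearMap.ker N := by
    intro U hU hUb hUt
    have hlt : Module.finrank K U < 2 := h2 ▸ Submodule.finrank_lt hUt
    have hkerlt : Module.finrank K (LinearMap.ker N) < 2 :=
      h2 ▸ Submodule.finrank_lt fun h => hN0 (LinearMap.ker_eq_top.1 h)
    have hUN : ∀ x ∈ U, N x ∈ U := fun x hx => U.sub_mem (hU τ hτG x hx) hx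
    obtain ⟨x, hxU, hx0⟩ := Submodule.exists_mem_ne_zero_of_ne_bot hUb
    have hU1 : Submodule.span K {x} = U := Submodule.eq_of_le_of_finrank_le
      ((Submodule.span_singleton_le_iff_mem _ _).2 hxU) (by rw [finrank_span_singleton hx0]; omega)
    have hle : U ≤ LinearMap.ker N := by
      rw [← hU1, Submodule.span_singleton_le_iff_mem, LinearMap.mem_ker]
      obtain ⟨c, hc⟩ := Submodule.mem_span_singleton.1 (hU1 ▸ hUN x hxU)
      have h := LinearMap.congr_fun hN2 x
      rw [Module.End.mul_apply, LinearMap.zero_apply, ← hc, map_smul, ← hc, smul_smul,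
        smul_eq_zero, mul_self_eq_zero] at h
      rw [← hc, (h.resolve_right hx0), zero_smul]
    refine Submodule.eq_of_le_of_finrank_le hle ?_
    have : 0 < Module.finrank K U := Submodule.one_le_finrank_iff.2 hUb
    omega
  have hker := key V hV hb ht
  have hGn : G.Normal := Subgroup.normal_of_index_eq_two hG
  suffices hstab : ∀ g, ∀ x ∈ V, R g x ∈ V from
    (Density.baseChange_isIrreducible ρ habs K V hstab).elim hb ht
  intro g x hx
  -- `R g` maps `V` to a `G`-stable line
  have hinv : ∀ y, R g⁻¹ (R g y) = y := fun y => by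
    rw [← Module.End.mul_apply, ← map_mul, inv_mul_cancel, map_one, Module.End.one_apply]
  have hinv' : ∀ y, R g (R g⁻¹ y) = y := fun y => by
    rw [← Module.End.mul_apply, ← map_mul, mul_inv_cancel, map_one, Module.End.one_apply]
  have hmap : ∀ s ∈ G, ∀ y ∈ V.map (R g), R s y ∈ V.map (R g) := by
    rintro s hs _ ⟨y, hy, rfl⟩
    refine ⟨R (g⁻¹ * s * g) y, hV _ ?_ y hy, ?_⟩
    · simpa using hGn.conj_mem s hs g⁻¹
    · rw [map_mul, map_mul, Module.End.mul_apply, Module.End.mul_apply, hinv']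
  have hmb : V.map (R g) ≠ ⊥ := fun h => hb <| eq_bot_iff.2 fun y hy => by
    have h' : R g y ∈ (⊥ : Submodule K (ρ.baseChange K).V) := h ▸ Submodule.mem_map_of_mem hy
    rw [Submodule.mem_bot] at h' ⊢
    rw [← hinv y, h', map_zero]
  have hmt : V.map (R g) ≠ ⊤ := fun h => ht <| eq_top_iff.2 fun y _ => by
    obtain ⟨z, hz, hz'⟩ : R g y ∈ V.map (R g) := h ▸ Submodule.mem_top
    rwa [← hinv y, ← hz', hinv]
  rw [hker, ← key _ hmap hmb hmt]
  exact Submodule.mem_map_of_mem hx

theorem isAbsolutelyIrreducible_baseChangeAlong {k' : Type} [Field k'] (f : k →+* k')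
    (ρ : ResidualGaloisRep k) (h : ρ.IsAbsolutelyIrreducible) :
    (ρ.baseChangeAlong f).IsAbsolutelyIrreducible := by
  letI : Algebra k k' := f.toAlgebra
  rw [Density.isAbsolutelyIrreducible_iff_span] at h ⊢
  let B : Module.End k ρ.V →ₗ[k] Module.End k' (k' ⊗[k] ρ.V) :=
    LinearMap.baseChangeHom k k' ρ.V ρ.V
  have hB : ∀ X : Module.End k ρ.V,
      B X ∈ Submodule.span k' (Set.range fun σ => (ρ.ρ σ).baseChange k') := by
    intro X
    induction (h ▸ Submodule.mem_top : X ∈ Submodule.span k (Set.range ρ.ρ))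
      using Submodule.span_induction with
    | mem Y hY => obtain ⟨σ, rfl⟩ := hY; exact Submodule.subset_span ⟨σ, rfl⟩
    | zero => rw [map_zero]; exact zero_mem _
    | add Y Z _ _ hY hZ => rw [map_add]; exact add_mem hY hZ
    | smul c Y _ hY =>
      rw [map_smul, ← IsScalarTower.algebraMap_smul k' c (B Y)]
      exact Submodule.smul_mem _ _ hY
  show Submodule.span k' (Set.range fun σ => (ρ.ρ σ).baseChange k') = ⊤
  rw [eq_top_iff]
  intro X _
  let b := Module.finBasisOfFinrankEq k ρ.V ρ.finrank_eq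
  let b' := Algebra.TensorProduct.basis k' b
  have hX : X = ∑ i, ∑ j, (b'.repr (X (b' j)) i) • B (b.constr k fun l => if l = j then b i else 0) := by
    refine b'.ext fun l => ?_
    simp only [LinearMap.sum_apply, LinearMap.smul_apply, B, b',
      Algebra.TensorProduct.basis_apply, LinearMap.baseChangeHom_apply, LinearMap.baseChange_tmul,
      Module.Basis.constr_basis]
    conv_lhs => rw [← b'.sum_repr (X _)]
    refine Finset.sum_congr rfl fun i _ => ?_
    rw [Finset.sum_eq_single l (fun j _ hj => by rw [if_neg hj.symm, TensorProduct.tmul_zero, smul_zero])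
      (fun hl => absurd (Finset.mem_univ l) hl), if_pos rfl]
    simp [b', Algebra.TensorProduct.basis_apply]
  rw [hX]
  exact Submodule.sum_mem _ fun i _ => Submodule.sum_mem _ fun j _ =>
    Submodule.smul_mem _ _ (hB _)

/-- In a field with `p ^ 2` elements every quadratic polynomial over `ZMod p` splits. -/
theorem exists_roots_of_natCard_sq {p : ℕ} [Fact p.Prime] (hp2 : p ≠ 2) {k' : Type} [Field k']
    [Finite k'] (hk : Nat.card k' = p ^ 2) (f : ZMod p →+* k') (t d : ZMod p) :
    ∃ α β : k', (X ^ 2 - C (f t) * X + C (f d)) = (X - C α) * (X - C β) := by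
  have := Fintype.ofFinite k'
  have hp : p.Prime := Fact.out
  have hchar : CharP k' p := charP_of_injective_ringHom f.injective p
  have h2 : (2 : k') ≠ 0 := by
    intro h
    have h' : ((2 : ℕ) : k') = 0 := by exact_mod_cast h
    exact hp2 ((Nat.prime_dvd_prime_iff_eq hp Nat.prime_two).1 ((CharP.cast_eq_zero_iff k' p 2).1 h'))
  obtain ⟨s, hs⟩ : IsSquare (f (t ^ 2 - 4 * d)) := by
    rcases eq_or_ne (t ^ 2 - 4 * d) 0 with h0 | h0
    · rw [h0, map_zero]; exact IsSquare.zero
    rw [FiniteField.isSquare_iff (by rw [ringChar.eq k' p]; exact hp2) ((map_ne_zero f).2 h0),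
      ← Nat.card_eq_fintype_card, hk, ← map_pow, show p ^ 2 / 2 = (p - 1) * ((p + 1) / 2) by
        obtain ⟨m, rfl⟩ := hp.odd_of_ne_two hp2
        rw [show (2 * m + 1) ^ 2 = 1 + (2 * m) * (m + 1) * 2 by ring,
          Nat.add_mul_div_right _ _ two_pos, show (2 * m + 1 + 1) / 2 = m + 1 by omega]
        simp,
      pow_mul, ZMod.pow_card_sub_one_eq_one h0, one_pow, map_one]
  refine ⟨(f t + s) / 2, (f t - s) / 2, ?_⟩
  rw [map_sub, map_pow, map_mul, map_ofNat] at hs
  have e1 : C ((f t + s) / 2) + C ((f t - s) / 2) = C (f t) := by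
    rw [← map_add]; congr 1; field_simp; ring
  have e2 : C ((f t + s) / 2) * C ((f t - s) / 2) = C (f d) := by
    rw [← map_mul]; congr 1; field_simp; linear_combination hs
  linear_combination (X : k'[X]) * e1 - e2

end Abstract

section Frey

variable (P : FreyPackage) [Fact P.p.Prime]

instance isElliptic_freyCurveInt_map :
    (P.freyCurveInt.map (Int.castRingHom ℚ)).IsElliptic :=
  EC.isElliptic_map_rat (Endgame.freyCurveInt_Δ_ne_zero P)

/-- The mod `p` representation of the Frey curve, on the standard integral model. -/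
abbrev freyRep : ResidualGaloisRep (ZMod P.p) :=
  EC.torsionRepRat (P.freyCurveInt.map (Int.castRingHom ℚ)) P.p

theorem freyRep_isIrreducible
    (hirr : GaloisRepIsIrreducible (K := ℚ̄) ℚ P.freyCurve P.p) : (freyRep P).IsIrreducible := by
  intro U hU
  exact (frey_modRepIsIrreducible P hirr).2 U fun σ x hx => hU σ x hx

theorem freyRep_isOdd : (freyRep P).IsOdd :=
  EC.residualGaloisRepOf_isOdd (Endgame.freyCurveInt_Δ_ne_zero P) P.p _ _

theorem two_ne_zero_zmod_p : (2 : ZMod P.p) ≠ 0 := by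
  intro h
  have h' : ((2 : ℕ) : ZMod P.p) = 0 := by exact_mod_cast h
  have := Nat.le_of_dvd two_pos ((ZMod.natCast_eq_zero_iff 2 P.p).1 h')
  have := P.hp5
  omega

theorem freyRep_isAbsolutelyIrreducible
    (hirr : GaloisRepIsIrreducible (K := ℚ̄) ℚ P.freyCurve P.p) :
    (freyRep P).IsAbsolutelyIrreducible :=
  Density.isAbsolutelyIrreducible_of_odd _ (two_ne_zero_zmod_p P) (freyRep_isIrreducible P hirr)
    (freyRep_isOdd P)

theorem freyRep_det (σ : Γℚ) :
    LinearMap.det ((freyRep P).ρ σ) =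
      (haveI : NeZero P.p := ⟨P.pp.ne_zero⟩; (EC.cycloChar P.p σ : ZMod P.p)) := by
  haveI : NeZero P.p := ⟨P.pp.ne_zero⟩
  exact EC.det_galoisRepModuleEnd_eq_cycloChar (Endgame.freyCurveInt_Δ_ne_zero P) P.p σ

omit [Fact P.p.Prime] in
theorem not_dvd_padicValInt_two_Δ : ¬ P.p ∣ padicValInt 2 P.freyCurveInt.Δ := by
  intro hd
  have h := congrArg (padicValInt 2) (Endgame.freyCurveInt_Δ P)
  rw [padicValInt.mul (Endgame.freyCurveInt_Δ_ne_zero P) (by norm_num)] at h
  have e1 : padicValInt 2 ((2 : ℤ) ^ 8) = 8 := by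
    rw [padicValInt, Int.natAbs_pow, show ((2 : ℤ).natAbs) = 2 from rfl, padicValNat.prime_pow]
  have e2 : padicValInt 2 ((P.a * P.b * P.c) ^ (2 * P.p)) =
      2 * P.p * padicValInt 2 (P.a * P.b * P.c) := by
    rw [padicValInt, Int.natAbs_pow, padicValNat.pow, padicValInt]
  rw [e1, e2] at h
  have h8 : P.p ∣ 8 := (Nat.dvd_add_right hd).1 (h ▸ (dvd_mul_left P.p 2).mul_right _)
  have h2 : P.p ∣ 2 := P.pp.dvd_of_dvd_pow (n := 3) (by simpa using h8)
  have := Nat.le_of_dvd two_pos h2
  have := P.hp5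
  omega

/-- Inertia at `2` contains a non-trivial unipotent element. -/
theorem freyRep_exists_unipotent (A : ValuationSubring ℚ̄) (hA : A.LiesOverPrime 2) :
    ∃ σ ∈ A.inertiaSubgroupIn ℚ,
      ((freyRep P).ρ σ - 1) * ((freyRep P).ρ σ - 1) = 0 ∧ (freyRep P).ρ σ ≠ 1 := by
  have hp := P.pp
  have hne : P.p ≠ 2 := by have := P.hp5; omega
  obtain ⟨N, -, hfix, hsub⟩ := EC.Mult.exists_inertia_fixed_line (W := P.freyCurveInt)
    (p := P.p) (A := A) Nat.prime_two hA (Endgame.freyCurveInt_Δ_ne_zero P)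
    (Endgame.two_dvd_Δ P) (Endgame.isSemistableModel P 2 Nat.prime_two (Endgame.two_dvd_Δ P)) hp hne
  obtain ⟨σ, hσ, x, hx⟩ := EC.Mult.exists_inertia_moving (W := P.freyCurveInt)
    (p := P.p) (A := A) Nat.prime_two hA (Endgame.freyCurveInt_Δ_ne_zero P)
    (Endgame.two_dvd_Δ P) (Endgame.isSemistableModel P 2 Nat.prime_two (Endgame.two_dvd_Δ P)) hp hne
    (not_dvd_padicValInt_two_Δ P)
  refine ⟨σ, hσ, LinearMap.ext fun (y : Submodule.torsionBy ℤ
      ((P.freyCurveInt.map (Int.castRingHom ℚ))⁄ℚ̄).Point (P.p : ℤ)) => ?_, fun h => hx ?_⟩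
  · show (σ • (σ • y - y) - (σ • y - y)) = 0
    rw [hfix σ hσ _ (hsub σ hσ y), sub_self]
  · exact LinearMap.congr_fun h x

/-- The Taylor–Wiles hypothesis, in the shape used by S56. -/
theorem freyRep_tw {k : Type} [Field k] (f : ZMod P.p →+* k)
    (hirr : GaloisRepIsIrreducible (K := ℚ̄) ℚ P.freyCurve P.p)
    (K : Type) [Field K] [Algebra k K] (G : Subgroup Γℚ) (hG : G.index = 2)
    (V : Submodule K (((freyRep P).baseChangeAlong f).baseChange K).V)
    (hV : ∀ σ ∈ G, ∀ x ∈ V, (((freyRep P).baseChangeAlong f).baseChange K).ρ σ x ∈ V) :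
    V = ⊥ ∨ V = ⊤ := by
  obtain ⟨A, hA⟩ := Galois.exists_valuationSubring_liesOverPrime (L := ℚ̄) Nat.prime_two
  obtain ⟨σ, -, hσ, hσ1⟩ := freyRep_exists_unipotent P A hA
  letI : Algebra (ZMod P.p) k := f.toAlgebra
  refine eq_bot_or_top_of_index_two (p := P.p) (by have := P.hp5; omega)
    (by rw [← map_natCast f, ZMod.natCast_self, map_zero]) _
    (isAbsolutelyIrreducible_baseChangeAlong f _ (freyRep_isAbsolutelyIrreducible P hirr))
    ⟨σ, ?_, ?_⟩ K G hG V hV
  · show (((freyRep P).ρ σ).baseChange k - 1) * (((freyRep P).ρ σ).baseChange k - 1) = 0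
    rw [← LinearMap.baseChange_one (R := ZMod P.p) (A := k), ← LinearMap.baseChange_sub,
      ← LinearMap.baseChange_mul, hσ, LinearMap.baseChange_zero]
  · intro h
    refine hσ1 (LinearMap.ext fun v => ?_)
    have h' := LinearMap.congr_fun
      (show ((freyRep P).ρ σ).baseChange k = 1 from h) ((1 : k) ⊗ₜ[ZMod P.p] v)
    rw [LinearMap.baseChange_tmul, Module.End.one_apply] at h'
    exact tmul_one_injective h'

/-- Over a field with `p ^ 2` elements all characteristic polynomials split. -/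
theorem freyRep_split {k : Type} [Field k] [Finite k] (hk : Nat.card k = P.p ^ 2)
    (f : ZMod P.p →+* k) (σ : Γℚ) :
    ∃ α β : k, LinearMap.charpoly (((freyRep P).baseChangeAlong f).ρ σ) = (X - C α) * (X - C β) := by
  rw [charpoly_baseChangeAlong]
  let b := Module.finBasisOfFinrankEq (ZMod P.p) (freyRep P).V (freyRep P).finrank_eq
  rw [← LinearMap.charpoly_toMatrix _ b, Matrix.charpoly_fin_two]
  simp only [Polynomial.map_sub, Polynomial.map_add, Polynomial.map_mul, Polynomial.map_pow,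
    Polynomial.map_X, Polynomial.map_C]
  exact exists_roots_of_natCard_sq (by have := P.hp5; omega) hk f _ _

theorem freyRep_baseChange_detIsCyclotomic {k : Type} [Field k] (f : ZMod P.p →+* k) :
    (GaloisRepAdic.ofResidualGaloisRep ((freyRep P).baseChangeAlong f)).DetIsCyclotomic P.p := by
  haveI : NeZero P.p := ⟨P.pp.ne_zero⟩
  have hp0 : (P.p : k) = 0 := by rw [← map_natCast f, ZMod.natCast_self, map_zero]
  refine ⟨by rw [hp0]; exact Submodule.zero_mem _, fun n σ a ha => ?_⟩
  rcases Nat.eq_zero_or_pos n with rfl | hn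
  · simp
  obtain ⟨ζ, hζ⟩ := EC.exists_primitiveRoot_qbar P.p
  have hdvd : P.p ∣ P.p ^ n := dvd_pow_self _ hn.ne'
  have hσζ : σ ζ = ζ ^ a := ha ζ (by
    obtain ⟨m, hm⟩ := hdvd
    rw [hm, pow_mul, hζ.pow_eq_one, one_pow])
  have hc := EC.cycloChar_eq_of_apply_eq_pow P.p σ hζ hσζ
  have hdet : LinearMap.det ((GaloisRepAdic.ofResidualGaloisRep
      ((freyRep P).baseChangeAlong f)).ρ σ) = f (LinearMap.det ((freyRep P).ρ σ)) := by
    letI : Algebra (ZMod P.p) k := f.toAlgebra
    show LinearMap.det (((freyRep P).ρ σ).baseChange k) = _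
    exact LinearMap.det_baseChange _
  rw [hdet, freyRep_det, hc, map_natCast, sub_self]
  exact Submodule.zero_mem _

theorem freyRep_isUnramifiedAt {q : ℕ} (h : P.GaloisRepUnramifiedAt q) :
    (freyRep P).IsUnramifiedAt q := by
  have h' := h
  rw [FreyPackage.GaloisRepUnramifiedAt, ← Endgame.freyCurveInt_map P] at h'
  intro A hA σ hσ
  exact LinearMap.ext fun x => h' A hA σ hσ x

end Frey

end Fermat.Agent.RT
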