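import Fermat.Agent.RT.FreyLowering
import Fermat.Agent.EC.Frob.Trace

/-!
# The torsion Frobenius hypothesis is a theorem
-/

set_option autoImplicit false

noncomputable section

namespace Fermat.Agent.RT

theorem torsionFrobeniusCharpoly : TorsionFrobeniusCharpoly := by
  intro W _ p hp ℓ hℓ hℓp hgood A hA σ hσ
  exact EC.charpoly_residualGaloisRepOf W hℓ hA hgood hσ hℓp _ _

end Fermat.Agent.RT
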