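import Mathlib.LinearAlgebra.Matrix.Charpoly.Coeff
import Mathlib.LinearAlgebra.Matrix.GeneralLinearGroup.Defs
import Fermat.Agent.Density.FrobeniusDensity
import Fermat.Agent.Density.PlacesConj
import Fermat.Agent.EC.Det.CyclotomicChar

/-!
# Taylor–Wiles primes from one group element

Given a finite-level representation `ρ : Γ_ℚ → GL₂(k)`, a finite-level cocycle `ψ` in the
determinant-twisted trace-zero adjoint, and an element `σ` fixing `μ_{p^N}` with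
`det ρσ = 1`, `tr(ρσ)² ≠ 4` and `tr(ψσ · ρσ) ≠ 0`, there are arbitrarily large primes
`q ≡ 1 mod p^N` all of whose Frobenius elements have the same three properties.
-/

set_option autoImplicit false

noncomputable section

namespace Fermat.Agent.RT

local notation "Γℚ" => (AlgebraicClosure ℚ ≃ₐ[ℚ] AlgebraicClosure ℚ)

variable {k : Type*} [Field k] {G : Type*} [Group G]

/-- A cocycle for the determinant-twisted adjoint action. -/
def IsTwistedCocycle (ρ : G →* Matrix.GeneralLinearGroup (Fin 2) k)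
    (ψ : G → Matrix (Fin 2) (Fin 2) k) : Prop :=
  ∀ g h, ψ (g * h) = ψ g + (ρ g).1.det • ((ρ g).1 * ψ h * (ρ g⁻¹).1)

variable {ρ : G →* Matrix.GeneralLinearGroup (Fin 2) k} {ψ : G → Matrix (Fin 2) (Fin 2) k}

private theorem val_mul (g h : G) : (ρ (g * h)).1 = (ρ g).1 * (ρ h).1 := by
  rw [map_mul]; rfl

private theorem val_inv_mul (g : G) : (ρ g⁻¹).1 * (ρ g).1 = 1 := by
  rw [← val_mul, inv_mul_cancel, map_one]; rfl

private theorem val_mul_inv (g : G) : (ρ g).1 * (ρ g⁻¹).1 = 1 := by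
  rw [← val_mul, mul_inv_cancel, map_one]; rfl

private theorem val_pow (g : G) (n : ℕ) : (ρ (g ^ n)).1 = (ρ g).1 ^ n := by
  rw [map_pow]; rfl

theorem IsTwistedCocycle.map_one_eq_zero (hψ : IsTwistedCocycle ρ ψ) : ψ 1 = 0 := by
  have h := hψ 1 1
  simp only [mul_one, inv_one, map_one, Units.val_one, Matrix.det_one, one_smul, one_mul] at h
  exact left_eq_add.mp h

theorem det_conj_eq (a g : G) : (ρ (a * g * a⁻¹)).1.det = (ρ g).1.det := by
  rw [val_mul, val_mul, Matrix.det_mul, Matrix.det_mul, mul_right_comm, ← Matrix.det_mul,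
    val_mul_inv, Matrix.det_one, one_mul]

theorem trace_conj_eq (a g : G) : (ρ (a * g * a⁻¹)).1.trace = (ρ g).1.trace := by
  rw [val_mul, val_mul, Matrix.trace_mul_comm, ← mul_assoc, val_inv_mul, one_mul]

/-- The functional `g ↦ tr(ψ g · ρ g)` transforms by the determinant under conjugation. -/
theorem trace_cocycle_conj (hψ : IsTwistedCocycle ρ ψ) (a : G) {g : G} (hg : (ρ g).1.det = 1) :
    (ψ (a * g * a⁻¹) * (ρ (a * g * a⁻¹)).1).trace =
      (ρ a).1.det * (ψ g * (ρ g).1).trace := by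
  have h0 := hψ a a⁻¹
  rw [mul_inv_cancel, hψ.map_one_eq_zero] at h0
  have ha : ψ a = -((ρ a).1.det • ((ρ a).1 * ψ a⁻¹ * (ρ a⁻¹).1)) :=
    eq_neg_of_add_eq_zero_left h0.symm
  have hc : ψ (a * g * a⁻¹) = ψ a +
      (ρ a).1.det • ((ρ a).1 * (ψ g + (ρ g).1 * ψ a⁻¹ * (ρ g⁻¹).1) * (ρ a⁻¹).1) := by
    rw [mul_assoc, hψ, hψ g, hg, one_smul]
  have hA : ∀ X Y : Matrix (Fin 2) (Fin 2) k,
      ((ρ a).1 * X * (ρ a⁻¹).1) * ((ρ a).1 * Y * (ρ a⁻¹).1) = (ρ a).1 * (X * Y) * (ρ a⁻¹).1 := by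
    intro X Y
    simp only [mul_assoc]
    rw [← mul_assoc (ρ a⁻¹).1 (ρ a).1, val_inv_mul, one_mul]
  have htr : ∀ X : Matrix (Fin 2) (Fin 2) k,
      ((ρ a).1 * X * (ρ a⁻¹).1).trace = X.trace := fun X => by
    rw [Matrix.trace_mul_comm, ← mul_assoc, val_inv_mul, one_mul]
  rw [hc, val_mul, val_mul, ha, add_mul, neg_mul, smul_mul_assoc, smul_mul_assoc, hA, hA,
    Matrix.trace_add, Matrix.trace_neg, Matrix.trace_smul, Matrix.trace_smul, htr, htr,
    add_mul, Matrix.trace_add, mul_assoc (ρ g).1 (ψ a⁻¹), mul_assoc (ρ g).1,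
    mul_assoc (ψ a⁻¹), val_inv_mul, mul_one, Matrix.trace_mul_comm (ψ a⁻¹) (ρ g).1,
    smul_eq_mul, smul_eq_mul]
  ring

theorem sq_eq_trace_smul_sub (W : Matrix (Fin 2) (Fin 2) k) (h : W.det = 1) :
    W * W = W.trace • W - 1 := by
  have := Matrix.aeval_self_charpoly W
  rw [Matrix.charpoly_fin_two, h] at this
  simp only [map_sub, map_add, map_mul, map_pow, Polynomial.aeval_X, Polynomial.aeval_C,
    map_one, Algebra.algebraMap_eq_smul_one, smul_mul_assoc, one_mul] at this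
  rw [eq_sub_iff_add_eq, ← sub_eq_zero, ← this, pow_two]
  abel

theorem trace_pow_of_sq_eq_four (W : Matrix (Fin 2) (Fin 2) k) (h : W.det = 1) {e : k}
    (he : W.trace = 2 * e) (he2 : e * e = 1) (n : ℕ) : (W ^ n).trace = 2 * e ^ n := by
  induction n using Nat.twoStepInduction with
  | zero => simp [Matrix.trace_one]
  | one => simpa using he
  | more n ih₁ ih₂ =>
    have hW : W ^ (n + 2) = W.trace • W ^ (n + 1) - W ^ n := by
      rw [pow_add, pow_two, sq_eq_trace_smul_sub W h, mul_sub, mul_smul_comm, ← pow_succ, mul_one]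
    rw [hW, Matrix.trace_sub, Matrix.trace_smul, ih₂, ih₁, he, smul_eq_mul, pow_add, pow_succ]
    linear_combination (2 * e ^ n) * he2

theorem trace_cocycle_pow_eq_zero (hψ : IsTwistedCocycle ρ ψ) (hψ0 : ∀ g, (ψ g).trace = 0)
    {g : G} (hg : (ρ g).1.det = 1) (ht : (ψ g * (ρ g).1).trace = 0) (n : ℕ) :
    (ψ (g ^ n) * (ρ (g ^ n)).1).trace = 0 := by
  have hlin : ∀ m : ℕ, (ψ g * (ρ g).1 ^ m).trace = 0 := by
    intro m
    induction m using Nat.twoStepInduction with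
    | zero => simp [hψ0]
    | one => simpa using ht
    | more m ih₁ ih₂ =>
      rw [pow_add, pow_two, sq_eq_trace_smul_sub _ hg, mul_sub, mul_smul_comm, ← pow_succ, mul_one,
        mul_sub, mul_smul_comm, Matrix.trace_sub, Matrix.trace_smul, ih₁, ih₂, smul_zero, sub_zero]
  have key : ∀ m : ℕ, (ψ (g ^ n) * (ρ g).1 ^ m).trace = 0 := by
    induction n with
    | zero => intro m; simp [hψ.map_one_eq_zero]
    | succ n ih =>
      intro m
      rw [pow_succ', hψ, hg, one_smul, add_mul, Matrix.trace_add, hlin, zero_add,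
        mul_assoc ((ρ g).1 * ψ (g ^ n)), Matrix.trace_mul_comm, ← mul_assoc,
        mul_assoc (ρ g⁻¹).1, (Commute.self_pow _ m).eq.symm, ← mul_assoc, val_inv_mul, one_mul,
        Matrix.trace_mul_comm, ih]
  rw [val_pow]
  exact key n

/-- If a power of `g` is a good element, so is `g`. -/
theorem good_of_good_pow (hψ : IsTwistedCocycle ρ ψ) (hψ0 : ∀ g, (ψ g).trace = 0)
    {g : G} (hg : (ρ g).1.det = 1) {n : ℕ}
    (h4 : (ρ (g ^ n)).1.trace ^ 2 ≠ 4) (ht : (ψ (g ^ n) * (ρ (g ^ n)).1).trace ≠ 0) :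
    (ρ g).1.trace ^ 2 ≠ 4 ∧ (ψ g * (ρ g).1).trace ≠ 0 := by
  refine ⟨fun h => h4 ?_, fun h => ht (trace_cocycle_pow_eq_zero hψ hψ0 hg h n)⟩
  obtain ⟨e, he, he2⟩ : ∃ e : k, (ρ g).1.trace = 2 * e ∧ e * e = 1 := by
    rcases eq_or_eq_neg_of_sq_eq_sq _ 2 (h.trans (by norm_num)) with h' | h'
    · exact ⟨1, by rw [h', mul_one], one_mul 1⟩
    · exact ⟨-1, by rw [h']; ring, by ring⟩
  rw [val_pow, trace_pow_of_sq_eq_four _ hg he he2, mul_pow, ← pow_mul, mul_comm n, pow_mul, sq e,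
    he2, one_pow, mul_one]
  norm_num

theorem exists_taylorWilesPrime (ρ : Γℚ →* Matrix.GeneralLinearGroup (Fin 2) k)
    (ψ : Γℚ → Matrix (Fin 2) (Fin 2) k) (hψ : IsTwistedCocycle ρ ψ)
    (hψ0 : ∀ g, (ψ g).trace = 0)
    (hfin : ∃ L : IntermediateField ℚ (AlgebraicClosure ℚ), FiniteDimensional ℚ L ∧
      ∀ g s : Γℚ, (∀ x ∈ L, s x = x) → ρ (g * s) = ρ g ∧ ψ (g * s) = ψ g)
    {p : ℕ} (hp : p.Prime) (N : ℕ) {σ : Γℚ}
    (hμ : ∀ μ : AlgebraicClosure ℚ, μ ^ p ^ N = 1 → σ μ = μ)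
    (hdet : (ρ σ).1.det = 1) (h4 : (ρ σ).1.trace ^ 2 ≠ 4)
    (ht : (ψ σ * (ρ σ).1).trace ≠ 0) (S : Finset ℕ) :
    ∃ q : ℕ, q.Prime ∧ q ∉ S ∧ q ≠ p ∧ p ^ N ∣ q - 1 ∧
      ∀ P : ValuationSubring (AlgebraicClosure ℚ), P.LiesOverPrime q →
        (∀ τ ∈ P.inertiaSubgroupIn ℚ, ρ τ = 1 ∧ ψ τ = 0) ∧
        ∀ φ : Γℚ, P.IsFrobeniusAt φ q → (ρ φ).1.det = 1 ∧ (ρ φ).1.trace ^ 2 ≠ 4 ∧
          (ψ φ * (ρ φ).1).trace ≠ 0 := by
  classical
  obtain ⟨L, hL, hlev⟩ := hfin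
  have : NeZero (p ^ N) := ⟨pow_ne_zero N hp.ne_zero⟩
  obtain ⟨C, hC, hcyc⟩ := Fermat.Agent.EC.cycloChar_factors (p ^ N)
  let K : IntermediateField ℚ (AlgebraicClosure ℚ) :=
    IntermediateField.normalClosure ℚ (L ⊔ C : IntermediateField ℚ (AlgebraicClosure ℚ))
      (AlgebraicClosure ℚ)
  have : Algebra.IsAlgebraic ℚ (AlgebraicClosure ℚ) := AlgebraicClosure.isAlgebraic ℚ
  have : IsAlgClosure ℚ (AlgebraicClosure ℚ) := ⟨inferInstance, inferInstance⟩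
  have : Normal ℚ (AlgebraicClosure ℚ) := IsAlgClosure.normal ℚ _
  have : Normal ℚ K := normalClosure.normal ℚ _ _
  have : FiniteDimensional ℚ K := normalClosure.is_finiteDimensional ℚ _ _
  let π : Γℚ →* (K ≃ₐ[ℚ] K) := AlgEquiv.restrictNormalHom K
  -- everything factors through `π`
  have hπ : ∀ u v : Γℚ, π u = π v →
      ρ u = ρ v ∧ ψ u = ψ v ∧ Fermat.Agent.EC.cycloChar (p ^ N) u =
        Fermat.Agent.EC.cycloChar (p ^ N) v := by
    intro u v huv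
    have hfix : ∀ x ∈ (L ⊔ C : IntermediateField ℚ (AlgebraicClosure ℚ)), (v⁻¹ * u) x = x := by
      intro x hx
      have hxK : x ∈ K := IntermediateField.le_normalClosure _ hx
      have h1 : π (v⁻¹ * u) = 1 := by rw [map_mul, map_inv, huv, inv_mul_cancel]
      have h2 := (AlgEquiv.restrictNormal_commutes (v⁻¹ * u) K ⟨x, hxK⟩).symm
      rw [show AlgEquiv.restrictNormal (v⁻¹ * u) K = π (v⁻¹ * u) from rfl, h1] at h2
      exact h2
    have h1 := hlev v (v⁻¹ * u) fun x hx => hfix x (SetLike.le_def.mp le_sup_left hx)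
    rw [mul_inv_cancel_left] at h1
    refine ⟨h1.1, h1.2, ?_⟩
    rw [← mul_inv_cancel_left v u, map_mul,
      hcyc _ fun x hx => hfix x (SetLike.le_def.mp le_sup_right hx), mul_one]
  obtain ⟨q, hq, hqS, A, φ₀, hA, hφ₀, hI, hgen⟩ :=
    Fermat.Agent.Density.exists_isFrobeniusAt_zpowers_eq K σ (insert p S)
  rw [Finset.mem_insert, not_or] at hqS
  have hcardσ : Fermat.Agent.EC.cycloChar (p ^ N) σ = 1 := by
    obtain ⟨ζ, hζ⟩ := Fermat.Agent.EC.exists_primitiveRoot_qbar (p ^ N)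
    exact Units.ext (by rw [Fermat.Agent.EC.cycloChar_eq_of_apply_eq_pow (p ^ N) σ hζ (j := 1)
      (by rw [pow_one]; exact hμ ζ hζ.pow_eq_one)]; simp)
  obtain ⟨a, ha⟩ := (mem_powers_iff_mem_zpowers).mpr
    (hgen ▸ Subgroup.mem_zpowers (π φ₀) : π φ₀ ∈ Subgroup.zpowers (π σ))
  obtain ⟨b, hb⟩ := (mem_powers_iff_mem_zpowers).mpr
    (hgen.symm ▸ Subgroup.mem_zpowers (π σ) : π σ ∈ Subgroup.zpowers (π φ₀))
  obtain ⟨hρa, -, hca⟩ := hπ φ₀ (σ ^ a) (by rw [map_pow]; exact ha.symm)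
  obtain ⟨hρb, hψb, -⟩ := hπ σ (φ₀ ^ b) (by rw [map_pow]; exact hb.symm)
  have hdet₀ : (ρ φ₀).1.det = 1 := by
    rw [hρa, val_pow, Matrix.det_pow, hdet, one_pow]
  obtain ⟨h4₀, ht₀⟩ := good_of_good_pow hψ hψ0 hdet₀ (n := b)
    (by rw [← hρb]; exact h4) (by rw [← hρb, ← hψb]; exact ht)
  refine ⟨q, hq, hqS.2, hqS.1, ?_, fun P hP => ?_⟩
  · have hqN : ¬ q ∣ p ^ N := fun h => hqS.1 ((Nat.prime_dvd_prime_iff_eq hq hp).mp
      (hq.dvd_of_dvd_pow h))
    have h := Fermat.Agent.EC.cycloChar_eq_of_isFrobeniusAt hq hqN hA hφ₀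
    rw [hca, map_pow, hcardσ, one_pow, Units.val_one] at h
    have h' : ((q - 1 : ℕ) : ZMod (p ^ N)) = 0 := by
      rw [Nat.cast_sub hq.one_le, ← h]; simp
    exact (ZMod.natCast_eq_zero_iff (q - 1) (p ^ N)).mp h'
  · obtain ⟨φP, hφP⟩ := Fermat.Agent.Galois.exists_isFrobeniusAt P hq hP
    have hall := fun φ (hφ : P.IsFrobeniusAt φ q) =>
      Fermat.Agent.Density.exists_conj_of_isFrobeniusAt π hq hA hφ₀ hI hP hφ
    refine ⟨fun τ hτ => ?_, fun φ hφ => ?_⟩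
    · obtain ⟨h1, h2, -⟩ := hπ τ 1 (((hall φP hφP).2 τ hτ).trans (map_one π).symm)
      exact ⟨h1.trans (map_one ρ), h2.trans hψ.map_one_eq_zero⟩
    · obtain ⟨⟨c, hc⟩, -⟩ := hall φ hφ
      obtain ⟨h1, h2, -⟩ := hπ _ _ hc
      refine ⟨?_, ?_, ?_⟩
      · rw [h1, det_conj_eq, hdet₀]
      · rw [h1, trace_conj_eq]; exact h4₀
      · rw [h1, h2, trace_cocycle_conj hψ c hdet₀]
        exact mul_ne_zero (Matrix.isUnit_iff_isUnit_det _ |>.mp (ρ c).isUnit).ne_zero ht₀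

end Fermat.Agent.RT
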