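import Mathlib.LinearAlgebra.FiniteDimensional.Lemmas
import Fermat.Agent.RT.TWPrime

/-!
# Sets of Taylor–Wiles primes detecting a finite-dimensional space of classes

Given a finite-dimensional space of twisted cocycles, each nonzero member of which admits a good
group element, there are exactly as many Taylor–Wiles primes as its dimension at which the
Frobenius functionals are jointly injective.
-/

set_option autoImplicit false

noncomputable section

namespace Fermat.Agent.RT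

local notation "Γℚ" => (AlgebraicClosure ℚ ≃ₐ[ℚ] AlgebraicClosure ℚ)

variable {k : Type*} [Field k] {V : Type*} [AddCommGroup V] [Module k V]

/-- The functional `v ↦ tr(Ψ v φ · ρ φ)`. -/
def frobFunctional (ρ : Γℚ →* Matrix.GeneralLinearGroup (Fin 2) k)
    (Ψ : V →ₗ[k] (Γℚ → Matrix (Fin 2) (Fin 2) k)) (φ : Γℚ) : V →ₗ[k] k where
  toFun v := (Ψ v φ * (ρ φ).1).trace
  map_add' v w := by simp [add_mul]
  map_smul' c v := by simp

/-- The conditions on a single Taylor–Wiles prime of depth `N`. -/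
def IsTWPrime (ρ : Γℚ →* Matrix.GeneralLinearGroup (Fin 2) k) (p N q : ℕ) : Prop :=
  q.Prime ∧ q ≠ p ∧ p ^ N ∣ q - 1 ∧
    ∀ P : ValuationSubring (AlgebraicClosure ℚ), P.LiesOverPrime q →
      (∀ τ ∈ P.inertiaSubgroupIn ℚ, ρ τ = 1) ∧
      ∀ φ : Γℚ, P.IsFrobeniusAt φ q → (ρ φ).1.det = 1 ∧ (ρ φ).1.trace ^ 2 ≠ 4

variable [FiniteDimensional k V]

/-- A finite-dimensional space of twisted cocycles is detected by as many Taylor–Wiles primes as
its dimension. -/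
theorem exists_taylorWilesPrimes (ρ : Γℚ →* Matrix.GeneralLinearGroup (Fin 2) k)
    (Ψ : V →ₗ[k] (Γℚ → Matrix (Fin 2) (Fin 2) k))
    (hcoc : ∀ v, IsTwistedCocycle ρ (Ψ v)) (htr : ∀ v g, (Ψ v g).trace = 0)
    (hfin : ∀ v, ∃ L : IntermediateField ℚ (AlgebraicClosure ℚ), FiniteDimensional ℚ L ∧
      ∀ g s : Γℚ, (∀ x ∈ L, s x = x) → ρ (g * s) = ρ g ∧ Ψ v (g * s) = Ψ v g)
    {p : ℕ} (hp : p.Prime) (N : ℕ)
    (hel : ∀ v : V, v ≠ 0 → ∃ σ : Γℚ,
      (∀ μ : AlgebraicClosure ℚ, μ ^ p ^ N = 1 → σ μ = μ) ∧ (ρ σ).1.det = 1 ∧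
      (ρ σ).1.trace ^ 2 ≠ 4 ∧ (Ψ v σ * (ρ σ).1).trace ≠ 0)
    (S : Finset ℕ) :
    ∃ qv : Fin (Module.finrank k V) → ℕ, Function.Injective qv ∧
      (∀ i, qv i ∉ S ∧ IsTWPrime ρ p N (qv i)) ∧
      ∀ v : V, (∀ i, ∀ P : ValuationSubring (AlgebraicClosure ℚ), P.LiesOverPrime (qv i) →
        ∀ φ : Γℚ, P.IsFrobeniusAt φ (qv i) → (Ψ v φ * (ρ φ).1).trace = 0) → v = 0 := by
  classical
  suffices h : ∀ m : ℕ, m ≤ Module.finrank k V → ∃ T : Finset ℕ, ∃ W : Submodule k V,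
      T.card = m ∧ Module.finrank k W ≤ Module.finrank k V - m ∧
        (∀ q ∈ T, q ∉ S ∧ IsTWPrime ρ p N q) ∧
        ∀ v, (∀ q ∈ T, ∀ P : ValuationSubring (AlgebraicClosure ℚ), P.LiesOverPrime q →
          ∀ φ : Γℚ, P.IsFrobeniusAt φ q → (Ψ v φ * (ρ φ).1).trace = 0) → v ∈ W by
    obtain ⟨T, W, hT, hW, hgood, hker⟩ := h _ le_rfl
    refine ⟨fun i => (T.equivFinOfCardEq hT).symm i, fun i j hij =>
      (T.equivFinOfCardEq hT).symm.injective (Subtype.ext hij),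
      fun i => hgood _ ((T.equivFinOfCardEq hT).symm i).2, fun v hv => ?_⟩
    have hW0 : W = ⊥ := Submodule.finrank_eq_zero.mp (by omega)
    have hvW : v ∈ W := hker v fun q hq P hP φ hφ => by
      obtain ⟨i, hi⟩ : ∃ i, ((T.equivFinOfCardEq hT).symm i : ℕ) = q :=
        ⟨T.equivFinOfCardEq hT ⟨q, hq⟩, by rw [Equiv.symm_apply_apply]⟩
      subst hi
      exact hv i P hP φ hφ
    rwa [hW0, Submodule.mem_bot] at hvW
  intro m
  induction m with
  | zero => exact fun _ => ⟨∅, ⊤, rfl, by simp, by simp, fun v _ => Submodule.mem_top⟩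
  | succ m ih =>
    intro hm
    obtain ⟨T, W, hT, hW, hgood, hker⟩ := ih (Nat.le_of_succ_le hm)
    obtain ⟨v, hv0, hvW⟩ : ∃ v : V, v ≠ 0 ∧ (W ≠ ⊥ → v ∈ W) := by
      by_cases hW0 : W = ⊥
      · have : Nontrivial V := Module.nontrivial_of_finrank_pos (R := k) (by omega)
        obtain ⟨v, hv⟩ := exists_ne (0 : V)
        exact ⟨v, hv, fun h => absurd hW0 h⟩
      · obtain ⟨v, hv, hv0⟩ := Submodule.exists_mem_ne_zero_of_ne_bot hW0
        exact ⟨v, hv0, fun _ => hv⟩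
    obtain ⟨σ, hμ, hdet, h4, ht⟩ := hel v hv0
    obtain ⟨q, hq, hqS, hqp, hqN, hall⟩ :=
      exists_taylorWilesPrime ρ (Ψ v) (hcoc v) (htr v) (hfin v) hp N hμ hdet h4 ht (S ∪ T)
    rw [Finset.mem_union, not_or] at hqS
    obtain ⟨P, φ, hP, hφ⟩ := Fermat.Agent.Galois.exists_valuationSubring_isFrobeniusAt hq
    refine ⟨insert q T, W ⊓ LinearMap.ker (frobFunctional ρ Ψ φ),
      by rw [Finset.card_insert_of_notMem hqS.2, hT], ?_, ?_, fun w hw => ⟨?_, ?_⟩⟩
    · by_cases hW0 : W = ⊥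
      · have h0 : W ⊓ LinearMap.ker (frobFunctional ρ Ψ φ) = ⊥ := by rw [hW0, bot_inf_eq]
        rw [h0, finrank_bot]
        omega
      · have hlt : W ⊓ LinearMap.ker (frobFunctional ρ Ψ φ) < W := by
          refine lt_of_le_of_ne inf_le_left fun heq => ?_
          have hmem : v ∈ LinearMap.ker (frobFunctional ρ Ψ φ) :=
            (heq.symm ▸ hvW hW0 : v ∈ W ⊓ LinearMap.ker (frobFunctional ρ Ψ φ)).2
          exact ((hall P hP).2 φ hφ).2.2 hmem
        have := Submodule.finrank_lt_finrank_of_lt hlt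
        omega
    · intro q' hq'
      rcases Finset.mem_insert.mp hq' with rfl | h
      · exact ⟨hqS.1, hq, hqp, hqN, fun Q hQ => ⟨fun τ hτ => ((hall Q hQ).1 τ hτ).1,
          fun ψ' hψ' => ⟨((hall Q hQ).2 ψ' hψ').1, ((hall Q hQ).2 ψ' hψ').2.1⟩⟩⟩
      · exact hgood q' h
    · exact hker w fun q' hq' => hw q' (Finset.mem_insert_of_mem hq')
    · exact hw q (Finset.mem_insert_self q T) P hP φ hφ

end Fermat.Agent.RT
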