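import Mathlib.RingTheory.AdicCompletion.Basic
import Mathlib.RingTheory.Artinian.Ring
import Mathlib.RingTheory.Filtration
import Mathlib.RingTheory.HopkinsLevitzki
import Mathlib.RingTheory.LocalRing.Quotient

/-!
# Chevalley's lemma

In a complete Noetherian local ring a decreasing sequence of ideals with zero intersection is
cofinal among powers of the maximal ideal.
-/

noncomputable section

open IsLocalRing

namespace Fermat.Agent.RT

variable {A : Type*} [CommRing A] [IsLocalRing A] [IsNoetherianRing A]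

theorem isArtinianRing_quotient_maximalIdeal_pow (n : ℕ) :
    IsArtinianRing (A ⧸ maximalIdeal A ^ n) := by
  rcases Nat.eq_zero_or_pos n with rfl | hn
  · have : Subsingleton (A ⧸ maximalIdeal A ^ 0) :=
      Ideal.Quotient.subsingleton_iff.mpr (by rw [pow_zero, Ideal.one_eq_top])
    infer_instance
  have : Nontrivial (A ⧸ maximalIdeal A ^ n) :=
    Ideal.Quotient.nontrivial_iff.mpr fun h =>
      (Ideal.IsMaximal.ne_top (I := maximalIdeal A) inferInstance)
        (top_le_iff.mp (h ▸ Ideal.pow_le_self hn.ne'))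
  have : IsLocalRing (A ⧸ maximalIdeal A ^ n) :=
    IsLocalRing.of_surjective' (Ideal.Quotient.mk _) Ideal.Quotient.mk_surjective
  have : IsNoetherianRing (A ⧸ maximalIdeal A ^ n) :=
    isNoetherianRing_of_surjective _ _ (Ideal.Quotient.mk _) Ideal.Quotient.mk_surjective
  rw [isArtinianRing_iff_isNilpotent_maximalIdeal]
  refine ⟨n, ?_⟩
  have hmax : maximalIdeal (A ⧸ maximalIdeal A ^ n) =
      (maximalIdeal A).map (Ideal.Quotient.mk _) :=
    (IsLocalRing.eq_maximalIdeal (Ideal.IsMaximal.map_of_surjective_of_ker_le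
      Ideal.Quotient.mk_surjective (by rw [Ideal.mk_ker]; exact Ideal.pow_le_self hn.ne'))).symm
  rw [hmax, ← Ideal.map_pow, Ideal.map_quotient_self]
  rfl

/-- Chevalley's lemma. -/
theorem exists_le_maximalIdeal_pow [IsAdicComplete (maximalIdeal A) A] (I : ℕ → Ideal A)
    (hanti : Antitone I) (hI : ⨅ N, I N = ⊥) (n : ℕ) : ∃ N, I N ≤ maximalIdeal A ^ n := by
  have hstab : ∀ k, ∃ N₀, ∀ N, N₀ ≤ N → I N₀ ⊔ maximalIdeal A ^ k = I N ⊔ maximalIdeal A ^ k := by
    intro k
    have := isArtinianRing_quotient_maximalIdeal_pow (A := A) k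
    let f : ℕ →o (Submodule (A ⧸ maximalIdeal A ^ k) (A ⧸ maximalIdeal A ^ k))ᵒᵈ :=
      ⟨fun N => OrderDual.toDual ((I N).map (Ideal.Quotient.mk (maximalIdeal A ^ k))),
        fun a b hab => Ideal.map_mono (hanti hab)⟩
    obtain ⟨N₀, hN₀⟩ := IsArtinian.monotone_stabilizes f
    refine ⟨N₀, fun N hN => ?_⟩
    have h := congrArg (Ideal.comap (Ideal.Quotient.mk (maximalIdeal A ^ k)))
      (OrderDual.toDual.injective (hN₀ N hN))
    simpa [Ideal.comap_map_of_surjective _ Ideal.Quotient.mk_surjective,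
      ← RingHom.ker_eq_comap_bot] using h
  choose N₀ hN₀ using hstab
  let S : ℕ → Ideal A := fun k => I (N₀ k) ⊔ maximalIdeal A ^ k
  have hS : ∀ k N, S k ≤ I N ⊔ maximalIdeal A ^ k := by
    intro k N
    rcases le_total (N₀ k) N with h | h
    · exact (hN₀ k N h).le
    · exact sup_le_sup_right (hanti h) _
  refine ⟨N₀ n, fun x hx => ?_⟩
  have hnext : ∀ k, ∀ y ∈ S k, ∃ z ∈ S (k + 1), y - z ∈ maximalIdeal A ^ k := by
    intro k y hy
    obtain ⟨u, hu, v, hv, rfl⟩ := Submodule.mem_sup.mp (hS k (N₀ (k + 1)) hy)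
    exact ⟨u, Submodule.mem_sup_left hu, by simpa using hv⟩
  let seq : ∀ j : ℕ, {y : A // y ∈ S (n + j)} := fun j =>
    Nat.rec ⟨x, Submodule.mem_sup_left hx⟩
      (fun j y => ⟨_, (hnext (n + j) y.1 y.2).choose_spec.1⟩) j
  have hstep : ∀ j, (seq j).1 - (seq (j + 1)).1 ∈ maximalIdeal A ^ (n + j) := fun j =>
    (hnext (n + j) (seq j).1 (seq j).2).choose_spec.2
  have hle : ∀ j l, j ≤ l → (seq j).1 - (seq l).1 ∈ maximalIdeal A ^ (n + j) := by
    intro j l hjl
    induction l, hjl using Nat.le_induction with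
    | base => simp
    | succ l hjl ih =>
      simpa using Ideal.add_mem _ ih
        (Ideal.pow_le_pow_right (Nat.add_le_add_left hjl n) (hstep l))
  obtain ⟨y, hy⟩ := IsPrecomplete.prec' (I := maximalIdeal A) (fun j => (seq j).1)
    (fun {a b} hab => by
      rw [SModEq.sub_mem, smul_eq_mul, Ideal.mul_top]
      exact Ideal.pow_le_pow_right (Nat.le_add_left a n) (hle a b hab))
  have hy' : ∀ j, (seq j).1 - y ∈ maximalIdeal A ^ j := fun j => by
    simpa [SModEq.sub_mem, smul_eq_mul, Ideal.mul_top] using hy j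
  have hyI : ∀ N, y ∈ I N := by
    intro N
    rw [← Ideal.Quotient.eq_zero_iff_mem]
    have hbot := Ideal.iInf_pow_smul_eq_bot_of_isLocalRing (M := A ⧸ I N)
      (maximalIdeal A) (Ideal.IsMaximal.ne_top inferInstance)
    rw [← Submodule.mem_bot A, ← hbot, Submodule.mem_iInf]
    intro j
    obtain ⟨u, hu, v, hv, huv⟩ := Submodule.mem_sup.mp (hS (n + j) N (seq j).2)
    have hy2 : y = u + (v - ((seq j).1 - y)) := by rw [← huv]; ring
    rw [hy2, map_add, Ideal.Quotient.eq_zero_iff_mem.mpr hu, zero_add,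
      show Ideal.Quotient.mk (I N) (v - ((seq j).1 - y)) =
        (v - ((seq j).1 - y)) • (1 : A ⧸ I N) by rw [Algebra.smul_def, mul_one]; rfl]
    exact Submodule.smul_mem_smul
      (Ideal.sub_mem _ (Ideal.pow_le_pow_right (Nat.le_add_left j n) hv) (hy' j))
      Submodule.mem_top
  have hy0 : y = 0 := by
    have : y ∈ ⨅ N, I N := Submodule.mem_iInf _ |>.mpr hyI
    rwa [hI, Submodule.mem_bot] at this
  have h1 : (seq n).1 ∈ maximalIdeal A ^ n := by simpa [hy0] using hy' n
  have h2 : x - (seq n).1 ∈ maximalIdeal A ^ n := hle 0 n (Nat.zero_le n)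
  simpa using Ideal.add_mem _ h2 h1

/-- A jointly injective family of local maps to Hausdorff local rings induces the adic topology. -/
theorem exists_forall_mem_pow_imp [IsAdicComplete (maximalIdeal A) A] {J : Type*}
    {O : J → Type*} [∀ j, CommRing (O j)] [∀ j, IsLocalRing (O j)]
    [∀ j, IsHausdorff (maximalIdeal (O j)) (O j)] (i : ∀ j, A →+* O j)
    (hi : ∀ x : A, (∀ j, i j x = 0) → x = 0) (n : ℕ) :
    ∃ N, ∀ x : A, (∀ j, i j x ∈ maximalIdeal (O j) ^ N) → x ∈ maximalIdeal A ^ n := by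
  obtain ⟨N, hN⟩ := exists_le_maximalIdeal_pow
    (fun N => ⨅ j, (maximalIdeal (O j) ^ N).comap (i j))
    (fun a b hab => iInf_mono fun j => Ideal.comap_mono (Ideal.pow_le_pow_right hab))
    ((Submodule.eq_bot_iff _).mpr fun x hx => hi x fun j =>
      IsHausdorff.haus' (I := maximalIdeal (O j)) _ fun N => by
        have := (Submodule.mem_iInf _).mp ((Submodule.mem_iInf _).mp hx N) j
        simpa [SModEq.zero, smul_eq_mul, Ideal.mul_top] using this) n
  exact ⟨N, fun x hx => hN ((Submodule.mem_iInf _).mpr hx)⟩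

end Fermat.Agent.RT
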