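import Mathlib.LinearAlgebra.Matrix.Charpoly.Coeff
import Mathlib.Tactic.NoncommRing
import Fermat.Agent.Density.BrauerNesbitt

/-!
# Carayol descent in rank two

A representation into `M₂(B)` whose trace takes values in a ring `A ⊆ B` with a local map to a field, whose reduction is
absolutely irreducible and which has an element `c` with `c ^ 2 = 1` of trace zero (complex
conjugation), descends to `M₂(A)`.  The idempotent `(1 + R c) / 2` gives matrix units with all
coordinates given by traces.
-/

noncomputable section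

namespace Fermat.Agent.RT

section Identities

variable {B : Type*} [CommRing B]

/-- For an idempotent of rank one, `e X e = tr (e X) • e`. -/
theorem mul_mul_eq_trace_smul (e X : Matrix (Fin 2) (Fin 2) B) (hd : e.det = 0) :
    e * X * e = (e * X).trace • e := by
  rw [Matrix.det_fin_two] at hd
  ext i j
  fin_cases i <;> fin_cases j <;>
    simp [Matrix.mul_apply, Fin.sum_univ_two, Matrix.trace_fin_two]
  · linear_combination (-X 1 1) * hd
  · linear_combination (X 0 1) * hd
  · linear_combination (X 1 0) * hd
  · linear_combination (-X 0 0) * hd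

/-- A rank one idempotent squares to itself. -/
theorem mul_self_of_rankOne {e : Matrix (Fin 2) (Fin 2) B} (ht : e.trace = 1) (hd : e.det = 0) :
    e * e = e := by
  rw [Density.matrix_two_mul_self, ht, hd, one_smul, zero_smul, sub_zero]

theorem trace_one_sub {e : Matrix (Fin 2) (Fin 2) B} (ht : e.trace = 1) : (1 - e).trace = 1 := by
  rw [Matrix.trace_sub, Matrix.trace_one, ht]; simp; norm_num

theorem det_one_sub {e : Matrix (Fin 2) (Fin 2) B} (ht : e.trace = 1) (hd : e.det = 0) :
    (1 - e).det = 0 := by
  rw [Matrix.det_fin_two] at hd ⊢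
  rw [Matrix.trace_fin_two] at ht
  simp
  linear_combination hd - ht

/-- A system of `2 × 2` matrix units, with the coordinate map it defines. -/
structure Units2 (B : Type*) [CommRing B] where
  /-- the first idempotent -/
  e : Matrix (Fin 2) (Fin 2) B
  /-- a matrix in `e M (1 - e)` -/
  x : Matrix (Fin 2) (Fin 2) B
  /-- a matrix in `(1 - e) M e` -/
  y : Matrix (Fin 2) (Fin 2) B
  trace_e : e.trace = 1
  det_e : e.det = 0
  e_x : e * x = x
  x_e : x * (1 - e) = x
  y_e : y * e = y
  e_y : (1 - e) * y = y
  trace_xy : (x * y).trace = 1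

namespace Units2

variable (U : Units2 B)

/-- The unit `E i j`. -/
def E : Fin 2 → Fin 2 → Matrix (Fin 2) (Fin 2) B :=
  ![![U.e, U.x], ![U.y, 1 - U.e]]

/-- The coordinates of a matrix with respect to the matrix units. -/
def coord (X : Matrix (Fin 2) (Fin 2) B) : Matrix (Fin 2) (Fin 2) B :=
  Matrix.of fun i j => (U.E j i * X).trace

theorem ee : U.e * U.e = U.e := mul_self_of_rankOne U.trace_e U.det_e

theorem ff : (1 - U.e) * (1 - U.e) = 1 - U.e :=
  mul_self_of_rankOne (trace_one_sub U.trace_e) (det_one_sub U.trace_e U.det_e)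

theorem ef : U.e * (1 - U.e) = 0 := by rw [mul_sub, mul_one, U.ee, sub_self]

theorem fe : (1 - U.e) * U.e = 0 := by rw [sub_mul, one_mul, U.ee, sub_self]

theorem xy : U.x * U.y = U.e := by
  calc U.x * U.y = (U.e * U.x) * (U.y * U.e) := by rw [U.e_x, U.y_e]
    _ = U.e * (U.x * U.y) * U.e := by simp [mul_assoc]
    _ = (U.e * (U.x * U.y)).trace • U.e := mul_mul_eq_trace_smul _ _ U.det_e
    _ = U.e := by rw [← mul_assoc, U.e_x, U.trace_xy, one_smul]

theorem yx : U.y * U.x = 1 - U.e := by
  calc U.y * U.x = ((1 - U.e) * U.y) * (U.x * (1 - U.e)) := by rw [U.e_y, U.x_e]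
    _ = (1 - U.e) * (U.y * U.x) * (1 - U.e) := by simp [mul_assoc]
    _ = ((1 - U.e) * (U.y * U.x)).trace • (1 - U.e) :=
      mul_mul_eq_trace_smul _ _ (det_one_sub U.trace_e U.det_e)
    _ = 1 - U.e := by
      rw [← mul_assoc, U.e_y, Matrix.trace_mul_comm, U.trace_xy, one_smul]

theorem E_mul_E (i j l m : Fin 2) : U.E i j * U.E l m = if j = l then U.E i m else 0 := by
  have xe : U.x * U.e = 0 := by rw [← U.x_e, mul_assoc, U.fe, mul_zero]
  have fx : (1 - U.e) * U.x = 0 := by rw [← U.e_x, ← mul_assoc, U.fe, zero_mul]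
  have xx : U.x * U.x = 0 := by
    rw [← U.x_e, mul_assoc, ← mul_assoc (1 - U.e) U.x, fx, zero_mul, mul_zero]
  have ey : U.e * U.y = 0 := by rw [← U.e_y, ← mul_assoc, U.ef, zero_mul]
  have yf : U.y * (1 - U.e) = 0 := by rw [← U.y_e, mul_assoc, U.ef, mul_zero]
  have yy : U.y * U.y = 0 := by
    rw [← U.y_e, mul_assoc, ← mul_assoc U.e U.y, ey, zero_mul, mul_zero]
  fin_cases i <;> fin_cases j <;> fin_cases l <;> fin_cases m <;>
    simp only [E] <;>
    simp [U.ee, U.ff, U.ef, U.fe, U.xy, U.yx, U.e_x, U.x_e, U.y_e, U.e_y, xe, fx, xx, ey, yf, yy]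

theorem trace_E (i j : Fin 2) : (U.E i j).trace = if i = j then 1 else 0 := by
  have hx : U.x.trace = 0 := by
    rw [← U.x_e, Matrix.trace_mul_comm, ← U.e_x, ← mul_assoc, U.fe, zero_mul, Matrix.trace_zero]
  have hy : U.y.trace = 0 := by
    rw [← U.y_e, Matrix.trace_mul_comm, ← U.e_y, ← mul_assoc, U.ef, zero_mul, Matrix.trace_zero]
  fin_cases i <;> fin_cases j <;> simp only [E] <;>
    simp [U.trace_e, trace_one_sub U.trace_e, hx, hy]

/-- Every matrix is recovered from its coordinates. -/
theorem sum_coord (X : Matrix (Fin 2) (Fin 2) B) :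
    ∑ i, ∑ j, U.coord X i j • U.E i j = X := by
  have he := fun Z => mul_mul_eq_trace_smul U.e Z U.det_e
  have hf := fun Z => mul_mul_eq_trace_smul (1 - U.e) Z (det_one_sub U.trace_e U.det_e)
  have h01 : U.e * X * (1 - U.e) = U.coord X 0 1 • U.x := by
    calc U.e * X * (1 - U.e) = U.e * X * (U.y * U.x) := by rw [U.yx]
      _ = (U.e * (X * U.y) * U.e) * U.x := by
        simp only [mul_assoc, U.e_x]
      _ = U.coord X 0 1 • U.x := by
        rw [he, smul_mul_assoc, U.e_x, ← mul_assoc, Matrix.trace_mul_comm, ← mul_assoc, U.y_e]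
        rfl
  have h10 : (1 - U.e) * X * U.e = U.coord X 1 0 • U.y := by
    calc (1 - U.e) * X * U.e = (1 - U.e) * X * (U.x * U.y) := by rw [U.xy]
      _ = ((1 - U.e) * (X * U.x) * (1 - U.e)) * U.y := by
        simp only [mul_assoc, U.e_y]
      _ = U.coord X 1 0 • U.y := by
        rw [hf, smul_mul_assoc, U.e_y, ← mul_assoc, Matrix.trace_mul_comm, ← mul_assoc, U.x_e]
        rfl
  have h00 : U.e * X * U.e = U.coord X 0 0 • U.e := he X
  have h11 : (1 - U.e) * X * (1 - U.e) = U.coord X 1 1 • (1 - U.e) := hf X
  simp only [Fin.sum_univ_two]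
  show U.coord X 0 0 • U.e + U.coord X 0 1 • U.x +
    (U.coord X 1 0 • U.y + U.coord X 1 1 • (1 - U.e)) = X
  rw [← h00, ← h01, ← h10, ← h11]
  noncomm_ring

theorem coord_one : U.coord 1 = 1 := by
  ext i j
  simp [coord, U.trace_E, Matrix.one_apply, eq_comm]

theorem coord_mul (X Y : Matrix (Fin 2) (Fin 2) B) :
    U.coord (X * Y) = U.coord X * U.coord Y := by
  ext i j
  conv_lhs => rw [← U.sum_coord X, ← U.sum_coord Y]
  simp only [coord, Matrix.of_apply, Matrix.mul_apply]
  simp [Fin.sum_univ_two, mul_add, add_mul, U.E_mul_E]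
  fin_cases i <;> fin_cases j <;> simp [U.trace_E] <;> ring

theorem trace_coord (X : Matrix (Fin 2) (Fin 2) B) : (U.coord X).trace = X.trace := by
  rw [Matrix.trace_fin_two]
  simp [coord, E, ← Matrix.trace_add, ← add_mul]

theorem det_coord (h2 : IsUnit (2 : B)) (X : Matrix (Fin 2) (Fin 2) B) :
    (U.coord X).det = X.det := by
  have key : ∀ M : Matrix (Fin 2) (Fin 2) B, 2 * M.det = M.trace * M.trace - (M * M).trace := by
    intro M
    rw [Density.matrix_two_mul_self, Matrix.trace_sub, Matrix.trace_smul, Matrix.trace_smul,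
      Matrix.trace_one]
    simp
    ring
  refine h2.mul_left_cancel ?_
  rw [key, key, ← U.coord_mul, U.trace_coord, U.trace_coord]

end Units2

end Identities

section Descent

variable {G : Type*} [Monoid G] {A B k : Type*} [CommRing A] [CommRing B] [Field k]

/-- Twice the idempotents of an involution: the four trace expressions. -/
theorem trace_four (i : A →+* B) (R : G →* Matrix (Fin 2) (Fin 2) B) (t : G → A)
    (htR : ∀ g, (R g).trace = i (t g)) (c : G) (s r : A) (a b : G) :
    ((1 + i s • R c) * R a * (1 + i r • R c) * R b).trace =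
      i (t (a * b) + r * t (a * c * b) + s * t (c * a * b) + s * r * t (c * a * c * b)) := by
  simp only [map_add, map_mul, ← htR]
  simp only [add_mul, mul_add, one_mul, mul_one, smul_mul_assoc, mul_smul_comm, Matrix.trace_add,
    Matrix.trace_smul, smul_eq_mul, mul_assoc]
  ring

/-- The idempotents of an involution of trace zero. -/
theorem idempotent_props {C : Type*} [CommRing C] (j : A →+* C)
    (S : G →* Matrix (Fin 2) (Fin 2) C) (t : G → A) (hS : ∀ g, (S g).trace = j (t g))
    {c : G} (hc : c * c = 1) (htc : t c = 0) {w : A} (hw : w * 2 = 1) {s : C} (hs : s * s = 1) :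
    (j w • (1 + s • S c)).trace = 1 ∧ (j w • (1 + s • S c)).det = 0 := by
  have hw' : j w * 2 = 1 := by rw [← map_ofNat j 2, ← map_mul, hw, map_one]
  have ht : (S c).trace = 0 := by rw [hS, htc, map_zero]
  have hd : (S c).det = -1 := by
    have h := Density.matrix_two_mul_self (S c)
    rw [← map_mul, hc, map_one, ht, zero_smul, zero_sub] at h
    have h0 := congrFun (congrFun h 0) 0
    simp at h0
    linear_combination h0
  rw [Matrix.trace_fin_two] at ht
  rw [Matrix.det_fin_two] at hd
  refine ⟨?_, ?_⟩
  · rw [Matrix.trace_fin_two]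
    simp
    linear_combination hw' + (j w * s) * ht
  · rw [Matrix.det_fin_two]
    simp
    linear_combination (j w * j w * s) * ht + (j w * j w * s * s) * hd - (j w * j w) * hs

/-- The trace pairing between the two off-diagonal parts. -/
theorem trace_pairing {C : Type*} [CommRing C] (j : A →+* C)
    (S : G →* Matrix (Fin 2) (Fin 2) C) (t : G → A) (hS : ∀ g, (S g).trace = j (t g))
    (c : G) (w : A) (a b : G) :
    (j w • (1 + (1 : C) • S c) * S a * (j w • (1 + (-1 : C) • S c)) * S b).trace =
      j (w * w * (t (a * b) - t (a * c * b) + t (c * a * b) - t (c * a * c * b))) := by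
  have := trace_four j S t hS c 1 (-1) a b
  simp only [map_one, map_neg] at this
  simp only [smul_mul_assoc, mul_smul_comm, Matrix.trace_smul, smul_eq_mul, this]
  simp
  ring

/-- Carayol descent. -/
theorem exists_descent (i : A →+* B) (hi : Function.Injective i) (φ : A →+* k) [IsLocalHom φ]
    (R : G →* Matrix (Fin 2) (Fin 2) B) (Rbar : G →* Matrix (Fin 2) (Fin 2) k) (t : G → A)
    (htR : ∀ g, (R g).trace = i (t g)) (htbar : ∀ g, (Rbar g).trace = φ (t g))
    (hspan : Submodule.span k (Set.range Rbar) = ⊤)
    (h2 : IsUnit (2 : A)) (c : G) (hc : c * c = 1) (htc : t c = 0) :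
    ∃ R' : G →* Matrix (Fin 2) (Fin 2) A,
      (∀ g, (R' g).trace = t g) ∧ (∀ g, i (R' g).det = (R g).det) ∧
      (∀ (J : Ideal A) (τ : G), (∀ g, t (g * τ) - t g ∈ J) → ∀ a b, (R' τ - 1) a b ∈ J) ∧
      (∃ P : Matrix (Fin 2) (Fin 2) k, IsUnit P ∧
        ∀ g, (R' g).map φ * P = P * Rbar g) := by
  obtain ⟨w, hw⟩ : ∃ w : A, w * 2 = 1 := h2.exists_left_inv
  have hwk : φ w * 2 = 1 := by rw [← map_ofNat φ 2, ← map_mul, hw, map_one]
  have hwB : i w * 2 = 1 := by rw [← map_ofNat i 2, ← map_mul, hw, map_one]
  -- choose `a, b`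
  let F : G → G → A := fun a b =>
    w * w * (t (a * b) - t (a * c * b) + t (c * a * b) - t (c * a * c * b))
  obtain ⟨a, b, hab⟩ : ∃ a b, IsUnit (F a b) := by
    by_contra hcon
    push Not at hcon
    set eb := φ w • (1 + (1 : k) • Rbar c) with heb
    set fb := φ w • (1 + (-1 : k) • Rbar c) with hfb
    have hsup : ∀ X Y, (eb * X * fb * Y).trace = 0 := by
      intro X Y
      have hX : X ∈ Submodule.span k (Set.range Rbar) := by rw [hspan]; exact Submodule.mem_top
      have hY : Y ∈ Submodule.span k (Set.range Rbar) := by rw [hspan]; exact Submodule.mem_top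
      induction hX, hY using Submodule.span_induction₂ with
      | mem_mem x y hx hy =>
        obtain ⟨g, rfl⟩ := hx
        obtain ⟨g', rfl⟩ := hy
        rw [trace_pairing φ Rbar t htbar c w]
        by_contra hne
        exact hcon g g' ((isUnit_map_iff φ _).mp (isUnit_iff_ne_zero.mpr hne))
      | zero_left y _ => simp
      | zero_right x _ => simp
      | add_left x y z _ _ _ hx hy => simp [mul_add, add_mul, hx, hy]
      | add_right x y z _ _ _ hx hy => simp [mul_add, hx, hy]
      | smul_left r x y _ _ hx => simp [hx]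
      | smul_right r x y _ _ hx => simp [hx]
    have hzero : ∀ X, eb * X * fb = 0 := fun X => by
      rw [Matrix.ext_iff_trace_mul_right]
      intro Y
      rw [hsup, zero_mul, Matrix.trace_zero]
    have hne : ∀ M : Matrix (Fin 2) (Fin 2) k, M.trace = 1 → ∃ p q, M p q ≠ 0 := by
      intro M hM
      by_contra hall
      push Not at hall
      rw [Matrix.trace_fin_two, hall, hall, add_zero] at hM
      exact zero_ne_one hM
    obtain ⟨p, q, hpq⟩ := hne eb (idempotent_props φ Rbar t htbar hc htc hw (s := 1) (by ring)).1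
    obtain ⟨u, v, huv⟩ := hne fb (idempotent_props φ Rbar t htbar hc htc hw (s := -1) (by ring)).1
    have h := congrFun (congrFun (hzero (Matrix.single q u 1)) p) v
    simp [Matrix.mul_apply, Matrix.single_apply, ite_and] at h
    fin_cases q <;> fin_cases u <;> simp_all
  obtain ⟨η, hη⟩ := hab.exists_left_inv
  -- matrix units
  set e := i w • (1 + (1 : B) • R c) with he
  set f := i w • (1 + (-1 : B) • R c) with hf
  obtain ⟨hte, hde⟩ := idempotent_props i R t htR hc htc hw (s := 1) (by ring)
  obtain ⟨htf, hdf⟩ := idempotent_props i R t htR hc htc hw (s := -1) (by ring)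
  rw [← he] at hte hde
  rw [← hf] at htf hdf
  have hfe : f = 1 - e := by
    rw [eq_sub_iff_add_eq, hf, he, ← smul_add]
    ext p q
    simp
    linear_combination ((1 : Matrix (Fin 2) (Fin 2) B) p q) * hwB
  have hee := mul_self_of_rankOne hte hde
  have hff := mul_self_of_rankOne htf hdf
  let U : Units2 B :=
    { e := e
      x := e * R a * f
      y := i η • (f * R b * e)
      trace_e := hte
      det_e := hde
      e_x := by rw [← mul_assoc, ← mul_assoc, hee]
      x_e := by rw [← hfe, mul_assoc, hff]
      y_e := by rw [smul_mul_assoc, mul_assoc, hee]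
      e_y := by rw [← hfe, mul_smul_comm, ← mul_assoc, ← mul_assoc, hff]
      trace_xy := by
        rw [mul_smul_comm, Matrix.trace_smul, smul_eq_mul,
          show e * R a * f * (f * R b * e) = e * R a * f * R b * e by
            simp only [mul_assoc]; rw [← mul_assoc f f, hff],
          Matrix.trace_mul_comm, ← mul_assoc, ← mul_assoc, ← mul_assoc, hee, he, hf, trace_pairing i R t htR c w,
          ← map_mul, hη, map_one] }
  -- trace expressions for the coordinates
  let T : Fin 2 → Fin 2 → G → A := ![
    ![fun g => w * (t g + t (c * g)),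
      fun g => η * (w * w * (t (b * g) + t (b * c * g) - t (c * b * g) - t (c * b * c * g)))],
    ![fun g => w * w * (t (a * g) - t (a * c * g) + t (c * a * g) - t (c * a * c * g)),
      fun g => w * (t g - t (c * g))]]
  have hT : ∀ g p q, U.coord (R g) p q = i (T p q g) := by
    intro g p q
    have h4 := fun s r x => trace_four i R t htR c s r x g
    fin_cases p <;> fin_cases q
    · show (e * R g).trace = i (w * (t g + t (c * g)))
      simp only [he, one_smul, add_mul, one_mul, smul_mul_assoc, Matrix.trace_smul,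
        Matrix.trace_add, smul_eq_mul]
      rw [← map_mul R, htR, htR, map_mul i, map_add]
    · show (i η • (f * R b * e) * R g).trace = _
      have := h4 (-1) 1 b
      simp only [map_neg, map_one] at this
      simp only [he, hf, smul_mul_assoc, mul_smul_comm, Matrix.trace_smul, smul_eq_mul, this]
      simp [T]
      ring
    · show (e * R a * f * R g).trace = _
      rw [he, hf, trace_pairing i R t htR c w]
      rfl
    · show ((1 - e) * R g).trace = i (w * (t g - t (c * g)))
      rw [← hfe]
      simp only [hf, neg_smul, one_smul, add_mul, neg_mul, one_mul, smul_mul_assoc,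
        Matrix.trace_smul, Matrix.trace_add, Matrix.trace_neg, smul_eq_mul]
      rw [← map_mul R, htR, htR, map_mul i, map_sub, ← sub_eq_add_neg]
  let R' : G →* Matrix (Fin 2) (Fin 2) A :=
    { toFun := fun g => Matrix.of fun p q => T p q g
      map_one' := by
        refine Matrix.map_injective hi ?_
        ext p q
        dsimp only
        rw [Matrix.map_apply, Matrix.of_apply, ← hT, map_one, U.coord_one, Matrix.map_apply,
          Matrix.one_apply, Matrix.one_apply]
        split <;> simp
      map_mul' := fun g g' => by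
        refine Matrix.map_injective hi ?_
        dsimp only
        rw [Matrix.map_mul]
        have hmap : ∀ g, (Matrix.of fun p q => T p q g).map i = U.coord (R g) := fun g => by
          ext p q; simp [hT]
        rw [hmap, hmap, hmap, map_mul, U.coord_mul] }
  have hR' : ∀ g, (R' g).map i = U.coord (R g) := fun g => by ext p q; simp [R', hT]
  have htr : ∀ g, (R' g).trace = t g := fun g => hi (by
    rw [AddMonoidHom.map_trace, hR', U.trace_coord, htR])
  refine ⟨R', htr, fun g => ?_, ?_, ?_⟩
  · rw [RingHom.map_det, RingHom.mapMatrix_apply, hR', U.det_coord]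
    exact ⟨⟨2, i w, by linear_combination hwB, by linear_combination hwB⟩, rfl⟩
  · intro J τ hτ p q
    have h1 : (1 : Matrix (Fin 2) (Fin 2) A) p q = T p q 1 := by
      rw [← map_one R']; rfl
    rw [Matrix.sub_apply, h1]
    show T p q τ - T p q 1 ∈ J
    have hz : ∀ z, t (z * τ) - t (z * 1) ∈ J := fun z => by simpa using hτ z
    have h0 : t τ - t 1 ∈ J := by simpa using hτ 1
    fin_cases p <;> fin_cases q
    · have := Ideal.mul_mem_left _ w (Ideal.add_mem _ h0 (hz c))
      convert this using 1
      simp [T]
      ring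
    · have := Ideal.mul_mem_left _ (η * (w * w))
        (Ideal.sub_mem _ (Ideal.sub_mem _ (Ideal.add_mem _ (hz b) (hz (b * c))) (hz (c * b)))
          (hz (c * b * c)))
      convert this using 1
      simp [T]
      ring
    · have := Ideal.mul_mem_left _ (w * w)
        (Ideal.sub_mem _ (Ideal.add_mem _ (Ideal.sub_mem _ (hz a) (hz (a * c))) (hz (c * a)))
          (hz (c * a * c)))
      convert this using 1
      simp [T]
      ring
    · have := Ideal.mul_mem_left _ w (Ideal.sub_mem _ h0 (hz c))
      convert this using 1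
      simp [T]
      ring
  · let Rk : G →* Matrix (Fin 2) (Fin 2) k := φ.mapMatrix.toMonoidHom.comp R'
    refine Density.exists_isUnit_conj_of_trace_eq (RingHom.id k) Rbar Rk ?_ fun g => ?_
    · simpa using hspan
    · show (Rbar g).trace = ((R' g).map φ).trace
      rw [htbar, ← htr g]
      exact AddMonoidHom.map_trace φ _

end Descent

end Fermat.Agent.RT
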