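import Fermat.Prelude.Def_CuspForm_Newforms

/-!
# Descent to a newform, and residual modularity along it
-/

set_option autoImplicit false

open ModularFormClass

namespace Fermat.Agent.RT

variable {N : ℕ}

/-- Every normalised eigenform has a newform of some level `M ∣ N` with the same good
eigenvalues. -/
theorem exists_newform_goodEigensystem {f : CuspForm (CongruenceSubgroup.Gamma0 N) 2}
    (hf : f.IsNormalizedEigenform) (hN : 0 < N) :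
    ∃ M : ℕ, M ∣ N ∧ ∃ g : CuspForm (CongruenceSubgroup.Gamma0 M) 2, g.IsNewform ∧
      ∀ ℓ : ℕ, ℓ.Prime → ¬ ℓ ∣ N → qCoeff g ℓ = qCoeff f ℓ := by
  classical
  have hex : ∃ M : ℕ, M ∣ N ∧ CuspForm.GoodEigensystemOccursAt f M :=
    ⟨N, dvd_rfl, CuspForm.GoodEigensystemOccursAt.refl hf⟩
  obtain ⟨hMN, g, hg, hgf⟩ := Nat.find_spec hex
  refine ⟨_, hMN, g, ⟨hg, fun M' hM' hne hocc => ?_⟩, hgf⟩
  obtain ⟨h, hh, hhg⟩ := hocc
  have hlt : M' < Nat.find hex :=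
    lt_of_le_of_ne (Nat.le_of_dvd (Nat.pos_of_dvd_of_pos hMN hN) hM') hne
  refine Nat.find_min hex hlt ⟨hM'.trans hMN, h, hh, fun ℓ hℓ hℓN => ?_⟩
  rw [hhg ℓ hℓ fun hd => hℓN (hd.trans hMN), hgf ℓ hℓ hℓN]

/-- The newform descent keeps the congruence with a curve at the primes not dividing the old
level. -/
theorem exists_newform_congruent {W : WeierstrassCurve ℤ} {p : ℕ}
    (h : W.IsResiduallyModularOfLevel p N) (hN : 0 < N) :
    ∃ M : ℕ, M ∣ N ∧ ∃ (g : CuspForm (CongruenceSubgroup.Gamma0 M) 2)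
      (𝔪 : Ideal (integralClosure ℤ ℂ)), g.IsNewform ∧ 𝔪.IsMaximal ∧
      (p : integralClosure ℤ ℂ) ∈ 𝔪 ∧
      ∀ ℓ : ℕ, ℓ.Prime → W.IsGoodPrimeFor ℓ → ¬ ℓ ∣ N → ℓ ≠ p →
        ∃ a : integralClosure ℤ ℂ, (a : ℂ) = qCoeff g ℓ ∧
          a - ((W.apOfModel ℓ : ℤ) : integralClosure ℤ ℂ) ∈ 𝔪 := by
  obtain ⟨f, 𝔪, hf, hmax, hpm, hcong⟩ := h
  obtain ⟨M, hMN, g, hg, hgf⟩ := exists_newform_goodEigensystem hf hN
  refine ⟨M, hMN, g, 𝔪, hg, hmax, hpm, fun ℓ hℓ hgood hℓN hℓp => ?_⟩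
  obtain ⟨a, ha, ham⟩ := hcong ℓ hℓ hgood hℓN hℓp
  exact ⟨a, by rw [ha, hgf ℓ hℓ hℓN], ham⟩

end Fermat.Agent.RT
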