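import Fermat.Agent.RT.FreyAssembly
import Fermat.Agent.RT.NewformDescent
import Fermat.Agent.RT.FreyResidual
import Fermat.Agent.Density.CharpolyDetermines
import Fermat.Agent.Density.Transfer

/-!
# The residual eigen-system at a minimal level

At a level `M` minimal for the Frey representation, a newform of level exactly `M` is congruent
to the Frey curve, its residual representation is `E[p]`, and `2 ∣ M` because `E[p]` is ramified
at `2`.
-/

set_option autoImplicit false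
set_option linter.style.haveILetI false

noncomputable section

open scoped WeierstrassCurve.Affine TensorProduct
open WeierstrassCurve.Affine.Point (GaloisRepIsIrreducible)
open Polynomial ModularFormClass

namespace Fermat.Agent.RT

local notation "ℚ̄" => AlgebraicClosure ℚ

variable {P : FreyPackage} {M : ℕ}

/-- A newform of exact level `M` congruent to the Frey curve at the good primes. -/
theorem IsMinimalLevel.exists_newform (hS29 : EigenformResidualRep) (hM : IsMinimalLevel P M) :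
    ∃ (g : CuspForm (CongruenceSubgroup.Gamma0 M) 2) (𝔪 : Ideal (integralClosure ℤ ℂ)),
      g.IsNewform ∧ 𝔪.IsMaximal ∧ (P.p : integralClosure ℤ ℂ) ∈ 𝔪 ∧
      ∀ ℓ : ℕ, ℓ.Prime → P.freyCurveInt.IsGoodPrimeFor ℓ → ¬ ℓ ∣ M → ℓ ≠ P.p →
        ∃ a : integralClosure ℤ ℂ, (a : ℂ) = qCoeff g ℓ ∧
          a - ((P.freyCurveInt.apOfModel ℓ : ℤ) : integralClosure ℤ ℂ) ∈ 𝔪 := by
  classical
  obtain ⟨M', hd, g, 𝔪, hg, hmax, hpm, hcong⟩ :=
    exists_newform_congruent hM.modular hM.cond.pos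
  have hM' : 0 < M' := Nat.pos_of_dvd_of_pos hd hM.cond.pos
  have hres : P.freyCurveInt.IsResiduallyModularOfLevel P.p M' :=
    isResiduallyModularOfLevel_of_cofinite hS29 torsionFrobeniusCharpoly
      (Endgame.freyCurveInt_Δ_ne_zero P) P.pp hM' hg.1 hmax hpm
      ({P.p} ∪ M.primeFactors ∪ P.freyCurveInt.Δ.natAbs.primeFactors) fun ℓ hℓ hℓS => by
        simp only [Finset.mem_union, Finset.mem_singleton, Nat.mem_primeFactors, not_or] at hℓS
        exact hcong ℓ hℓ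
          (fun hd => hℓS.2 ⟨hℓ, Int.natCast_dvd.1 hd,
            Int.natAbs_ne_zero.2 (Endgame.freyCurveInt_Δ_ne_zero P)⟩)
          (fun hd => hℓS.1.2 ⟨hℓ, hd, hM.cond.pos.ne'⟩) hℓS.1.1
  obtain rfl := hM.minimal M' hd hres
  exact ⟨g, 𝔪, hg, hmax, hpm, hcong⟩

/-- The residual representation of a congruent eigenform is the Frey representation. -/
theorem frey_isEquiv_attached [Fact P.p.Prime]
    (hirr : GaloisRepIsIrreducible (K := ℚ̄) ℚ P.freyCurve P.p) (hM0 : 0 < M)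
    {g : CuspForm (CongruenceSubgroup.Gamma0 M) 2}
    {k : Type} [Field k] (φ : integralClosure ℤ ℂ →+* k) (ι : ZMod P.p →+* k)
    (hcong : ∀ ℓ : ℕ, ℓ.Prime → P.freyCurveInt.IsGoodPrimeFor ℓ → ¬ ℓ ∣ M → ℓ ≠ P.p →
      ∃ a : integralClosure ℤ ℂ, (a : ℂ) = qCoeff g ℓ ∧
        φ a = φ ((P.freyCurveInt.apOfModel ℓ : ℤ) : integralClosure ℤ ℂ))
    (ρ : ResidualGaloisRep k) (hρ : ρ.IsAttachedTo g φ) :
    ((freyRep P).baseChangeAlong ι).IsEquiv ρ := by
  classical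
  have hp0 : (P.p : k) = 0 := by rw [← map_natCast ι, ZMod.natCast_self, map_zero]
  haveI : CharP k P.p := (CharP.charP_iff_prime_eq_zero P.pp).2 hp0
  refine Density.residual_isEquiv_of_frobenius _ _
    ({P.p} ∪ M.primeFactors ∪ P.freyCurveInt.Δ.natAbs.primeFactors)
    (isAbsolutelyIrreducible_baseChangeAlong ι _ (freyRep_isAbsolutelyIrreducible P hirr))
    fun ℓ hℓ hℓS A hA σ hσ => ?_
  simp only [Finset.mem_union, Finset.mem_singleton, Nat.mem_primeFactors, not_or] at hℓS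
  obtain ⟨⟨hℓp, h3⟩, h4⟩ := hℓS
  have hℓM : ¬ ℓ ∣ M := fun hd => h3 ⟨hℓ, hd, hM0.ne'⟩
  have hgood : P.freyCurveInt.IsGoodPrimeFor ℓ := fun hd =>
    h4 ⟨hℓ, Int.natCast_dvd.1 hd, Int.natAbs_ne_zero.2 (Endgame.freyCurveInt_Δ_ne_zero P)⟩
  have hne : (ℓ : k) ≠ 0 := fun h0 =>
    hℓp ((Nat.prime_dvd_prime_iff_eq P.pp hℓ).1 ((CharP.cast_eq_zero_iff _ P.p ℓ).1 h0)).symm
  obtain ⟨a, ha, hch⟩ := hρ ℓ hℓ hℓM hne A hA σ hσ
  obtain ⟨b, hb, hbeq⟩ := hcong ℓ hℓ hgood hℓM hℓp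
  obtain rfl : a = b := Subtype.ext (ha.trans hb.symm)
  rw [hch, hbeq, charpoly_baseChangeAlong,
    torsionFrobeniusCharpoly P.freyCurveInt P.p ℓ hℓ hℓp hgood A hA σ hσ]
  simp

/-- A minimal level is even: `E[p]` is ramified at `2`. -/
theorem IsMinimalLevel.two_dvd (hS29 : EigenformResidualRep) (hM : IsMinimalLevel P M)
    (hirr : GaloisRepIsIrreducible (K := ℚ̄) ℚ P.freyCurve P.p) : 2 ∣ M := by
  haveI : Fact P.p.Prime := ⟨P.pp⟩
  by_contra h2
  obtain ⟨g, 𝔪, hg, hmax, hpm, hcong⟩ := hM.exists_newform hS29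
  letI : Field (integralClosure ℤ ℂ ⧸ 𝔪) := Ideal.Quotient.field 𝔪
  set φ : integralClosure ℤ ℂ →+* integralClosure ℤ ℂ ⧸ 𝔪 := Ideal.Quotient.mk 𝔪
  have hp0 : (P.p : integralClosure ℤ ℂ ⧸ 𝔪) = 0 := by
    rw [← map_natCast φ]
    exact Ideal.Quotient.eq_zero_iff_mem.2 hpm
  haveI : CharP (integralClosure ℤ ℂ ⧸ 𝔪) P.p := (CharP.charP_iff_prime_eq_zero P.pp).2 hp0
  obtain ⟨ρ, hρ, hunr⟩ := hS29 hg.1 P.pp φ
  set ι : ZMod P.p →+* integralClosure ℤ ℂ ⧸ 𝔪 := ZMod.castHom dvd_rfl _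
  have he := frey_isEquiv_attached hirr hM.cond.pos φ ι (fun ℓ hℓ hgood hℓM hℓp => by
    obtain ⟨a, ha, ham⟩ := hcong ℓ hℓ hgood hℓM hℓp
    exact ⟨a, ha, Ideal.Quotient.eq.2 ham⟩) ρ hρ
  have h2' : ¬ 2 ∣ M * P.p := fun hd => (Nat.prime_two.dvd_mul.1 hd).elim h2 fun h =>
    absurd ((Nat.prime_dvd_prime_iff_eq Nat.prime_two P.pp).1 h)
      (by have := P.hp5; omega)
  obtain ⟨e⟩ := he
  obtain ⟨A, hA⟩ := Galois.exists_valuationSubring_liesOverPrime (L := ℚ̄) Nat.prime_two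
  obtain ⟨σ, hσ, -, hne⟩ := freyRep_exists_unipotent P A hA
  have h1 : ((freyRep P).baseChangeAlong ι).ρ σ = 1 := by
    refine LinearMap.ext fun v => e.toLinearEquiv.injective ?_
    rw [e.map_apply, hunr 2 Nat.prime_two h2' A hA σ hσ, Module.End.one_apply,
      Module.End.one_apply]
  refine hne (LinearMap.ext fun v => ?_)
  letI : Algebra (ZMod P.p) (integralClosure ℤ ℂ ⧸ 𝔪) := ι.toAlgebra
  have h' := LinearMap.congr_fun
    (show ((freyRep P).ρ σ).baseChange (integralClosure ℤ ℂ ⧸ 𝔪) = 1 from h1)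
    ((1 : integralClosure ℤ ℂ ⧸ 𝔪) ⊗ₜ[ZMod P.p] v)
  rw [LinearMap.baseChange_tmul, Module.End.one_apply] at h'
  rw [Module.End.one_apply]
  exact tmul_one_injective h'

end Fermat.Agent.RT
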