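import Fermat.Agent.RT.Datum
import Fermat.Agent.RT.LocalAtP.Flat

/-!
# Local properties of the Galois representations of points

Statements S32, S33 and S34 enter as the propositions `FlatOfDatum`, `OrdinaryOfDatum` and
`UnipotentOfDatum`; together with `exists_datum` they give the same properties for the Galois
representation of any residually absolutely irreducible point of the Hecke algebra. The reverse
passage, from the points of a complete ring to the ring itself, is `isFlatAt_of_points` and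
`strictOrdinary_of_points`.
-/

set_option autoImplicit false

noncomputable section

open IsLocalRing Polynomial
open scoped TensorProduct

namespace Fermat.Agent.RT

local notation "ℚ̄" => AlgebraicClosure ℚ
local notation "Γℚ" => (AlgebraicClosure ℚ ≃ₐ[ℚ] AlgebraicClosure ℚ)

/-- Statement S32 at a fixed prime, level and set of primes. -/
def FlatOfDatum (p N : ℕ) [NeZero N] (S : Finset ℕ) : Prop :=
  ∀ (𝒪 : Type) [CommRing 𝒪] [IsDomain 𝒪] [IsDiscreteValuationRing 𝒪]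
    [IsAdicComplete (maximalIdeal 𝒪) 𝒪] [Finite (ResidueField 𝒪)] [CharZero 𝒪]
    (θ : CuspForm.heckeAlgebra N 2 (↑S : Set ℕ) →+* ResidueField 𝒪)
    (T : Type) [CommRing T] [IsLocalRing T] [IsNoetherianRing T]
    [IsAdicComplete (maximalIdeal T) T] [Algebra 𝒪 T] [IsLocalHom (algebraMap 𝒪 T)]
    [Module.Finite 𝒪 T] [Module.Free 𝒪 T],
    (p : 𝒪) ∈ maximalIdeal 𝒪 →
      ∀ H : CuspForm.HeckeGaloisRepDatum N (↑S : Set ℕ) 𝒪 θ T, H.ρ.IsFlatAt p

/-- Statement S33 at a fixed prime, level and set of primes. -/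
def OrdinaryOfDatum (p N : ℕ) [NeZero N] (S : Finset ℕ) : Prop :=
  ∀ (𝒪 : Type) [CommRing 𝒪] [IsDomain 𝒪] [IsDiscreteValuationRing 𝒪]
    [IsAdicComplete (maximalIdeal 𝒪) 𝒪] [Finite (ResidueField 𝒪)] [CharZero 𝒪]
    (θ : CuspForm.heckeAlgebra N 2 (↑S : Set ℕ) →+* ResidueField 𝒪)
    (T : Type) [CommRing T] [IsLocalRing T] [IsNoetherianRing T]
    [IsAdicComplete (maximalIdeal T) T] [Algebra 𝒪 T] [IsLocalHom (algebraMap 𝒪 T)]
    [Module.Finite 𝒪 T] [Module.Free 𝒪 T],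
    (p : 𝒪) ∈ maximalIdeal 𝒪 →
      ∀ H : CuspForm.HeckeGaloisRepDatum N (↑S : Set ℕ) 𝒪 θ T,
        (GaloisRepAdic.ofResidualGaloisRep H.ρ.residual).IsOrdinaryAt p → H.ρ.IsOrdinaryAt p

/-- Statement S34 at a fixed prime, level, set of primes and bad prime. -/
def UnipotentOfDatum (p N : ℕ) [NeZero N] (S : Finset ℕ) (q : ℕ) : Prop :=
  ∀ (𝒪 : Type) [CommRing 𝒪] [IsDomain 𝒪] [IsDiscreteValuationRing 𝒪]
    [IsAdicComplete (maximalIdeal 𝒪) 𝒪] [Finite (ResidueField 𝒪)] [CharZero 𝒪]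
    (θ : CuspForm.heckeAlgebra N 2 (↑S : Set ℕ) →+* ResidueField 𝒪)
    (T : Type) [CommRing T] [IsLocalRing T] [IsNoetherianRing T]
    [IsAdicComplete (maximalIdeal T) T] [Algebra 𝒪 T] [IsLocalHom (algebraMap 𝒪 T)]
    [Module.Finite 𝒪 T] [Module.Free 𝒪 T],
    (p : 𝒪) ∈ maximalIdeal 𝒪 →
      ∀ H : CuspForm.HeckeGaloisRepDatum N (↑S : Set ℕ) 𝒪 θ T, H.ρ.IsUnipotentOnInertiaAt q

section Transfer

variable {A B : Type} [CommRing A] [IsLocalRing A] [CommRing B] [IsLocalRing B]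

/-- Ordinarity passes to base change. -/
theorem isOrdinaryAt_baseChangeAlong (φ : A →+* B) (hφ : IsLocalHom φ) {ρ : GaloisRepAdic A}
    {p : ℕ} (h : ρ.IsOrdinaryAt p) : (ρ.baseChangeAlong φ hφ).IsOrdinaryAt p := by
  let : Algebra A B := φ.toAlgebra
  intro P hP
  obtain ⟨L, ⟨b, rfl⟩, hD, hI⟩ := h P hP
  let b' := Algebra.TensorProduct.basis B b
  refine ⟨B ∙ b' 0, ⟨b', rfl⟩, ?_, ?_⟩
  · intro σ hσ v hv
    obtain ⟨c, rfl⟩ := Submodule.mem_span_singleton.mp hv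
    obtain ⟨x, hx⟩ := Submodule.mem_span_singleton.mp
      (hD σ hσ _ (Submodule.mem_span_singleton_self (b 0)))
    refine Submodule.mem_span_singleton.mpr ⟨c * φ x, ?_⟩
    show (c * φ x) • b' 0 = (ρ.ρ σ).baseChange B (c • b' 0)
    rw [map_smul, Algebra.TensorProduct.basis_apply, LinearMap.baseChange_tmul, ← hx,
      TensorProduct.tmul_smul, mul_smul, ← RingHom.algebraMap_toAlgebra φ]
    exact congrArg (c • ·) (algebraMap_smul B x _)
  · intro σ hσ w
    change B ⊗[A] ρ.V at w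
    show (ρ.ρ σ).baseChange B w - w ∈ Submodule.span B {b' 0}
    induction w using TensorProduct.induction_on with
    | zero => rw [LinearMap.map_zero, sub_zero]; exact Submodule.zero_mem _
    | tmul c v =>
      obtain ⟨x, hx⟩ := Submodule.mem_span_singleton.mp (hI σ hσ v)
      rw [LinearMap.baseChange_tmul, ← TensorProduct.tmul_sub, ← hx, TensorProduct.tmul_smul,
        ← algebraMap_smul B x, ← mul_one c, ← smul_eq_mul, ← TensorProduct.smul_tmul',
        Algebra.TensorProduct.basis_apply]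
      exact Submodule.smul_mem _ _
        (Submodule.smul_mem _ _ (Submodule.mem_span_singleton_self _))
    | add x y hx hy =>
      rw [map_add, add_sub_add_comm]
      exact Submodule.add_mem _ hx hy

end Transfer

variable {p : ℕ} [Fact p.Prime] {N : ℕ} [NeZero N] {S : Finset ℕ}
  {O : Type} [CommRing O] [IsDomain O] [IsDiscreteValuationRing O]
  [IsAdicComplete (maximalIdeal O) O] [Finite (ResidueField O)] [CharZero O]

/-- The representation of a point is the specialisation of a datum. -/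
theorem exists_datum_of_point (hp2 : p ≠ 2) (hpO : (p : O) ∈ maximalIdeal O)
    (hNS : ∀ q : ℕ, q.Prime → q ∣ N → q ∈ S) (hS30 : GaloisRepOfPoints p N S)
    (χ : CuspForm.heckeAlgebra N 2 (↑S : Set ℕ) →+* O) (ρ : GaloisRepAdic O)
    (habs : ρ.residual.IsAbsolutelyIrreducible)
    (hρ : ∀ (ℓ : ℕ) (hℓ : ℓ.Prime) (hℓN : ¬ ℓ ∣ N) (hℓS : ℓ ∉ (↑S : Set ℕ)),
      ∀ A : ValuationSubring ℚ̄, A.LiesOverPrime ℓ → ∀ σ : Γℚ, A.IsFrobeniusAt σ ℓ →
        LinearMap.charpoly (ρ.ρ σ) =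
          X ^ 2 - C (χ (CuspForm.heckeAlgebra.T hℓ hℓN hℓS)) * X + C ((ℓ : O))) :
    ∃ (H : CuspForm.HeckeGaloisRepDatum N (↑S : Set ℕ) O ((residue O).comp χ)
        (CuspForm.heckeLocal N (↑S : Set ℕ) O ((residue O).comp χ)))
      (ψ : CuspForm.heckeLocal N (↑S : Set ℕ) O ((residue O).comp χ) →ₐ[O] O)
      (hψ : IsLocalHom (ψ : CuspForm.heckeLocal N (↑S : Set ℕ) O ((residue O).comp χ) →+* O)),
      (H.ρ.baseChangeAlong (ψ : _ →+* O) hψ).IsEquiv ρ ∧
      H.ρ.residual.IsEquiv (ρ.residual.baseChangeAlong (ResidueField.map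
        (algebraMap O (CuspForm.heckeLocal N (↑S : Set ℕ) O ((residue O).comp χ))))) := by
  set θ := (residue O).comp χ with hθ
  have hρbar : ∀ (ℓ : ℕ) (hℓ : ℓ.Prime) (hℓN : ¬ ℓ ∣ N) (hℓS : ℓ ∉ (↑S : Set ℕ)),
      ∀ A : ValuationSubring ℚ̄, A.LiesOverPrime ℓ → ∀ σ : Γℚ, A.IsFrobeniusAt σ ℓ →
        LinearMap.charpoly (ρ.residual.ρ σ) = X ^ 2 -
          C (θ (CuspForm.heckeAlgebra.T hℓ hℓN hℓS)) * X + C ((ℓ : ResidueField O)) := by
    intro ℓ hℓ hℓN hℓS A hA σ hσ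
    show LinearMap.charpoly ((ρ.ρ σ).baseChange (ResidueField O)) = _
    rw [LinearMap.charpoly_baseChange, hρ ℓ hℓ hℓN hℓS A hA σ hσ]
    simp [hθ]
  obtain ⟨H, hπ, hres⟩ := exists_datum θ ρ.residual Fact.out hp2 hpO hNS hS30 habs hρbar
  obtain ⟨ψ, hψ⟩ := H.exists_point χ fun t => rfl
  have hloc := isLocalHom_of_algHom ψ
  refine ⟨H, ψ, hloc, ?_, hres⟩
  obtain ⟨e⟩ := Density.adic_isEquiv_of_frobenius ρ (H.ρ.baseChangeAlong (ψ : _ →+* O) hloc) S
    habs fun ℓ hℓ hℓS A hA σ hσ => by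
      have hℓN : ¬ ℓ ∣ N := fun h => hℓS (hNS ℓ hℓ h)
      have hℓS' : ℓ ∉ (↑S : Set ℕ) := fun h => hℓS (Finset.mem_coe.mp h)
      rw [hρ ℓ hℓ hℓN hℓS' A hA σ hσ, charpoly_adic_baseChangeAlong,
        H.charpoly_frob ℓ hℓ hℓN hℓS' A hA σ hσ]
      simp [hψ]
  exact ⟨e.symm⟩

variable (hp2 : p ≠ 2) (hpO : (p : O) ∈ maximalIdeal O)
  (hNS : ∀ q : ℕ, q.Prime → q ∣ N → q ∈ S) (hS30 : GaloisRepOfPoints p N S)
  (χ : CuspForm.heckeAlgebra N 2 (↑S : Set ℕ) →+* O) (ρ : GaloisRepAdic O)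
  (habs : ρ.residual.IsAbsolutelyIrreducible)
  (hρ : ∀ (ℓ : ℕ) (hℓ : ℓ.Prime) (hℓN : ¬ ℓ ∣ N) (hℓS : ℓ ∉ (↑S : Set ℕ)),
    ∀ A : ValuationSubring ℚ̄, A.LiesOverPrime ℓ → ∀ σ : Γℚ, A.IsFrobeniusAt σ ℓ →
      LinearMap.charpoly (ρ.ρ σ) =
        X ^ 2 - C (χ (CuspForm.heckeAlgebra.T hℓ hℓN hℓS)) * X + C ((ℓ : O)))

include hp2 hpO hNS hS30 habs hρ

/-- Points of level prime to `p` are flat at `p`. -/
theorem isFlatAt_of_point (hS32 : FlatOfDatum p N S) : ρ.IsFlatAt p := by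
  obtain ⟨H, ψ, hψ, he, -⟩ := exists_datum_of_point hp2 hpO hNS hS30 χ ρ habs hρ
  exact Density.adic_isFlatAt_of_isEquiv he
    (FlatCond.isFlatAt_baseChangeAlong _ hψ (hS32 O _ _ hpO H))

/-- Points of level exactly divisible by `q` are unipotent on inertia at `q`. -/
theorem isUnipotentOnInertiaAt_of_point {q : ℕ} (hS34 : UnipotentOfDatum p N S q) :
    ρ.IsUnipotentOnInertiaAt q := by
  obtain ⟨H, ψ, hψ, he, -⟩ := exists_datum_of_point hp2 hpO hNS hS30 χ ρ habs hρ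
  exact Density.adic_isUnipotentOnInertiaAt_of_isEquiv he
    ((isDescending_isUnipotentOnInertiaAt (p := p) q).baseChange _ hψ (hS34 O _ _ hpO H))

/-- Points of level exactly divisible by `p` with ordinary reduction are ordinary at `p`. -/
theorem isOrdinaryAt_of_point (hS33 : OrdinaryOfDatum p N S)
    (hord : (GaloisRepAdic.ofResidualGaloisRep ρ.residual).IsOrdinaryAt p) :
    ρ.IsOrdinaryAt p := by
  obtain ⟨H, ψ, hψ, he, hres⟩ := exists_datum_of_point hp2 hpO hNS hS30 χ ρ habs hρ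
  refine Density.adic_isOrdinaryAt_of_isEquiv he (isOrdinaryAt_baseChangeAlong _ hψ
    (hS33 O _ _ hpO H ?_))
  set ι := ResidueField.map
    (algebraMap O (CuspForm.heckeLocal N (↑S : Set ℕ) O ((residue O).comp χ))) with hι
  have hιloc : IsLocalHom ι := ⟨fun x hx => by
    rw [isUnit_iff_ne_zero] at hx ⊢
    exact fun h => hx (by rw [h, map_zero])⟩
  obtain ⟨e⟩ := hres
  refine Density.adic_isOrdinaryAt_of_isEquiv ⟨?_⟩
    (isOrdinaryAt_baseChangeAlong ι hιloc hord)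
  exact { toLinearEquiv := e.toLinearEquiv.symm
          map_apply := e.symm.map_apply }

omit hp2 hpO hNS hS30 habs hρ

/-- On a complete ring, strict ordinarity with cyclotomic determinant follows from the same
property at jointly injective points. -/
theorem strictOrdinary_of_points {A : Type} [CommRing A] [IsLocalRing A] [IsNoetherianRing A]
    [IsAdicComplete (maximalIdeal A) A] (hp2 : p ≠ 2) (hpA : (p : A) ∈ maximalIdeal A)
    (hfin : ∀ n : ℕ, IsArtinianRing (A ⧸ Ideal.span {((p ^ n : ℕ) : A)}))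
    {J : Type} [Finite J] (B : J → Type) [∀ j, CommRing (B j)] [∀ j, IsLocalRing (B j)]
    [∀ j, IsHausdorff (maximalIdeal (B j)) (B j)] (φ : ∀ j, A →+* B j)
    (hφ : ∀ j, IsLocalHom (φ j)) (hinj : ∀ x : A, (∀ j, φ j x = 0) → x = 0)
    {ρ : GaloisRepAdic A}
    (h : ∀ j, (ρ.baseChangeAlong (φ j) (hφ j)).DetIsCyclotomic p ∧
      (ρ.baseChangeAlong (φ j) (hφ j)).IsStrictOrdinaryAt p) :
    ρ.DetIsCyclotomic p ∧ ρ.IsStrictOrdinaryAt p := by
  refine (isDescending_det_strictOrdinary Fact.out hp2).descent B φ hφ hpA hinj (fun n => ?_) h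
  obtain ⟨k, hk⟩ : ∃ k, maximalIdeal A ^ k ≤ Ideal.span {((p ^ n : ℕ) : A)} := by
    set I := Ideal.span {((p ^ n : ℕ) : A)} with hI
    rcases eq_or_ne I ⊤ with h' | h'
    · exact ⟨0, h' ▸ le_top⟩
    have : Nontrivial (A ⧸ I) := Ideal.Quotient.nontrivial_iff.mpr h'
    have : IsLocalRing (A ⧸ I) :=
      IsLocalRing.of_surjective' (Ideal.Quotient.mk I) Ideal.Quotient.mk_surjective
    have := hfin n
    obtain ⟨k, hk⟩ := (isArtinianRing_iff_isNilpotent_maximalIdeal (A ⧸ I)).mp inferInstance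
    refine ⟨k, fun x hx => ?_⟩
    rw [← Ideal.Quotient.eq_zero_iff_mem, ← Submodule.mem_bot (A ⧸ I), ← Ideal.zero_eq_bot, ← hk]
    exact map_maximalIdeal_pow_mem _
      (IsLocalHom.of_surjective _ Ideal.Quotient.mk_surjective) hx
  obtain ⟨M, hM⟩ := exists_forall_mem_pow_imp φ hinj k
  refine ⟨max n M, le_max_left n M, fun x hx => hk (hM x fun j => ?_)⟩
  have hpB : (p : B j) ∈ maximalIdeal (B j) := by
    have := hφ j
    simpa using map_nonunit (φ j) (p : A) hpA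
  refine Ideal.span_le.mpr (Set.singleton_subset_iff.mpr ?_) (hx j)
  rw [Nat.cast_pow]
  exact Ideal.pow_le_pow_right (le_max_right n M) (Ideal.pow_mem_pow hpB _)

end Fermat.Agent.RT
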