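import Fermat.Agent.Deformation.Tower
import Mathlib.RingTheory.AdicCompletion.Functoriality
import Mathlib.RingTheory.AdicCompletion.Noetherian
import Mathlib.RingTheory.AdicCompletion.RingHom
import Mathlib.RingTheory.Ideal.Cotangent
import Mathlib.Algebra.DualNumber
import Mathlib.LinearAlgebra.Dual.Lemmas

/-!
# Power series presentations over a local base from the relative cotangent space

A complete noetherian local algebra `R` over a complete local ring `L`, with the same residue
field, whose relative cotangent space `𝔪_R / (𝔪_R ^ 2 + 𝔪_L R)` is spanned by `g` elements is a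
quotient of `L⟦X₁, …, X_g⟧`.
-/

set_option autoImplicit false

noncomputable section

namespace Fermat.Agent.RT

open IsLocalRing Fermat.Agent.Deformation

variable {L R : Type*} [CommRing L] [CommRing R] [Algebra L R] {σ : Type*} [Finite σ]

section Eval

variable [IsLocalRing R] [IsAdicComplete (maximalIdeal R) R]

omit [Finite σ] [IsAdicComplete (maximalIdeal R) R] in
private theorem span_mk_pow_eq_bot (x : σ → R) (hx : ∀ i, x i ∈ maximalIdeal R) (n : ℕ) :
    Ideal.span (Set.range fun i => Ideal.Quotient.mk (maximalIdeal R ^ n) (x i)) ^ n = ⊥ := by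
  rw [eq_bot_iff]
  calc Ideal.span (Set.range fun i => Ideal.Quotient.mk (maximalIdeal R ^ n) (x i)) ^ n
      ≤ ((maximalIdeal R).map (Ideal.Quotient.mk (maximalIdeal R ^ n))) ^ n := by
        refine Ideal.pow_right_mono (Ideal.span_le.mpr ?_) n
        rintro _ ⟨i, rfl⟩
        exact Ideal.mem_map_of_mem _ (hx i)
    _ = ⊥ := by rw [← Ideal.map_pow, Ideal.map_quotient_self]

/-- Evaluation of power series over `L` at elements of the maximal ideal of a complete local
`L`-algebra. -/
theorem exists_eval (x : σ → R) (hx : ∀ i, x i ∈ maximalIdeal R) :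
    ∃ Φ : MvPowerSeries σ L →ₐ[L] R, ∀ i, Φ (MvPowerSeries.X i) = x i := by
  let f : ∀ n, MvPowerSeries σ L →ₐ[L] R ⧸ maximalIdeal R ^ n := fun n =>
    evalTrunc (fun i => Ideal.Quotient.mk (maximalIdeal R ^ n) (x i)) n (span_mk_pow_eq_bot x hx n)
  have hf : ∀ {m n : ℕ} (hle : m ≤ n),
      (Ideal.Quotient.factorₐ L (Ideal.pow_le_pow_right hle)).comp (f n) = f m := by
    intro m n hle
    refine algHom_ext_of_pow_le_ker n ?_ ?_ fun i => ?_
    · intro p hp
      rw [RingHom.mem_ker, AlgHom.comp_apply,
        RingHom.mem_ker.mp (evalTrunc_pow_le_ker _ n _ hp), map_zero]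
    · exact le_trans (Ideal.pow_le_pow_right hle) (evalTrunc_pow_le_ker _ m _)
    · rw [AlgHom.comp_apply, evalTrunc_X, evalTrunc_X]
      rfl
  refine ⟨IsAdicComplete.liftAlgHom (maximalIdeal R) f hf, fun i => ?_⟩
  refine IsHausdorff.eq_iff_smodEq (I := maximalIdeal R).mpr fun n => ?_
  rw [smul_eq_mul, Ideal.mul_top]
  exact (IsAdicComplete.mk_liftAlgHom _ _ hf n (MvPowerSeries.X i)).trans (evalTrunc_X _ n _ i)

end Eval

variable [IsLocalRing L] [IsPrecomplete (maximalIdeal L) L] [IsLocalRing R] [IsNoetherianRing R]
  [IsAdicComplete (maximalIdeal R) R] [IsLocalHom (algebraMap L R)]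

/-- If `x` and the maximal ideal of `L` generate `𝔪_R` modulo `𝔪_R ^ 2`, and the residue fields
agree, then `R` is a quotient of `L⟦X⟧` by the map sending `X` to `x`. -/
theorem exists_mvPowerSeries_surjective
    (hres : Function.Surjective (residue R ∘ algebraMap L R))
    (x : σ → R) (hx : ∀ i, x i ∈ maximalIdeal R)
    (hgen : maximalIdeal R ≤
      Ideal.span (Set.range x) ⊔ (maximalIdeal L).map (algebraMap L R) ⊔ maximalIdeal R ^ 2) :
    ∃ Φ : MvPowerSeries σ L →ₐ[L] R,
      Function.Surjective Φ ∧ ∀ i, Φ (MvPowerSeries.X i) = x i := by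
  obtain ⟨Φ, hΦ⟩ := exists_eval (L := L) x hx
  refine ⟨Φ, ?_, hΦ⟩
  set J := Ideal.span (Set.range x) with hJ
  have hJle : J ≤ maximalIdeal R := Ideal.span_le.mpr (by rintro _ ⟨i, rfl⟩; exact hx i)
  have hmL : (maximalIdeal L).map (algebraMap L R) ≤ maximalIdeal R :=
    Ideal.map_le_iff_le_comap.mpr fun a ha => map_nonunit (algebraMap L R) a ha
  -- Nakayama
  have hgen' : maximalIdeal R ≤ J ⊔ (maximalIdeal L).map (algebraMap L R) := by
    refine Submodule.le_of_le_smul_of_le_jacobson_bot (IsNoetherian.noetherian _)
      (le_of_eq (IsLocalRing.jacobson_eq_maximalIdeal ⊥ bot_ne_top).symm) ?_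
    rwa [smul_eq_mul, ← sq]
  have hvars : (varsIdeal σ L).map Φ.toRingHom = J := by
    rw [Ideal.map_span, ← Set.range_comp, hJ]
    exact congrArg (fun f => Ideal.span (Set.range f)) (funext hΦ)
  -- `L → R ⧸ J` is surjective
  have hLJ : Function.Surjective (algebraMap L (R ⧸ J)) := by
    have : IsHausdorff (maximalIdeal L) (R ⧸ J) := by
      refine IsHausdorff.map_algebraMap_iff (S := R).mp
        (IsHausdorff.of_isLocalRing _ (R ⧸ J) ?_)
      exact ne_top_of_le_ne_top (IsLocalRing.maximalIdeal.isMaximal R).ne_top hmL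
    refine surjective_of_mkQ_comp_surjective (I := maximalIdeal L)
      (f := Algebra.linearMap L (R ⧸ J)) ?_
    intro q
    obtain ⟨r', rfl⟩ := Submodule.mkQ_surjective _ q
    obtain ⟨r, rfl⟩ := Ideal.Quotient.mk_surjective r'
    obtain ⟨c, hc⟩ := hres (residue R r)
    refine ⟨c, ?_⟩
    rw [LinearMap.comp_apply, Submodule.mkQ_apply, Submodule.mkQ_apply, Submodule.Quotient.eq]
    rw [Function.comp_apply, eq_comm, ← sub_eq_zero, ← map_sub, residue_eq_zero_iff] at hc
    obtain ⟨a, ha, b, hb, hab⟩ := Submodule.mem_sup.mp (hgen' hc)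
    rw [Ideal.smul_top_eq_map, Submodule.restrictScalars_mem,
      Algebra.linearMap_apply, ← Ideal.Quotient.mk_algebraMap, ← map_sub,
      IsScalarTower.algebraMap_eq L R (R ⧸ J), ← Ideal.map_map]
    have heq : Ideal.Quotient.mk J (algebraMap L R c - r) = Ideal.Quotient.mk J (-b) := by
      rw [Ideal.Quotient.eq]
      have : algebraMap L R c - r - -b = -a := by linear_combination hab
      rw [this]
      exact neg_mem ha
    rw [heq]
    exact Ideal.mem_map_of_mem _ (neg_mem hb)
  have : IsHausdorff ((varsIdeal σ L).map Φ.toRingHom) R := by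
    refine IsHausdorff.of_isLocalRing _ R ?_
    rw [hvars]
    exact ne_top_of_le_ne_top (IsLocalRing.maximalIdeal.isMaximal R).ne_top hJle
  refine surjective_of_mk_map_comp_surjective (I := varsIdeal σ L) Φ.toRingHom ?_
  intro q
  obtain ⟨r, rfl⟩ := Ideal.Quotient.mk_surjective q
  obtain ⟨c, hc⟩ := hLJ (Ideal.Quotient.mk J r)
  refine ⟨algebraMap L _ c, ?_⟩
  rw [RingHom.comp_apply, Ideal.Quotient.eq, hvars, AlgHom.toRingHom_eq_coe, RingHom.coe_coe,
    AlgHom.commutes, ← Ideal.Quotient.eq]
  rw [← Ideal.Quotient.mk_algebraMap] at hc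
  exact hc

section Tangent

omit [IsPrecomplete (maximalIdeal L) L] [IsNoetherianRing R]
  [IsAdicComplete (maximalIdeal R) R] [IsLocalHom (algebraMap L R)]

variable (L R)

/-- The image of `𝔪_L` in the cotangent space of `R`. -/
def baseCotangent : Submodule (ResidueField R) (CotangentSpace R) :=
  Submodule.span (ResidueField R) ((maximalIdeal R).toCotangent ''
    {m | (m : R) ∈ (maximalIdeal L).map (algebraMap L R)})

/-- The relative cotangent space `𝔪_R / (𝔪_R ^ 2 + 𝔪_L R)`. -/
abbrev RelCotangent : Type _ := CotangentSpace R ⧸ baseCotangent L R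

variable {L R}

/-- The class in the relative cotangent space of an element of the maximal ideal. -/
def relClass (m : maximalIdeal R) : RelCotangent L R :=
  Submodule.Quotient.mk ((maximalIdeal R).toCotangent m)

theorem relClass_add (m m' : maximalIdeal R) :
    relClass (L := L) (m + m') = relClass m + relClass m' := by
  simp [relClass]

theorem relClass_eq_zero_of_mem (m : maximalIdeal R)
    (h : (m : R) ∈ (maximalIdeal L).map (algebraMap L R)) : relClass (L := L) m = 0 :=
  (Submodule.Quotient.mk_eq_zero _).mpr (Submodule.subset_span ⟨m, h, rfl⟩)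

theorem relClass_smul (r : R) (m : maximalIdeal R) :
    relClass (L := L) (r • m) = residue R r • relClass m := by
  rw [relClass, relClass, map_smul, ← Submodule.Quotient.mk_smul]
  rfl

theorem relClass_surjective : Function.Surjective (relClass (L := L) (R := R)) :=
  fun q => by
    obtain ⟨c, rfl⟩ := Submodule.Quotient.mk_surjective _ q
    obtain ⟨m, rfl⟩ := (maximalIdeal R).toCotangent_surjective c
    exact ⟨m, rfl⟩

/-- Elements congruent modulo `𝔪_R ^ 2 + 𝔪_L R` to a combination of `x` have relative class in
the span of the classes of `x`; conversely, spanning classes give generators. -/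
theorem le_span_sup_of_relClass_span_eq_top {σ : Type*}
    (x : σ → maximalIdeal R)
    (hx : Submodule.span (ResidueField R) (Set.range fun i => relClass (L := L) (x i)) = ⊤) :
    maximalIdeal R ≤ Ideal.span (Set.range fun i => (x i : R)) ⊔
      (maximalIdeal L).map (algebraMap L R) ⊔ maximalIdeal R ^ 2 := by
  let T : Submodule R (maximalIdeal R) := Submodule.comap (maximalIdeal R).subtype
    (Ideal.span (Set.range fun i => (x i : R)) ⊔
      (maximalIdeal L).map (algebraMap L R) ⊔ maximalIdeal R ^ 2)
  -- the residue-field span of `T`'s image in the cotangent space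
  let U : Submodule (ResidueField R) (CotangentSpace R) :=
    { carrier := (maximalIdeal R).toCotangent '' (T : Set (maximalIdeal R))
      add_mem' := by
        rintro _ _ ⟨a, ha, rfl⟩ ⟨b, hb, rfl⟩
        exact ⟨a + b, add_mem ha hb, map_add _ _ _⟩
      zero_mem' := ⟨0, zero_mem T, map_zero _⟩
      smul_mem' := by
        rintro c _ ⟨a, ha, rfl⟩
        obtain ⟨r, rfl⟩ := residue_surjective c
        exact ⟨r • a, T.smul_mem r ha, map_smul _ _ _⟩ }
  have hbase : baseCotangent L R ≤ U := Submodule.span_le.mpr <| by
    rintro _ ⟨m, hm, rfl⟩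
    exact ⟨m, Submodule.mem_sup_left (Submodule.mem_sup_right hm), rfl⟩
  have htop : (Submodule.map (baseCotangent L R).mkQ U) = ⊤ := by
    rw [eq_top_iff, ← hx, Submodule.span_le]
    rintro _ ⟨i, rfl⟩
    exact ⟨_, ⟨x i, Submodule.mem_sup_left (Submodule.mem_sup_left
      (Ideal.subset_span (Set.mem_range_self i))), rfl⟩, rfl⟩
  intro r hr
  obtain ⟨c, ⟨a, ha, rfl⟩, hc⟩ := htop.ge (Submodule.mem_top (x := relClass (L := L) ⟨r, hr⟩))
  rw [Submodule.mkQ_apply, relClass, Submodule.Quotient.eq] at hc
  obtain ⟨b, hb, hbeq⟩ := hbase hc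
  rw [← map_sub, ← sub_eq_zero, ← map_sub, Ideal.toCotangent_eq_zero] at hbeq
  have hsum : r = (a : R) - (b : R) + ((b - (a - ⟨r, hr⟩) : maximalIdeal R) : R) := by
    simp only [AddSubgroupClass.coe_sub]
    ring
  rw [hsum]
  exact add_mem (sub_mem (show (a : R) ∈ _ from ha) (show (b : R) ∈ _ from hb))
    (Submodule.mem_sup_right hbeq)

end Tangent

/-- `R` is a quotient of a power series ring over `L` in as many variables as the dimension of
any space into which the relative tangent space injects. -/
theorem exists_mvPowerSeries_surjective_of_tangent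
    (hres : Function.Surjective (residue R ∘ algebraMap L R)) {g : ℕ} {W : Type*}
    [AddCommGroup W] [Module (ResidueField R) W] [FiniteDimensional (ResidueField R) W]
    (hW : Module.finrank (ResidueField R) W ≤ g)
    (F : Module.Dual (ResidueField R) (RelCotangent L R) →ₗ[ResidueField R] W)
    (hF : Function.Injective F) :
    ∃ Φ : MvPowerSeries (Fin g) L →ₐ[L] R, Function.Surjective Φ := by
  have hdim : Module.finrank (ResidueField R) (RelCotangent L R) ≤ g := by
    rw [← Subspace.dual_finrank_eq]
    exact (LinearMap.finrank_le_finrank_of_injective hF).trans hW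
  let b := Module.finBasis (ResidueField R) (RelCotangent L R)
  choose v hv using fun i => relClass_surjective (L := L) (R := R) (b i)
  let x : Fin g → maximalIdeal R := fun i =>
    if h : (i : ℕ) < Module.finrank (ResidueField R) (RelCotangent L R) then v ⟨i, h⟩ else 0
  have hspan : Submodule.span (ResidueField R) (Set.range fun i => relClass (L := L) (x i)) = ⊤ := by
    rw [eq_top_iff, ← b.span_eq]
    refine Submodule.span_mono ?_
    rintro _ ⟨i, rfl⟩
    exact ⟨Fin.castLE hdim i, by simp [x, hv]⟩
  obtain ⟨Φ, hΦ, -⟩ := exists_mvPowerSeries_surjective hres (fun i => (x i : R))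
    (fun i => (x i).2) (le_span_sup_of_relClass_span_eq_top x hspan)
  exact ⟨Φ, hΦ⟩

section DualNumbers

omit [IsPrecomplete (maximalIdeal L) L] [IsNoetherianRing R]
  [IsAdicComplete (maximalIdeal R) R]

/-- A functional on the relative cotangent space gives a point of `R` with values in the dual
numbers of the residue field, over `L`, whose `ε`-part on `𝔪_R` is that functional. -/
theorem exists_dualNumber_point (hres : Function.Surjective (residue R ∘ algebraMap L R))
    (f : Module.Dual (ResidueField R) (RelCotangent L R)) :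
    ∃ θ : R →ₐ[L] DualNumber (ResidueField R),
      (∀ r, (θ r).fst = residue R r) ∧
        ∀ m : maximalIdeal R, (θ m).snd = f (relClass m) := by
  choose c hc using fun r => hres (residue R r)
  have hmem : ∀ (r : R) (a : L), residue R (algebraMap L R a) = residue R r →
      r - algebraMap L R a ∈ maximalIdeal R := by
    intro r a h
    rw [← residue_eq_zero_iff, map_sub, sub_eq_zero]
    exact h.symm
  let d : R → ResidueField R := fun r => f (relClass ⟨r - algebraMap L R (c r), hmem r _ (hc r)⟩)
  have hd : ∀ (r : R) (a : L) (h : residue R (algebraMap L R a) = residue R r),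
      d r = f (relClass ⟨r - algebraMap L R a, hmem r a h⟩) := by
    intro r a h
    refine congrArg f (sub_eq_zero.mp ?_)
    have hcl : relClass (L := L) ⟨r - algebraMap L R (c r), hmem r _ (hc r)⟩ -
        relClass ⟨r - algebraMap L R a, hmem r a h⟩ =
        relClass (L := L) (⟨r - algebraMap L R (c r), hmem r _ (hc r)⟩ -
          ⟨r - algebraMap L R a, hmem r a h⟩) := by
      simp [relClass]
    rw [hcl]
    refine relClass_eq_zero_of_mem _ ?_
    simp only [AddSubgroupClass.coe_sub, sub_sub_sub_cancel_left, ← map_sub]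
    refine Ideal.mem_map_of_mem _ ((IsLocalRing.mem_maximalIdeal _).mpr fun hu => ?_)
    have h0 : residue R (algebraMap L R (a - c r)) = 0 := by
      rw [map_sub, map_sub, h, show residue R (algebraMap L R (c r)) = residue R r from hc r,
        sub_self]
    exact (IsLocalRing.notMem_maximalIdeal.mpr (hu.map (algebraMap L R)))
      ((residue_eq_zero_iff _).mp h0)
  have hdadd : ∀ r s, d (r + s) = d r + d s := by
    intro r s
    rw [hd (r + s) (c r + c s) (by simp only [map_add]; exact congrArg₂ (· + ·) (hc r) (hc s))]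
    refine Eq.trans ?_ (map_add f _ _)
    rw [← relClass_add]
    exact congrArg (fun m => f (relClass m)) (Subtype.ext (by simp only [map_add, Submodule.coe_add]; ring))
  have hdmul : ∀ r s, d (r * s) = residue R r * d s + residue R s * d r := by
    intro r s
    have hcs : residue R (algebraMap L R (c s)) = residue R s := hc s
    rw [hd (r * s) (c r * c s) (by simp only [map_mul]; exact congrArg₂ (· * ·) (hc r) (hc s))]
    have : (⟨r * s - algebraMap L R (c r * c s), hmem (r * s) _
        (by simp only [map_mul]; exact congrArg₂ (· * ·) (hc r) (hc s))⟩ : maximalIdeal R) =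
        r • ⟨s - algebraMap L R (c s), hmem s _ (hc s)⟩ +
          algebraMap L R (c s) • ⟨r - algebraMap L R (c r), hmem r _ (hc r)⟩ :=
      Subtype.ext (by simp only [map_mul, Submodule.coe_add, Submodule.coe_smul, smul_eq_mul]; ring)
    rw [this, relClass_add, map_add, relClass_smul, relClass_smul, map_smul, map_smul, hcs]
    rfl
  have hdalg : ∀ a : L, d (algebraMap L R a) = 0 := by
    intro a
    rw [hd _ a rfl, relClass_eq_zero_of_mem, map_zero]
    simp
  let θ : R →ₐ[L] DualNumber (ResidueField R) :=
    { toFun := fun r => TrivSqZeroExt.inl (residue R r) + TrivSqZeroExt.inr (d r)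
      map_one' := by
        have := hdalg 1
        rw [map_one] at this
        simp [this]
      map_mul' := fun r s => by
        ext
        · simp
        · simp [hdmul]; ring
      map_zero' := by
        have := hdalg 0
        rw [map_zero] at this
        simp [this]
      map_add' := fun r s => by
        ext <;> simp [hdadd]
      commutes' := fun a => by
        ext
        · simp [TrivSqZeroExt.algebraMap_eq_inl']; rfl
        · simp [hdalg, TrivSqZeroExt.algebraMap_eq_inl'] }
  refine ⟨θ, fun r => by simp [θ], fun m => ?_⟩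
  have h0 : residue R (algebraMap L R 0) = residue R (m : R) := by
    rw [map_zero, map_zero, (residue_eq_zero_iff _).mpr m.2]
  simp only [θ, AlgHom.coe_mk, RingHom.coe_mk, MonoidHom.coe_mk, OneHom.coe_mk,
    TrivSqZeroExt.snd_add, TrivSqZeroExt.snd_inl, TrivSqZeroExt.snd_inr, zero_add]
  rw [hd _ 0 h0]
  exact congrArg (fun n => f (relClass n)) (Subtype.ext (by simp))

end DualNumbers

end Fermat.Agent.RT
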