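import Mathlib.RingTheory.DualNumber
import Fermat.Prelude.Def_GaloisRep_DeformationRingData
import Fermat.Prelude.Def_GaloisRep_DeformationCondition
import Fermat.Agent.Deformation.Matrix
import Fermat.Agent.RT.Generators

/-!
# The tangent space of a universal deformation ring as adjoint cocycles

A functional on the relative cotangent space of a deformation ring `R` gives a point with values
in the dual numbers, hence a cochain `Γ_ℚ → M₂(k)`; modulo coboundaries this is injective, so
`R` needs at most as many generators over `𝒪` as the dimension of any space of classes that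
contains all these cochains.
-/

set_option autoImplicit false

noncomputable section

namespace Fermat.Agent.RT

open IsLocalRing Fermat.Agent.Deformation GaloisRep
open Deformation (Mat)

section Complete

/-- A local ring whose maximal ideal is nilpotent is complete. -/
theorem isAdicComplete_of_pow_eq_bot {A : Type*} [CommRing A] [IsLocalRing A] {N : ℕ}
    (h : maximalIdeal A ^ N = ⊥) : IsAdicComplete (maximalIdeal A) A where
  haus' x hx := by
    have := hx N
    rwa [smul_eq_mul, Ideal.mul_top, h, SModEq.zero, Submodule.mem_bot] at this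
  prec' f hf := by
    refine ⟨f N, fun n => ?_⟩
    rcases le_total n N with hn | hn
    · exact hf hn
    · have := hf hn
      rw [smul_eq_mul, Ideal.mul_top, h, SModEq.bot] at this
      rw [this]

end Complete

variable {k : Type} [Field k]

theorem dualNumber_maximalIdeal_sq : maximalIdeal (DualNumber k) ^ 2 = ⊥ := by
  rw [DualNumber.maximalIdeal_eq_span_singleton_eps, Ideal.span_singleton_pow,
    Ideal.span_singleton_eq_bot, pow_two, DualNumber.eps_mul_eps]

theorem isUnit_dualNumber_iff (z : DualNumber k) : IsUnit z ↔ z.fst ≠ 0 :=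
  TrivSqZeroExt.isUnit_iff_isUnit_fst.trans isUnit_iff_ne_zero

/-- The first projection of dual numbers, as a ring homomorphism. -/
def dualFst (k : Type) [Field k] : DualNumber k →+* k :=
  (TrivSqZeroExt.fstHom k k k).toRingHom

/-- The matrix `1 + εX`. -/
def epsUnit (X : Mat k) : (Mat (DualNumber k))ˣ where
  val := Matrix.of fun i j => TrivSqZeroExt.inl ((1 : Mat k) i j) + TrivSqZeroExt.inr (X i j)
  inv := Matrix.of fun i j => TrivSqZeroExt.inl ((1 : Mat k) i j) + TrivSqZeroExt.inr (-X i j)
  val_inv := by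
    ext i j <;> fin_cases i <;> fin_cases j <;>
      simp [Matrix.mul_apply, Fin.sum_univ_two]
  inv_val := by
    ext i j <;> fin_cases i <;> fin_cases j <;>
      simp [Matrix.mul_apply, Fin.sum_univ_two]

section Cochains

/-- The coboundary `X ↦ (g ↦ X - M̄(g) X M̄(g)⁻¹)` of the adjoint representation. -/
def adCoboundary (r : Γ →* Mat k) : Mat k →ₗ[k] (Γ → Mat k) where
  toFun X g := X - r g * X * r g⁻¹
  map_add' X Y := by
    funext g
    simp only [Pi.add_apply, mul_add, add_mul]
    abel
  map_smul' c X := by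
    funext g
    simp [smul_sub]

/-- The twisted-dual-number matrix `(1 + εZ g) · r g` entries. -/
def liftEntries (r : Γ →* Mat k) (Z : Γ → Mat k) (g : Γ) : Mat (DualNumber k) :=
  Matrix.of fun i j => TrivSqZeroExt.inl (r g i j) + TrivSqZeroExt.inr ((Z g * r g) i j)

theorem epsUnit_conj (r : Γ →* Mat k) (X : Mat k) (g : Γ) :
    (epsUnit X : Mat (DualNumber k)) * liftEntries r 0 g =
      liftEntries r (adCoboundary r X) g * (epsUnit X : Mat (DualNumber k)) := by
  have h : (adCoboundary r X g) * r g = X * r g - r g * X := by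
    show (X - r g * X * r g⁻¹) * r g = _
    rw [sub_mul, mul_assoc, ← map_mul, inv_mul_cancel, map_one, mul_one]
  ext i j
  · fin_cases i <;> fin_cases j <;> simp [epsUnit, liftEntries, Matrix.mul_apply, Fin.sum_univ_two]
  · have h' := congrFun (congrFun h i) j
    simp [Matrix.mul_apply, Fin.sum_univ_two] at h'
    fin_cases i <;> fin_cases j <;>
      simp [epsUnit, liftEntries, Matrix.mul_apply, Fin.sum_univ_two] at h' ⊢ <;>
      linear_combination -h'

end Cochains

variable {𝒪 : Type} [CommRing 𝒪] [IsDomain 𝒪] [IsDiscreteValuationRing 𝒪]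
  [IsAdicComplete (maximalIdeal 𝒪) 𝒪] {ρbar : ResidualGaloisRep (ResidueField 𝒪)}
  {𝒟 : ∀ ⦃A : Type⦄ [CommRing A] [IsLocalRing A] [Algebra 𝒪 A], GaloisRepAdic A → Prop}
  (D : DeformationRingData 𝒪 ρbar 𝒟)

omit [IsDomain 𝒪] [IsDiscreteValuationRing 𝒪] [IsAdicComplete (maximalIdeal 𝒪) 𝒪] in
/-- The dual numbers over the residue field of a local algebra as an artinian test algebra. -/
theorem isArtinianTestAlgebra_dualNumber [IsLocalRing 𝒪] {R : Type} [CommRing R] [IsLocalRing R]
    [Algebra 𝒪 R] [IsLocalHom (algebraMap 𝒪 R)]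
    (hres : Function.Surjective (residue R ∘ algebraMap 𝒪 R)) :
    IsArtinianTestAlgebra 𝒪 (DualNumber (ResidueField R)) := by
  have halg : ∀ c : 𝒪, (algebraMap 𝒪 (DualNumber (ResidueField R)) c).fst =
      residue R (algebraMap 𝒪 R c) := fun c => by
    simp [TrivSqZeroExt.algebraMap_eq_inl']
    rfl
  refine ⟨⟨fun c hc => ?_⟩, fun z => ?_, ?_⟩
  · rw [isUnit_dualNumber_iff, halg, Ne, residue_eq_zero_iff] at hc
    exact isUnit_of_map_unit (algebraMap 𝒪 R) c (IsLocalRing.notMem_maximalIdeal.mp hc)
  · obtain ⟨d, rfl⟩ := residue_surjective z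
    obtain ⟨c, hc⟩ := hres d.fst
    refine ⟨c, ?_⟩
    rw [Function.comp_apply, ← sub_eq_zero, ← map_sub, residue_eq_zero_iff,
      IsLocalRing.mem_maximalIdeal, mem_nonunits_iff, isUnit_dualNumber_iff,
      TrivSqZeroExt.fst_sub, halg]
    exact fun h => h (sub_eq_zero.mpr hc)
  · have : Module.Finite (ResidueField R) (DualNumber (ResidueField R)) :=
      inferInstanceAs (Module.Finite (ResidueField R) (ResidueField R × ResidueField R))
    exact IsArtinianRing.of_finite (ResidueField R) _

/-- The residual matrices of a deformation ring in a chosen basis. -/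
def residueMat (b : Module.Basis (Fin 2) D.R D.ρ.V) : Γ →* Mat (ResidueField D.R) :=
  mapRep (residue D.R) (matOf D.ρ.ρ b)

/-- A scalar of `𝒪` with prescribed residue in the deformation ring. -/
def scalarLift (r : D.R) : 𝒪 := (D.residue_surjective (residue D.R r)).choose

theorem residue_scalarLift (r : D.R) :
    residue D.R (algebraMap 𝒪 D.R (scalarLift D r)) = residue D.R r :=
  (D.residue_surjective (residue D.R r)).choose_spec

/-- An element minus its scalar part. -/
def maxPart (r : D.R) : maximalIdeal D.R :=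
  ⟨r - algebraMap 𝒪 D.R (scalarLift D r), by
    rw [← residue_eq_zero_iff, map_sub, residue_scalarLift, sub_self]⟩

/-- The cochain attached to a functional on the relative cotangent space, linearly. -/
def tangentCochain (b : Module.Basis (Fin 2) D.R D.ρ.V) :
    Module.Dual (ResidueField D.R) (RelCotangent 𝒪 D.R) →ₗ[ResidueField D.R]
      (Γ → Mat (ResidueField D.R)) where
  toFun f g := (Matrix.of fun i j => f (relClass (maxPart D (matOf D.ρ.ρ b g i j)))) *
    residueMat D b g⁻¹
  map_add' f f' := by
    funext g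
    rw [Pi.add_apply, ← add_mul]
    rfl
  map_smul' c f := by
    funext g
    rw [Pi.smul_apply, RingHom.id_apply, ← smul_mul_assoc]
    rfl

/-- The point of the deformation ring with values in the dual numbers attached to a functional. -/
theorem exists_point_tangentCochain (b : Module.Basis (Fin 2) D.R D.ρ.V)
    (f : Module.Dual (ResidueField D.R) (RelCotangent 𝒪 D.R)) :
    ∃ θ : D.R →ₐ[𝒪] DualNumber (ResidueField D.R),
      (∀ r, (θ r).fst = residue D.R r) ∧
      (∀ m : maximalIdeal D.R, (θ m).snd = f (relClass m)) ∧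
      IsLocalHom (θ : D.R →+* DualNumber (ResidueField D.R)) ∧
      ∀ g, mapRep (θ : D.R →+* DualNumber (ResidueField D.R)) (matOf D.ρ.ρ b) g =
        liftEntries (residueMat D b) (tangentCochain D b f) g := by
  obtain ⟨θ, hfst, hsnd⟩ := exists_dualNumber_point (L := 𝒪) D.residue_surjective f
  refine ⟨θ, hfst, hsnd, ⟨fun r hr => ?_⟩, fun g => Matrix.ext fun i j => ?_⟩
  · rw [RingHom.coe_coe, isUnit_dualNumber_iff, hfst, Ne, residue_eq_zero_iff] at hr
    exact IsLocalRing.notMem_maximalIdeal.mp hr
  · set M := matOf D.ρ.ρ b g i j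
    have hcancel : tangentCochain D b f g * residueMat D b g =
        Matrix.of fun i j => f (relClass (maxPart D (matOf D.ρ.ρ b g i j))) := by
      show _ * residueMat D b g⁻¹ * residueMat D b g = _
      rw [mul_assoc, ← map_mul, inv_mul_cancel, map_one, mul_one]
    have hsum : M = algebraMap 𝒪 D.R (scalarLift D M) + (maxPart D M : D.R) := by
      simp [maxPart]
    show θ M = TrivSqZeroExt.inl (residue D.R M) +
      TrivSqZeroExt.inr ((tangentCochain D b f g * residueMat D b g) i j)
    rw [hcancel]
    ext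
    · simp [hfst]
    · conv_lhs => rw [hsum, map_add, AlgHom.commutes]
      simp [TrivSqZeroExt.algebraMap_eq_inl', hsnd]
      rfl

/-- The cochain is a cocycle for the adjoint action. -/
theorem tangentCochain_mul (b : Module.Basis (Fin 2) D.R D.ρ.V)
    (f : Module.Dual (ResidueField D.R) (RelCotangent 𝒪 D.R)) (g h : Γ) :
    tangentCochain D b f (g * h) = tangentCochain D b f g +
      residueMat D b g * tangentCochain D b f h * residueMat D b g⁻¹ := by
  obtain ⟨θ, -, -, -, hθ⟩ := exists_point_tangentCochain D b f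
  set r := residueMat D b
  set Z := tangentCochain D b f
  have hmul := map_mul (mapRep (θ : D.R →+* DualNumber (ResidueField D.R)) (matOf D.ρ.ρ b)) g h
  rw [hθ, hθ, hθ] at hmul
  have key : Z (g * h) * r (g * h) = r g * (Z h * r h) + Z g * r g * r h := by
    refine Matrix.ext fun i j => ?_
    have := congrArg TrivSqZeroExt.snd (congrFun (congrFun hmul i) j)
    simp [liftEntries, Matrix.mul_apply, Fin.sum_univ_two] at this
    simp [Matrix.mul_apply, Fin.sum_univ_two]
    linear_combination this
  calc Z (g * h) = Z (g * h) * r (g * h) * r (g * h)⁻¹ := by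
        rw [mul_assoc, ← map_mul, mul_inv_cancel, map_one, mul_one]
    _ = r g * Z h * (r h * r h⁻¹) * r g⁻¹ + Z g * (r g * (r h * r h⁻¹) * r g⁻¹) := by
        rw [key, mul_inv_rev, map_mul]
        simp only [add_mul, mul_assoc]
    _ = _ := by
        rw [← map_mul r h, mul_inv_cancel, map_one, mul_one, mul_one, ← map_mul r g,
          mul_inv_cancel, map_one, mul_one, add_comm]

theorem det_liftEntries (r : Γ →* Mat k) (Z : Γ → Mat k) (g : Γ) :
    (liftEntries r Z g).det.snd = (Z g).trace * (r g).det := by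
  simp [liftEntries, Matrix.det_fin_two, Matrix.trace_fin_two, Matrix.mul_apply, Fin.sum_univ_two]
  ring

/-- If the determinant of the deformation is scalar, the cochain has trace zero. -/
theorem trace_tangentCochain_eq_zero (b : Module.Basis (Fin 2) D.R D.ρ.V)
    (f : Module.Dual (ResidueField D.R) (RelCotangent 𝒪 D.R)) (g : Γ) (c : 𝒪)
    (hdet : (matOf D.ρ.ρ b g).det = algebraMap 𝒪 D.R c) :
    (tangentCochain D b f g).trace = 0 := by
  obtain ⟨θ, -, -, -, hθ⟩ := exists_point_tangentCochain D b f
  have h := det_liftEntries (residueMat D b) (tangentCochain D b f) g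
  rw [← hθ, mapRep_apply, ← RingHom.mapMatrix_apply, ← RingHom.map_det, hdet, RingHom.coe_coe,
    AlgHom.commutes, TrivSqZeroExt.algebraMap_eq_inl', TrivSqZeroExt.snd_inl] at h
  refine (mul_eq_zero.mp h.symm).resolve_right fun h0 => ?_
  have h1 := congrArg Matrix.det (map_mul (residueMat D b) g g⁻¹)
  rw [mul_inv_cancel, map_one, Matrix.det_one, Matrix.det_mul, h0, zero_mul] at h1
  exact one_ne_zero h1

variable (hD : IsDeformationCondition 𝒪 𝒟)

include hD in
/-- A nonzero functional gives a deformation to the dual numbers of type `𝒟`. -/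
theorem condition_of_ne_zero (b : Module.Basis (Fin 2) D.R D.ρ.V)
    {f : Module.Dual (ResidueField D.R) (RelCotangent 𝒪 D.R)} (hf : f ≠ 0)
    (θ : D.R →ₐ[𝒪] DualNumber (ResidueField D.R))
    (hsnd : ∀ m : maximalIdeal D.R, (θ m).snd = f (relClass m))
    (hfst : ∀ r, (θ r).fst = residue D.R r)
    (hloc : IsLocalHom (θ : D.R →+* DualNumber (ResidueField D.R))) :
    𝒟 (D.ρ.baseChangeAlong (θ : D.R →+* DualNumber (ResidueField D.R)) hloc) := by
  have hsurj : Function.Surjective θ := by
    obtain ⟨x, hx⟩ : ∃ x, f x ≠ 0 := by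
      by_contra! h
      exact hf (LinearMap.ext h)
    obtain ⟨m, rfl⟩ := relClass_surjective x
    intro z
    obtain ⟨c, hc⟩ := D.residue_surjective z.fst
    obtain ⟨u, hu⟩ := residue_surjective (z.snd * (f (relClass m))⁻¹)
    refine ⟨algebraMap 𝒪 D.R c + u * m, ?_⟩
    have hm0 : (θ (m : D.R)).fst = 0 := by
      rw [hfst, residue_eq_zero_iff]; exact m.2
    ext
    · rw [hfst, map_add, map_mul, (residue_eq_zero_iff _).mpr m.2, mul_zero, add_zero]
      exact hc
    · rw [map_add, map_mul, AlgHom.commutes, TrivSqZeroExt.snd_add, TrivSqZeroExt.snd_mul,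
        TrivSqZeroExt.algebraMap_eq_inl', TrivSqZeroExt.snd_inl, hm0, hsnd, hfst, hu]
      simp [hx]
  exact (hD.iff_forall_surjective inferInstance D.residue_surjective D.ρ).mp D.isOfType
    (isArtinianTestAlgebra_dualNumber D.residue_surjective) θ hloc hsurj

include hD in
/-- The tangent cochain is injective modulo coboundaries. -/
theorem tangentCochain_notMem_range (b : Module.Basis (Fin 2) D.R D.ρ.V)
    (hb : ∃ bbar : Module.Basis (Fin 2) (ResidueField 𝒪) ρbar.V,
      residueMat D b = mapRep (ResidueField.map (algebraMap 𝒪 D.R)) (matOf ρbar.ρ bbar))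
    {f : Module.Dual (ResidueField D.R) (RelCotangent 𝒪 D.R)}
    (hf : tangentCochain D b f ∈ LinearMap.range (adCoboundary (residueMat D b))) : f = 0 := by
  by_contra hne
  obtain ⟨X, hX⟩ := hf
  obtain ⟨θ, hfst, hsnd, hloc, hθ⟩ := exists_point_tangentCochain D b f
  obtain ⟨θ₀, hfst₀, hsnd₀, hloc₀, hθ₀⟩ := exists_point_tangentCochain D b 0
  rw [map_zero] at hθ₀
  set B := DualNumber (ResidueField D.R)
  have htest := isArtinianTestAlgebra_dualNumber (𝒪 := 𝒪) D.residue_surjective
  have : IsAdicComplete (maximalIdeal B) B :=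
    isAdicComplete_of_pow_eq_bot dualNumber_maximalIdeal_sq
  have := htest.isLocalHom
  have := htest.isArtinian
  set ρA := D.ρ.baseChangeAlong (θ : D.R →+* B) hloc
  have h𝒟 : 𝒟 ρA := condition_of_ne_zero D hD b hne θ hsnd hfst hloc
  obtain ⟨b', hb'⟩ := exists_basis_baseChangeAlong D.ρ b (θ : D.R →+* B) hloc
  obtain ⟨b₀, hb₀⟩ := exists_basis_baseChangeAlong D.ρ b (θ₀ : D.R →+* B) hloc₀
  have hres : ρA.residual.IsEquiv
      (ρbar.baseChangeAlong (ResidueField.map (algebraMap 𝒪 B))) := by
    obtain ⟨bbar, hbbar⟩ := hb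
    refine residual_isEquiv_of_map_eq ρbar bbar ρA b' _ ?_
    rw [hb']
    refine MonoidHom.ext fun g => Matrix.ext fun i j => ?_
    have he : residue D.R (matOf D.ρ.ρ b g i j) =
        ResidueField.map (algebraMap 𝒪 D.R) (matOf ρbar.ρ bbar g i j) :=
      congrFun (congrFun (DFunLike.congr_fun hbbar g) i) j
    obtain ⟨c, hc⟩ := residue_surjective (R := 𝒪) (matOf ρbar.ρ bbar g i j)
    show residue B (θ (matOf D.ρ.ρ b g i j)) = ResidueField.map (algebraMap 𝒪 B) _
    rw [← hc, ResidueField.map_residue] at he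
    rw [← hc, ResidueField.map_residue, ← AlgHom.commutes θ, ← sub_eq_zero, ← map_sub,
      residue_eq_zero_iff, IsLocalRing.mem_maximalIdeal, mem_nonunits_iff, isUnit_dualNumber_iff,
      TrivSqZeroExt.fst_sub, hfst, hfst, he, sub_self]
    exact fun h => h rfl
  have hequiv : (D.ρ.baseChangeAlong (θ₀ : D.R →+* B) hloc₀).IsEquiv ρA := by
    refine (isEquiv_repOf _ b₀ hb₀ ((isCont_matOf D.ρ b).mapRep _ hloc₀)).elim fun e₀ => ?_
    refine (isEquiv_repOf ρA b' hb' ((isCont_matOf D.ρ b).mapRep _ hloc)).elim fun e => ?_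
    refine (isEquiv_repOf_of_conj ((isCont_matOf D.ρ b).mapRep _ hloc₀)
      ((isCont_matOf D.ρ b).mapRep _ hloc) (epsUnit X) fun g => ?_).elim fun c => ?_
    · rw [hθ, hθ₀, ← hX]
      exact epsUnit_conj _ X g
    · exact ⟨(e₀.trans c).trans e.symm⟩
  obtain ⟨φ, -, huniq⟩ := D.universal B htest.residue_surjective ρA h𝒟 hres
  have h1 := huniq θ ⟨hloc, ⟨GaloisRepAdic.Equiv.refl _⟩⟩
  have h2 := huniq θ₀ ⟨hloc₀, hequiv⟩
  refine hne (LinearMap.ext fun x => ?_)
  obtain ⟨m, rfl⟩ := relClass_surjective x
  rw [← hsnd, h1, ← h2, hsnd₀]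

include hD in
/-- A deformation ring is generated by as many elements as the dimension of any space of cochains
modulo coboundaries that contains the tangent cochains. -/
theorem exists_mvPowerSeries_surjective_of_tangentCochain (b : Module.Basis (Fin 2) D.R D.ρ.V)
    (hb : ∃ bbar : Module.Basis (Fin 2) (ResidueField 𝒪) ρbar.V,
      residueMat D b = mapRep (ResidueField.map (algebraMap 𝒪 D.R)) (matOf ρbar.ρ bbar))
    (U : Submodule (ResidueField D.R) (Γ → Mat (ResidueField D.R)))
    (hU : ∀ f, tangentCochain D b f ∈ U)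
    [FiniteDimensional (ResidueField D.R)
      (U.map (LinearMap.range (adCoboundary (residueMat D b))).mkQ)]
    {g : ℕ}
    (hg : Module.finrank (ResidueField D.R)
      (U.map (LinearMap.range (adCoboundary (residueMat D b))).mkQ) ≤ g) :
    ∃ Φ : MvPowerSeries (Fin g) 𝒪 →ₐ[𝒪] D.R, Function.Surjective Φ := by
  let F := ((LinearMap.range (adCoboundary (residueMat D b))).mkQ.comp
    (tangentCochain D b)).codRestrict
      (U.map (LinearMap.range (adCoboundary (residueMat D b))).mkQ)
      fun f => Submodule.mem_map_of_mem (hU f)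
  refine exists_mvPowerSeries_surjective_of_tangent (L := 𝒪) D.residue_surjective hg F ?_
  rw [← LinearMap.ker_eq_bot, LinearMap.ker_eq_bot']
  intro f hf
  refine tangentCochain_notMem_range D hD b hb ?_
  exact (Submodule.Quotient.mk_eq_zero _).mp (congrArg Subtype.val hf)

/-- A basis of the deformation reducing to a given residual basis. -/
theorem exists_basis_residueMat_eq (bbar : Module.Basis (Fin 2) (ResidueField 𝒪) ρbar.V) :
    ∃ b : Module.Basis (Fin 2) D.R D.ρ.V,
      residueMat D b = mapRep (ResidueField.map (algebraMap 𝒪 D.R)) (matOf ρbar.ρ bbar) :=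
  exists_lift_basis ρbar bbar D.ρ _ D.residual_isEquiv

end Fermat.Agent.RT
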