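import Fermat.Agent.EichlerShimura.EigenCharacter
import Fermat.Agent.EichlerShimura.IntegersResidue
import Fermat.Agent.EichlerShimura.ResidualCharacter
import Fermat.Agent.BadPrime.ConductorDefs
import Fermat.Agent.HeckeFinite.Finite
import Fermat.Prelude.Def_GaloisRep_Residual
import Mathlib.LinearAlgebra.Charpoly.BaseChange
import Mathlib.FieldTheory.IsAlgClosed.Basic

/-!
# The residual representation of a newform at the primes `q ∥ M`

From the `λ`-adic representation of a newform (S35, as `BadPrime.NewformMultRep`): a residual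
representation attached to `(g, φ)` in which every Frobenius element at `q ∥ M` has eigenvalues
`ε, εq` with `ε = ±1`.
-/

set_option autoImplicit false
set_option linter.style.haveILetI false

noncomputable section

open Polynomial IsLocalRing

namespace Fermat.Agent.RT

local notation "ℚ̄" => AlgebraicClosure ℚ

theorem exists_residualRep_newform (h35 : BadPrime.NewformMultRep) {M : ℕ} [NeZero M]
    {g : CuspForm (CongruenceSubgroup.Gamma0 M) 2} (hg : g.IsNewform) {p : ℕ} (hp : p.Prime)
    {k : Type} [Field k] [CharP k p] (φ : integralClosure ℤ ℂ →+* k) :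
    ∃ ρ : ResidualGaloisRep k, ρ.IsAttachedTo g φ ∧
      ∀ q : ℕ, q.Prime → q ≠ p → q ∣ M → ¬ q ^ 2 ∣ M →
        ∀ A : ValuationSubring ℚ̄, A.LiesOverPrime q → ∀ σ : ℚ̄ ≃ₐ[ℚ] ℚ̄, A.IsFrobeniusAt σ q →
          ∃ ε : k, ε * ε = 1 ∧
            LinearMap.charpoly (ρ.ρ σ) = X ^ 2 - C (ε * ((q : k) + 1)) * X + C (q : k) := by
  classical
  haveI : Fact p.Prime := ⟨hp⟩
  obtain ⟨χ, hχ⟩ := EichlerShimura.exists_eigenCharacter hg.1
  have : (RingHom.ker φ).IsMaximal := EichlerShimura.isMaximal_ker_of_charP hp φ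
  let k₀ := integralClosure ℤ ℂ ⧸ RingHom.ker φ
  let _ : Field k₀ := Ideal.Quotient.field _
  haveI : IsAlgClosed k₀ := IsAlgClosed.of_exists_root k₀ fun f hf hirr =>
    EichlerShimura.exists_root_quotient_integers _ f hf
      (ne_of_gt (degree_pos_of_irreducible hirr))
  let ι : k₀ →+* k := RingHom.kerLift φ
  haveI : CharP k₀ p := (RingHom.charP_iff ι (RingHom.injective ι) p).mpr inferInstance
  set S : Finset ℕ := insert p M.primeFactors with hS
  have hle : CuspForm.heckeAlgebra M 2 (↑S : Set ℕ) ≤ CuspForm.heckeAlgebra M 2 (∅ : Set ℕ) := by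
    refine Algebra.adjoin_mono ?_
    rintro T (⟨ℓ, hℓ, hℓN, -, rfl⟩ | ⟨q, hqN, hq, -, rfl⟩)
    · exact Or.inl ⟨ℓ, hℓ, hℓN, Set.notMem_empty ℓ, rfl⟩
    · exact Or.inr ⟨q, hqN, hq, Set.notMem_empty q, rfl⟩
  let incl : CuspForm.heckeAlgebra M 2 (↑S : Set ℕ) →+* CuspForm.heckeAlgebra M 2 (∅ : Set ℕ) :=
    (Subalgebra.inclusion hle).toRingHom
  let chi : CuspForm.heckeAlgebra M 2 (↑S : Set ℕ) →+* ℂ :=
    ((integralClosure ℤ ℂ).val.toRingHom.comp χ).comp incl
  have hmem : ∀ x : chi.range, (x : ℂ) ∈ integralClosure ℤ ℂ := by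
    rintro ⟨x, t, rfl⟩
    exact (χ (incl t)).2
  let toZbar : chi.range →+* integralClosure ℤ ℂ :=
    chi.range.subtype.codRestrict (integralClosure ℤ ℂ).toSubring hmem
  haveI := HeckeFinite.moduleFinite_heckeAlgebra M 2 (↑S : Set ℕ)
  haveI : Module.Finite ℤ chi.range :=
    Module.Finite.of_surjective chi.rangeRestrict.toIntAlgHom.toLinearMap
      chi.rangeRestrict_surjective
  haveI : Module.IsTorsionFree ℤ chi.range :=
    Function.Injective.moduleIsTorsionFree (Subtype.val : chi.range → ℂ) Subtype.val_injective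
      fun _ _ => by simp
  haveI : Module.Free ℤ chi.range := Module.free_of_finite_type_torsion_free'
  obtain ⟨O, _, _, _, _, _, _, hpO, iota, j, hj⟩ := EichlerShimura.exists_padic_lift p chi.range k₀
    ((Ideal.Quotient.mk (RingHom.ker φ)).comp toZbar)
  have hMS : ∀ q : ℕ, q.Prime → q ∣ M → q ∈ S := fun q hq hqM =>
    Finset.mem_insert_of_mem (Nat.mem_primeFactors.2 ⟨hq, hqM, NeZero.ne M⟩)
  obtain ⟨O'', _, _, _, _, _, _, _, _, _, -, ρ, hchar, hmult⟩ :=
    h35 hg p S O hpO chi (fun ℓ hℓ hℓM hℓS => hχ ℓ hℓ hℓM) iota (Finset.mem_insert_self _ _) hMS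
  let _ : Algebra (ResidueField O) k₀ := j.toAlgebra
  haveI : Module.Finite (ResidueField O) (ResidueField O'') := Module.Finite.of_finite
  let j' : ResidueField O'' →ₐ[ResidueField O] k₀ := IsAlgClosed.lift
  let ψ : ResidueField O'' →+* k := ι.comp j'.toRingHom
  have hres : ∀ t : chi.range, ψ (residue O'' (algebraMap O O'' (iota t))) = φ (toZbar t) := by
    intro t
    show ι (j' (residue O'' (algebraMap O O'' (iota t)))) = _
    rw [show residue O'' (algebraMap O O'' (iota t)) =
      algebraMap (ResidueField O) (ResidueField O'') (residue O (iota t)) from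
        (ResidueField.map_residue (algebraMap O O'') (iota t)).symm, AlgHom.commutes]
    show ι (j (residue O (iota t))) = _
    rw [hj t]
    rfl
  have hcp : ∀ σ, LinearMap.charpoly ((ρ.residual.baseChangeAlong ψ).ρ σ) =
      ((LinearMap.charpoly (ρ.ρ σ)).map (residue O'')).map ψ := by
    intro σ
    let _ : Algebra (ResidueField O'') k := ψ.toAlgebra
    show LinearMap.charpoly (((ρ.ρ σ).baseChange (ResidueField O'')).baseChange k) = _
    rw [LinearMap.charpoly_baseChange, LinearMap.charpoly_baseChange]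
    rfl
  refine ⟨ρ.residual.baseChangeAlong ψ, fun ℓ hℓ hℓM hℓk A hA σ hσ => ?_,
    fun q hq hqp hqM hq2 A hA σ hσ => ?_⟩
  · have hℓp : ℓ ≠ p := fun h => hℓk (by rw [h, CharP.cast_eq_zero])
    have hℓS : ℓ ∉ (↑S : Set ℕ) := by
      simp [hS, hℓp, hℓM]
    refine ⟨χ (CuspForm.heckeAlgebra.T hℓ hℓM (Set.notMem_empty ℓ)), hχ ℓ hℓ hℓM, ?_⟩
    rw [hcp, hchar ℓ hℓ hℓM hℓS A hA σ hσ]
    simp only [Polynomial.map_add, Polynomial.map_sub, Polynomial.map_mul, Polynomial.map_pow,
      map_X, map_C, map_natCast, Polynomial.map_natCast, RingHom.comp_apply, hres]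
    rfl
  · rw [hcp]
    rcases hmult q hq hqp hqM hq2 A hA σ hσ with h | h <;> rw [h]
    · refine ⟨1, one_mul 1, ?_⟩
      simp [Polynomial.map_natCast]
    · refine ⟨-1, by simp, ?_⟩
      simp only [Polynomial.map_add, Polynomial.map_mul, Polynomial.map_pow, map_X, map_C,
        Polynomial.map_natCast, map_natCast, map_add, map_one, map_mul, map_neg, Polynomial.map_one, map_C]
      ring

end Fermat.Agent.RT
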