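import Fermat.Prelude.Def_GaloisRep_ComplexConjugation
import Fermat.Agent.Density.AbsIrr
import Fermat.Agent.Density.CharpolyDetermines
import Fermat.Agent.Deformation.Matrix
import Fermat.Agent.RT.CarayolDescent
import Fermat.Agent.RT.Chevalley

/-!
# Carayol descent for Galois representations

* `exists_galoisRepAdic_of_trace`: a representation into `M₂(B)` with continuous trace in a local
  ring `A ⊆ B` and absolutely irreducible reduction descends to a `GaloisRepAdic A`.
* `exists_galoisRepAdic_of_family`: the form used for Hecke algebras, where `A` embeds in a finite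
  product of local rings carrying representations.
-/

noncomputable section

open IsLocalRing Polynomial
open scoped TensorProduct

namespace Fermat.Agent.RT

local notation "ℚ̄" => AlgebraicClosure ℚ
local notation "Γℚ" => (AlgebraicClosure ℚ ≃ₐ[ℚ] AlgebraicClosure ℚ)

/-- An involution of determinant `-1` has trace zero. -/
theorem trace_eq_zero_of_involution {B : Type*} [CommRing B] (M : Matrix (Fin 2) (Fin 2) B)
    (h : M * M = 1) (hd : M.det = -1) : M.trace = 0 := by
  have h1 := Density.matrix_two_mul_self M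
  rw [h, hd, neg_smul, one_smul, sub_neg_eq_add] at h1
  have h2 : M.trace • M = 0 := by simpa using h1
  have h3 : M.trace • (1 : Matrix (Fin 2) (Fin 2) B) = 0 := by
    rw [← h, ← smul_mul_assoc, h2, zero_mul]
  simpa using congrFun (congrFun h3 0) 0

/-- Spanning is preserved by extension of the field. -/
theorem span_map_eq_top {k K : Type*} [Field k] [Field K] (φ : k →+* K) {G ι : Type*}
    [Fintype ι] [DecidableEq ι] (R : G → Matrix ι ι k)
    (h : Submodule.span k (Set.range R) = ⊤) :
    Submodule.span K (Set.range fun g => (R g).map φ) = ⊤ := by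
  rw [eq_top_iff, ← (Matrix.stdBasis K ι ι).span_eq, Submodule.span_le]
  rintro _ ⟨⟨i, j⟩, rfl⟩
  have hall : ∀ X ∈ Submodule.span k (Set.range R),
      X.map φ ∈ Submodule.span K (Set.range fun g => (R g).map φ) := by
    intro X hX
    induction hX using Submodule.span_induction with
    | mem x hx =>
      obtain ⟨g, rfl⟩ := hx
      exact Submodule.subset_span ⟨g, rfl⟩
    | zero => simp
    | add x y _ _ hx hy =>
      rw [Matrix.map_add φ (map_add φ)]
      exact Submodule.add_mem _ hx hy
    | smul a x _ hx =>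
      rw [Matrix.map_smul' φ a x (map_mul φ)]
      exact Submodule.smul_mem _ _ hx
  have := hall (Matrix.single i j 1) (by rw [h]; exact Submodule.mem_top)
  rw [Matrix.map_single _ _ _ φ, map_one] at this
  simpa [Matrix.stdBasis_eq_single] using this

/-- Carayol descent for Galois representations. -/
theorem exists_galoisRepAdic_of_trace {A : Type} [CommRing A] [IsLocalRing A] {B : Type*}
    [CommRing B] (i : A →+* B) (hi : Function.Injective i)
    (R : Γℚ →* Matrix (Fin 2) (Fin 2) B) (t : Γℚ → A) (htR : ∀ g, (R g).trace = i (t g))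
    (ρbar : ResidualGaloisRep (ResidueField A)) (habs : ρbar.IsAbsolutelyIrreducible)
    (htbar : ∀ g, LinearMap.trace (ResidueField A) ρbar.V (ρbar.ρ g) = residue A (t g))
    (h2 : IsUnit (2 : A)) (hc : (R complexConjugation).det = -1)
    (hcont : ∀ n : ℕ, ∃ L : IntermediateField ℚ ℚ̄, FiniteDimensional ℚ L ∧
      ∀ τ : Γℚ, (∀ x ∈ L, τ x = x) → ∀ g, t (g * τ) - t g ∈ maximalIdeal A ^ n) :
    ∃ ρ : GaloisRepAdic A, (∀ g, ρ.trace g = t g) ∧
      (∀ g, (LinearMap.charpoly (ρ.ρ g)).map i = (R g).charpoly) ∧
      ρ.residual.IsEquiv ρbar ∧ ρ.residual.IsAbsolutelyIrreducible := by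
  let bbar := Module.finBasisOfFinrankEq (ResidueField A) ρbar.V ρbar.finrank_eq
  let Rbar : Γℚ →* Matrix (Fin 2) (Fin 2) (ResidueField A) := Deformation.matOf ρbar.ρ bbar
  have htc : t complexConjugation = 0 := hi (by
    rw [← htR, map_zero]
    exact trace_eq_zero_of_involution _
      (by rw [← map_mul, complexConjugation_mul_self, map_one]) hc)
  obtain ⟨R', htr, hdet, hJ, -⟩ := exists_descent i hi (residue A) R Rbar t htR
    (fun g => (LinearMap.trace_eq_matrix_trace _ bbar (ρbar.ρ g)).symm.trans (htbar g))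
    (Density.residual_span_toMatrix_eq_top ρbar habs bbar) h2 complexConjugation
    complexConjugation_mul_self htc
  have hR' : Deformation.IsCont R' := fun n => by
    obtain ⟨L, hL, hLt⟩ := hcont n
    exact ⟨L, hL, fun τ hτ => hJ _ τ (hLt τ hτ)⟩
  let b := Deformation.stdBasis R' hR'
  have hmat : ∀ g, LinearMap.toMatrix b b ((Deformation.repOf R' hR').ρ g) = R' g := fun g =>
    DFunLike.congr_fun (Deformation.matOf_repOf R' hR') g
  have htrace : ∀ g, (Deformation.repOf R' hR').trace g = t g := fun g => by
    rw [GaloisRepAdic.trace, LinearMap.trace_eq_matrix_trace A b, hmat, htr]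
  have hres : ρbar.IsEquiv (Deformation.repOf R' hR').residual :=
    Density.residual_isEquiv_of_trace _ _ habs fun g => by
      rw [htbar, ← htrace g]
      exact (LinearMap.trace_baseChange ((Deformation.repOf R' hR').ρ g) (ResidueField A)).symm
  refine ⟨_, htrace, fun g => ?_, hres.map ResidualGaloisRep.Equiv.symm,
    Density.isAbsolutelyIrreducible_of_isEquiv hres habs⟩
  rw [← LinearMap.charpoly_toMatrix _ b, hmat, Density.charpoly_fin_two_eq,
    Density.charpoly_fin_two_eq (R g), htR, ← hdet, ← htr]
  simp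

/-- Carayol descent, for a ring embedded in a finite product of local rings carrying
representations. -/
theorem exists_galoisRepAdic_of_family {A : Type} [CommRing A] [IsLocalRing A] [IsNoetherianRing A]
    [IsAdicComplete (maximalIdeal A) A] {J : Type} [Finite J] {O : J → Type}
    [∀ j, CommRing (O j)] [∀ j, IsLocalRing (O j)] [∀ j, IsHausdorff (maximalIdeal (O j)) (O j)]
    (i : ∀ j, A →+* O j) (hloc : ∀ j, IsLocalHom (i j))
    (hi : ∀ x : A, (∀ j, i j x = 0) → x = 0)
    (r : ∀ j, GaloisRepAdic (O j)) (t : Γℚ → A) (htr : ∀ j g, (r j).trace g = i j (t g))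
    (hdet : ∀ j, LinearMap.det ((r j).ρ complexConjugation) = -1)
    (ρbar : ResidualGaloisRep (ResidueField A)) (habs : ρbar.IsAbsolutelyIrreducible)
    (htbar : ∀ g, LinearMap.trace (ResidueField A) ρbar.V (ρbar.ρ g) = residue A (t g))
    (h2 : IsUnit (2 : A)) :
    ∃ ρ : GaloisRepAdic A, (∀ g, ρ.trace g = t g) ∧
      (∀ j g, (LinearMap.charpoly (ρ.ρ g)).map (i j) = LinearMap.charpoly ((r j).ρ g)) ∧
      ρ.residual.IsEquiv ρbar ∧ ρ.residual.IsAbsolutelyIrreducible ∧
      ∀ j, (ρ.baseChangeAlong (i j) (hloc j)).IsEquiv (r j) := by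
  let b : ∀ j, Module.Basis (Fin 2) (O j) (r j).V := fun j =>
    Module.finBasisOfFinrankEq (O j) (r j).V (r j).finrank_eq
  let I : A →+* ∀ j, O j := RingHom.pi i
  have hI : Function.Injective I := (injective_iff_map_eq_zero I).mpr fun x hx =>
    hi x fun j => congrFun hx j
  let R : Γℚ →* Matrix (Fin 2) (Fin 2) (∀ j, O j) :=
    { toFun := fun g => Matrix.of fun p q j => Deformation.matOf (r j).ρ (b j) g p q
      map_one' := by
        ext p q j
        simp [Matrix.one_apply]
        split <;> simp
      map_mul' := fun g g' => by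
        ext p q j
        simp [Matrix.mul_apply, Finset.sum_apply] }
  have hRj : ∀ j g, (R g).map (Pi.evalRingHom O j) = Deformation.matOf (r j).ρ (b j) g :=
    fun j g => by ext p q; simp [R]
  have htrj : ∀ j g, (Deformation.matOf (r j).ρ (b j) g).trace = i j (t g) := fun j g =>
    (LinearMap.trace_eq_matrix_trace _ (b j) ((r j).ρ g)).symm.trans (htr j g)
  have htR : ∀ g, (R g).trace = I (t g) := fun g => funext fun j => by
    rw [← Pi.evalRingHom_apply O j (R g).trace, AddMonoidHom.map_trace, hRj, htrj]
    rfl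
  have hc : (R complexConjugation).det = -1 := funext fun j => by
    show Pi.evalRingHom O j (R complexConjugation).det = -1
    rw [RingHom.map_det, RingHom.mapMatrix_apply, hRj, Deformation.matOf_apply,
      LinearMap.det_toMatrix, hdet]
  have hcont : ∀ n : ℕ, ∃ L : IntermediateField ℚ ℚ̄, FiniteDimensional ℚ L ∧
      ∀ τ : Γℚ, (∀ x ∈ L, τ x = x) → ∀ g, t (g * τ) - t g ∈ maximalIdeal A ^ n := by
    intro n
    obtain ⟨N, hN⟩ := exists_forall_mem_pow_imp i hi n
    choose L hL hLc using fun j => Deformation.isCont_matOf (r j) (b j) N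
    refine ⟨⨆ j, L j, IntermediateField.finiteDimensional_iSup_of_finite, fun τ hτ g => hN _ fun j => ?_⟩
    have h1 := hLc j τ fun x hx => hτ x (SetLike.le_def.mp (le_iSup L j) hx)
    rw [map_sub, ← htrj, ← htrj, map_mul, ← Matrix.trace_sub, ← mul_sub_one, Matrix.trace_fin_two]
    simp only [Matrix.mul_apply, Fin.sum_univ_two]
    exact Ideal.add_mem _
      (Ideal.add_mem _ (Ideal.mul_mem_left _ _ (h1 0 0)) (Ideal.mul_mem_left _ _ (h1 1 0)))
      (Ideal.add_mem _ (Ideal.mul_mem_left _ _ (h1 0 1)) (Ideal.mul_mem_left _ _ (h1 1 1)))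
  obtain ⟨ρ, hρt, hρc, hρres, hρabs⟩ :=
    exists_galoisRepAdic_of_trace I hI R t htR ρbar habs htbar h2 hc hcont
  refine ⟨ρ, hρt, fun j g => ?_, hρres, hρabs, fun j => ?_⟩
  · have h := congrArg (Polynomial.map (Pi.evalRingHom O j)) (hρc g)
    rw [Polynomial.map_map, ← Matrix.charpoly_map, hRj, Deformation.matOf_apply,
      LinearMap.charpoly_toMatrix] at h
    exact h
  · let bA := Module.finBasisOfFinrankEq A ρ.V ρ.finrank_eq
    obtain ⟨b', hb'⟩ := Deformation.exists_basis_baseChangeAlong ρ bA (i j) (hloc j)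
    obtain ⟨e, he⟩ := Density.exists_linearEquiv_of_trace_eq (residue (O j)) b' (b j)
      (ρ.baseChangeAlong (i j) (hloc j)).ρ (r j).ρ
      (by
        have hs := span_map_eq_top (ResidueField.map (i j)) _
          (Density.adic_span_map_residue_eq_top ρ hρabs bA)
        convert hs using 3
        funext g
        have := DFunLike.congr_fun hb' g
        ext p q
        simp only [Matrix.map_apply]
        show residue (O j) (Deformation.matOf (ρ.baseChangeAlong (i j) (hloc j)).ρ b' g p q) = _
        rw [this]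
        rfl)
      (fun g => by
        show (Deformation.matOf (ρ.baseChangeAlong (i j) (hloc j)).ρ b' g).trace =
          (Deformation.matOf (r j).ρ (b j) g).trace
        rw [DFunLike.congr_fun hb' g, htrj]
        show ((Deformation.matOf ρ.ρ bA g).map (i j)).trace = i j (t g)
        rw [← AddMonoidHom.map_trace, ← hρt g]
        exact congrArg (i j) (LinearMap.trace_eq_matrix_trace A bA (ρ.ρ g)).symm)
    exact ⟨⟨e, he⟩⟩

end Fermat.Agent.RT
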