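import Mathlib.RingTheory.DedekindDomain.Ideal.Lemmas
import Mathlib.RingTheory.IntegralDomain
import Mathlib.RingTheory.Filtration
import Fermat.Agent.Density.Splitting

/-!
# Tame inertia has cyclic image in a `p`-group

If the image of the inertia group at a place over `q` under a finite-level homomorphism is a
`p`-group with `p ≠ q`, then it is cyclic.
-/

set_option autoImplicit false

noncomputable section

namespace Fermat.Agent.RT

section Dedekind

variable {R G : Type*} [CommRing R] [IsDedekindDomain R] [Group G] [MulSemiringAction G R]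
  {Q : Ideal R}

omit [IsDedekindDomain R] in
private theorem smul_sub_mul (τ : G) (x y : R) :
    τ • (x * y) - x * y = (τ • x - x) * τ • y + x * (τ • y - y) := by
  rw [smul_mul']; ring

omit [IsDedekindDomain R] in
private theorem smul_mem_of_inertia {τ : G} (hτ : ∀ x : R, τ • x - x ∈ Q) {x : R} (hx : x ∈ Q) :
    τ • x ∈ Q := by
  simpa using add_mem (hτ x) hx

omit [IsDedekindDomain R] in
private theorem smul_sub_mem_pow {τ : G} (hτ : ∀ x : R, τ • x - x ∈ Q)
    (hτQ : ∀ x ∈ Q, τ • x - x ∈ Q ^ 2) : ∀ m : ℕ, ∀ x ∈ Q ^ m, τ • x - x ∈ Q ^ (m + 1) := by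
  intro m
  induction m with
  | zero => intro x _; simpa using hτ x
  | succ m ih =>
    intro x hx
    rw [pow_succ] at hx
    refine Submodule.mul_induction_on hx (fun a ha b hb => ?_) fun a b ha hb => ?_
    · rw [smul_sub_mul]
      refine add_mem ?_ ?_
      · rw [pow_succ]
        exact Ideal.mul_mem_mul (ih a ha) (smul_mem_of_inertia hτ hb)
      · rw [show m + 1 + 1 = m + 2 by omega, pow_add]
        exact Ideal.mul_mem_mul ha (hτQ b hb)
    · rw [smul_add, show τ • a + τ • b - (a + b) = (τ • a - a) + (τ • b - b) by ring]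
      exact add_mem ha hb

private theorem mem_pow_of_natCast_mul_mem (hQ : Q.IsMaximal) {n : ℕ} (hn : (n : R) ∉ Q)
    {m : ℕ} {z : R} (h : (n : R) * z ∈ Q ^ m) : z ∈ Q ^ m := by
  obtain ⟨a, q, hq, hsum⟩ := hQ.exists_inv hn
  have key : ∀ k : ℕ, ∃ c : R, z - c * ((n : R) * z) ∈ Q ^ k := by
    intro k
    induction k with
    | zero => exact ⟨0, by simp⟩
    | succ k ih =>
      obtain ⟨c, hc⟩ := ih
      refine ⟨c + a * (1 - c * (n : R)), ?_⟩
      rw [pow_succ']
      have : z - (c + a * (1 - c * (n : R))) * ((n : R) * z) =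
          q * (z - c * ((n : R) * z)) := by linear_combination (z - c * ((n : R) * z)) * (-hsum)
      rw [this]
      exact Ideal.mul_mem_mul hq hc
  obtain ⟨c, hc⟩ := key m
  simpa using add_mem hc ((Q ^ m).mul_mem_left c h)

/-- An inertia element of order prime to the residue characteristic which is trivial on `Q / Q²`
is trivial. -/
theorem smul_eq_self_of_pow_eq_one (hQ : Q.IsMaximal) {τ : G} (hτ : ∀ x : R, τ • x - x ∈ Q)
    (hτQ : ∀ x ∈ Q, τ • x - x ∈ Q ^ 2) {n : ℕ} (hn : (n : R) ∉ Q) (h1 : τ ^ n = 1) (x : R) :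
    τ • x = x := by
  have key : ∀ m : ℕ, ∀ x : R, τ • x - x ∈ Q ^ (m + 1) := by
    intro m
    induction m with
    | zero => simpa using hτ
    | succ m ih =>
      intro x
      set z := τ • x - x
      have hz : τ • z - z ∈ Q ^ (m + 2) := smul_sub_mem_pow hτ hτQ (m + 1) z (ih x)
      have hpowz : ∀ i : ℕ, (τ ^ i) • z - z ∈ Q ^ (m + 2) := by
        intro i
        induction i with
        | zero => simp
        | succ i ihi =>
          have hstab : ∀ w ∈ Q ^ (m + 2), τ • w ∈ Q ^ (m + 2) := fun w hw => by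
            simpa using add_mem
              (Ideal.pow_le_pow_right (Nat.le_succ _) (smul_sub_mem_pow hτ hτQ (m + 2) w hw)) hw
          rw [show τ ^ (i + 1) = τ * τ ^ i from pow_succ' τ i, mul_smul,
            show τ • (τ ^ i • z) - z = τ • (τ ^ i • z - z) + (τ • z - z) by rw [smul_sub τ (τ ^ i • z) z]; ring]
          exact add_mem (hstab _ ihi) hz
      have hsum : ∑ i ∈ Finset.range n, (τ ^ i) • z = 0 := by
        have ht : ∀ i : ℕ, (τ ^ i) • z = (τ ^ (i + 1)) • x - (τ ^ i) • x := fun i => by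
          rw [smul_sub, ← mul_smul, ← pow_succ]
        rw [Finset.sum_congr rfl fun i _ => ht i,
          Finset.sum_range_sub (fun i => τ ^ i • x), h1, pow_zero, sub_self]
      refine mem_pow_of_natCast_mul_mem hQ hn ?_
      have : (n : R) * z = -∑ i ∈ Finset.range n, ((τ ^ i) • z - z) := by
        rw [Finset.sum_sub_distrib, hsum]; simp
      rw [this]
      exact neg_mem (sum_mem fun i _ => hpowz i)
  have hbot : τ • x - x ∈ ⨅ m : ℕ, Q ^ m := Submodule.mem_iInf _ |>.mpr fun m =>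
    Ideal.pow_le_pow_right (Nat.le_succ m) (key m x)
  rwa [Ideal.iInf_pow_eq_bot_of_isDomain Q hQ.ne_top, Submodule.mem_bot, sub_eq_zero] at hbot

/-- Under a homomorphism with `p`-group image, inertia of residue characteristic `≠ p` has cyclic
image. -/
theorem isCyclic_map_inertia [Finite G] [FaithfulSMul G R] (hQ : Q.IsMaximal) (hQ0 : Q ≠ ⊥)
    {H : Type*} [Group H] (f : G →* H) {p : ℕ} (hp : p.Prime) (hpQ : (p : R) ∉ Q)
    (hf : ∀ τ ∈ Q.inertia G, ∃ a : ℕ, f τ ^ p ^ a = 1) : IsCyclic ((Q.inertia G).map f) := by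
  classical
  have := hQ.isPrime
  obtain ⟨π, hπ, hπ2⟩ : ∃ π ∈ Q, π ∉ Q ^ 2 := by
    obtain ⟨π, hπ, hπ'⟩ := Ideal.exists_mem_pow_notMem_pow_succ Q hQ0 hQ.ne_top 1
    exact ⟨π, by simpa using hπ, hπ'⟩
  have hspan : Ideal.span {π} ⊔ Q ^ 2 = Q := by
    have h := Ideal.eq_prime_pow_of_succ_lt_of_le (P := Q) hQ0
      (I := Ideal.span {π} ⊔ Q ^ 2) (i := 1)
      (lt_of_le_of_ne le_sup_right fun h => hπ2
        (h ▸ Ideal.mem_sup_left (Ideal.mem_span_singleton_self π)))
      (by rw [pow_one]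
          exact sup_le ((Ideal.span_singleton_le_iff_mem Q).mpr hπ) (Ideal.pow_le_self two_ne_zero))
    rwa [pow_one] at h
  have hu : ∀ τ : Q.inertia G, ∃ u : R, (τ : G) • π - u * π ∈ Q ^ 2 := by
    intro τ
    have h := smul_mem_of_inertia (τ := (τ : G)) τ.2 hπ
    replace h : (τ : G) • π ∈ Ideal.span {π} ⊔ Q ^ 2 := hspan.symm ▸ h
    obtain ⟨a, ha, b, hb, hab⟩ := Submodule.mem_sup.mp h
    obtain ⟨u, rfl⟩ := Ideal.mem_span_singleton'.mp ha
    exact ⟨u, by rw [← hab, add_sub_cancel_left]; exact hb⟩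
  choose u hu using hu
  have huniq : ∀ a b : R, (a - b) * π ∈ Q ^ 2 → Ideal.Quotient.mk Q a = Ideal.Quotient.mk Q b := by
    intro a b h
    rw [Ideal.Quotient.eq]
    by_contra hab
    obtain ⟨c, q, hq, hsum⟩ := hQ.exists_inv hab
    refine hπ2 ?_
    have : π = c * ((a - b) * π) + q * π := by linear_combination (-π) * hsum
    rw [this]
    refine add_mem ((Q ^ 2).mul_mem_left c h) ?_
    rw [pow_two]; exact Ideal.mul_mem_mul hq hπ
  have hsq : ∀ σ : Q.inertia G, ∀ w ∈ Q ^ 2, (σ : G) • w ∈ Q ^ 2 := by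
    intro σ w hw
    rw [pow_two] at hw ⊢
    refine Submodule.mul_induction_on hw (fun a ha b hb => ?_) fun a b ha hb => ?_
    · rw [smul_mul']
      exact Ideal.mul_mem_mul (smul_mem_of_inertia σ.2 ha) (smul_mem_of_inertia σ.2 hb)
    · rw [smul_add]; exact add_mem ha hb
  let χ : Q.inertia G →* R ⧸ Q :=
    { toFun := fun τ => Ideal.Quotient.mk Q (u τ)
      map_one' := by
        rw [← map_one (Ideal.Quotient.mk Q)]
        refine huniq _ _ ?_
        rw [show (u 1 - 1) * π = -(((1 : Q.inertia G) : G) • π - u 1 * π) by simp; ring]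
        exact neg_mem (hu 1)
      map_mul' := fun σ τ => by
        rw [← map_mul]
        refine huniq _ _ ?_
        have h3 : ((σ : G) • u τ - u τ) * (σ : G) • π ∈ Q ^ 2 := by
          rw [pow_two]; exact Ideal.mul_mem_mul (σ.2 _) (smul_mem_of_inertia σ.2 hπ)
        have : (u (σ * τ) - u σ * u τ) * π =
            -(((σ * τ : Q.inertia G) : G) • π - u (σ * τ) * π) +
              ((σ : G) • ((τ : G) • π - u τ * π)) + ((σ : G) • u τ - u τ) * (σ : G) • π +
              u τ * ((σ : G) • π - u σ * π) := by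
          rw [Subgroup.coe_mul, mul_smul, smul_sub, smul_mul']
          ring
        rw [this]
        exact add_mem (add_mem (add_mem (neg_mem (hu _)) (hsq σ _ (hu τ))) h3)
          ((Q ^ 2).mul_mem_left _ (hu σ)) }
  have hker : χ.toHomUnits.ker ≤ ((f.subgroupMap (Q.inertia G))).ker := by
    intro τ hτ
    have hone : Ideal.Quotient.mk Q (u τ) = 1 := congrArg Units.val (MonoidHom.mem_ker.mp hτ)
    rw [← map_one (Ideal.Quotient.mk Q), Ideal.Quotient.eq] at hone
    have hπτ : (τ : G) • π - π ∈ Q ^ 2 := by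
      rw [show (τ : G) • π - π = ((τ : G) • π - u τ * π) + (u τ - 1) * π by ring]
      exact add_mem (hu τ) (by rw [pow_two]; exact Ideal.mul_mem_mul hone hπ)
    have hτQ : ∀ x ∈ Q, (τ : G) • x - x ∈ Q ^ 2 := by
      intro x hx
      rw [← hspan] at hx
      obtain ⟨a, ha, b, hb, rfl⟩ := Submodule.mem_sup.mp hx
      obtain ⟨c, rfl⟩ := Ideal.mem_span_singleton'.mp ha
      rw [smul_add, show (τ : G) • (c * π) + (τ : G) • b - (c * π + b) =
        ((τ : G) • (c * π) - c * π) + ((τ : G) • b - b) by ring, smul_sub_mul]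
      refine add_mem (add_mem ?_ ((Q ^ 2).mul_mem_left c hπτ)) (sub_mem (hsq τ b hb) hb)
      rw [pow_two]; exact Ideal.mul_mem_mul (τ.2 c) (smul_mem_of_inertia τ.2 hπ)
    obtain ⟨v, m, hm, hn⟩ :=
      Nat.exists_eq_pow_mul_and_not_dvd (orderOf_pos (τ : G)).ne' p hp.ne_one
    have hinv : ((p ^ v : ℕ) : R) ∉ Q := by
      rw [Nat.cast_pow]; exact fun h => hpQ (hQ.isPrime.mem_of_pow_mem v h)
    have hinert : ∀ x : R, ((τ : G) ^ m) • x - x ∈ Q :=
      ((Q.inertia G).pow_mem τ.2 m)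
    have hinertQ : ∀ x ∈ Q, ((τ : G) ^ m) • x - x ∈ Q ^ 2 := by
      intro x hx
      clear hm hn hinert
      induction m with
      | zero => simp
      | succ m ihm =>
        rw [show (τ : G) ^ (m + 1) = (τ : G) * (τ : G) ^ m from pow_succ' _ m, mul_smul,
          show (τ : G) • ((τ : G) ^ m • x) - x =
            (τ : G) • ((τ : G) ^ m • x - x) + ((τ : G) • x - x) by rw [smul_sub]; ring]
        exact add_mem (hsq τ _ ihm) (hτQ x hx)
    have hone' : (τ : G) ^ m = 1 := eq_of_smul_eq_smul (α := R) fun x => by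
      rw [one_smul]
      exact smul_eq_self_of_pow_eq_one hQ hinert hinertQ hinv
        (by rw [← pow_mul, mul_comm, ← hn]; exact pow_orderOf_eq_one _) x
    obtain ⟨a, ha⟩ := hf τ τ.2
    refine MonoidHom.mem_ker.mpr (Subtype.ext ?_)
    show f τ = 1
    have h1 : f τ ^ m = 1 := by rw [← map_pow, hone', map_one]
    have := pow_gcd_eq_one.mpr ⟨ha, h1⟩
    rwa [Nat.Coprime.pow_left a ((hp.coprime_iff_not_dvd).mpr hm) |>.gcd_eq_one, pow_one] at this
  have : Finite χ.toHomUnits.range := Finite.of_surjective _ χ.toHomUnits.rangeRestrict_surjective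
  have hcyc : IsCyclic χ.toHomUnits.range := isCyclic_subgroup_units _
  exact isCyclic_of_surjective
    (χ.toHomUnits.rangeRestrict.liftOfSurjective χ.toHomUnits.rangeRestrict_surjective
      ⟨f.subgroupMap (Q.inertia G), by rwa [MonoidHom.ker_rangeRestrict]⟩)
    fun y => by
      obtain ⟨τ, rfl⟩ := MonoidHom.subgroupMap_surjective f (Q.inertia G) y
      exact ⟨χ.toHomUnits.rangeRestrict τ, MonoidHom.liftOfRightInverse_comp_apply _ _ _ _ τ⟩

end Dedekind

open scoped NumberField in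
/-- If inertia at a place over `q` has `p`-group image under a finite-level homomorphism, `p ≠ q`,
the image is cyclic. -/
theorem isCyclic_map_inertiaSubgroupIn {H : Type*} [Group H]
    (f : (AlgebraicClosure ℚ ≃ₐ[ℚ] AlgebraicClosure ℚ) →* H)
    (hfin : ∃ L : IntermediateField ℚ (AlgebraicClosure ℚ), FiniteDimensional ℚ L ∧
      ∀ σ : AlgebraicClosure ℚ ≃ₐ[ℚ] AlgebraicClosure ℚ, (∀ x ∈ L, σ x = x) → f σ = 1)
    {p q : ℕ} (hp : p.Prime) (hq : q.Prime) (hpq : p ≠ q)
    {A : ValuationSubring (AlgebraicClosure ℚ)} (hA : A.LiesOverPrime q)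
    (hpow : ∀ τ ∈ A.inertiaSubgroupIn ℚ, ∃ a : ℕ, f τ ^ p ^ a = 1) :
    IsCyclic ((A.inertiaSubgroupIn ℚ).map f) := by
  classical
  obtain ⟨L, hL, hker⟩ := hfin
  let K : IntermediateField ℚ (AlgebraicClosure ℚ) :=
    IntermediateField.normalClosure ℚ L (AlgebraicClosure ℚ)
  have : Algebra.IsAlgebraic ℚ (AlgebraicClosure ℚ) := AlgebraicClosure.isAlgebraic ℚ
  have : IsAlgClosure ℚ (AlgebraicClosure ℚ) := ⟨inferInstance, inferInstance⟩
  have : Normal ℚ (AlgebraicClosure ℚ) := IsAlgClosure.normal ℚ _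
  have : Normal ℚ K := normalClosure.normal ℚ L _
  have : FiniteDimensional ℚ K := normalClosure.is_finiteDimensional ℚ L _
  let π := AlgEquiv.restrictNormalHom (F := ℚ) (K₁ := AlgebraicClosure ℚ) K
  have hle : π.ker ≤ f.ker := fun σ hσ => MonoidHom.mem_ker.mpr <| hker σ fun x hx => by
    have hxK : x ∈ K := IntermediateField.le_normalClosure L hx
    have h2 := AlgEquiv.restrictNormal_commutes σ K ⟨x, hxK⟩
    rw [show AlgEquiv.restrictNormal σ K = π σ from rfl, MonoidHom.mem_ker.mp hσ] at h2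
    exact h2.symm
  have hsurj : Function.Surjective π := AlgEquiv.restrictNormalHom_surjective _
  let fbar := π.liftOfSurjective hsurj ⟨f, hle⟩
  have hcomp : ∀ σ, fbar (π σ) = f σ :=
    fun σ => MonoidHom.liftOfRightInverse_comp_apply _ _ _ _ σ
  let I := (A.inertiaSubgroupIn ℚ).map π
  let Q := Density.center K A
  have hI : I ≤ Q.inertia (K ≃ₐ[ℚ] K) := by
    rintro _ ⟨σ, hσ, rfl⟩
    exact Density.restrictNormalHom_mem_inertia hσ
  have hQp : Q.IsPrime := Density.isPrime_center K A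
  have hQq : (q : 𝓞 K) ∈ Q := Density.natCast_mem_center hA
  have hQ0 : Q ≠ ⊥ := Density.ne_bot_of_natCast_mem hq hQq
  have hQmax : Q.IsMaximal := hQp.isMaximal hQ0
  have hpQ : (p : 𝓞 K) ∉ Q := fun h => by
    obtain ⟨a, b, hab⟩ := Nat.Coprime.isCoprime ((Nat.coprime_primes hp hq).mpr hpq)
    refine hQp.ne_top ((Ideal.eq_top_iff_one Q).mpr ?_)
    have := congrArg (Int.cast : ℤ → 𝓞 K) hab
    push_cast at this
    rw [← this]
    exact add_mem (Q.mul_mem_left _ h) (Q.mul_mem_left _ hQq)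
  have : FaithfulSMul I (𝓞 K) := ⟨fun {g h} hgh => by
    by_contra hne
    obtain ⟨a, ha⟩ := Density.exists_smul_ne (K := K) (σ := (h : K ≃ₐ[ℚ] K)⁻¹ * g)
      (fun e => hne (Subtype.ext (inv_mul_eq_one.mp e).symm))
    exact ha (by rw [mul_smul]; exact inv_smul_eq_iff.mpr (hgh a))⟩
  have hmap : (Q.inertia I).map (fbar.comp I.subtype) = (A.inertiaSubgroupIn ℚ).map f := by
    apply le_antisymm
    · rintro _ ⟨⟨_, σ, hσ, rfl⟩, -, rfl⟩
      exact ⟨σ, hσ, (hcomp σ).symm⟩
    · rintro _ ⟨σ, hσ, rfl⟩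
      exact ⟨⟨π σ, σ, hσ, rfl⟩, fun x => hI ⟨σ, hσ, rfl⟩ x, hcomp σ⟩
  rw [← hmap]
  refine isCyclic_map_inertia (R := 𝓞 K) (G := I) hQmax hQ0 _ hp hpQ ?_
  rintro ⟨_, σ, hσ, rfl⟩ -
  obtain ⟨a, ha⟩ := hpow σ hσ
  exact ⟨a, by rw [MonoidHom.comp_apply, Subgroup.coe_subtype, hcomp]; exact ha⟩

end Fermat.Agent.RT
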