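import Fermat.Agent.RT.FreyResidual
import Fermat.Agent.RT.TorsionFrobenius
import Fermat.Agent.Density.FrobeniusDensity
import Fermat.Agent.EC.Det.CyclotomicChar
import Mathlib.LinearAlgebra.Trace

/-!
# Primes avoiding Eisenstein congruences

An absolutely irreducible two-dimensional representation, unimodular on the elements fixing
`μ_m`, has Frobenius trace different from `2` at some prime `ℓ ≡ 1 (mod m)` outside any finite set.
-/

set_option autoImplicit false
set_option linter.style.haveILetI false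

noncomputable section

open Polynomial
open WeierstrassCurve.Affine.Point (GaloisRepIsIrreducible)

namespace Fermat.Agent.RT

local notation "ℚ̄" => AlgebraicClosure ℚ
local notation "Γℚ" => (AlgebraicClosure ℚ ≃ₐ[ℚ] AlgebraicClosure ℚ)

variable {k : Type} [Field k]

theorem sub_one_sq_eq_zero_of_trace_det (ρ : ResidualGaloisRep k) (f : Module.End k ρ.V)
    (ht : LinearMap.trace k ρ.V f = 2) (hd : LinearMap.det f = 1) : (f - 1) * (f - 1) = 0 := by
  let b := Module.finBasisOfFinrankEq k ρ.V ρ.finrank_eq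
  have h := LinearMap.aeval_self_charpoly f
  rw [← LinearMap.charpoly_toMatrix f b, Matrix.charpoly_fin_two,
    ← LinearMap.trace_eq_matrix_trace, LinearMap.det_toMatrix, ht, hd] at h
  simp only [map_sub, map_add, map_mul, map_pow, map_one, Polynomial.aeval_X,
    Polynomial.aeval_C] at h
  rw [map_ofNat] at h
  rw [← h]
  noncomm_ring

theorem unipotent_pow {V : Type*} [AddCommGroup V] [Module k V] {f : Module.End k V}
    (hf : (f - 1) * (f - 1) = 0) (n : ℕ) : (f ^ n - 1) * (f ^ n - 1) = 0 := by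
  have h : ∀ n : ℕ, f ^ n = 1 + n • (f - 1) := by
    intro n
    induction n with
    | zero => simp
    | succ n ih =>
      rw [pow_succ, ih, succ_nsmul, add_mul, one_mul, smul_mul_assoc,
        show (f - 1) * f = (f - 1) * (f - 1) + (f - 1) by noncomm_ring, hf, zero_add]
      abel
  rw [h, add_sub_cancel_left, smul_mul_smul_comm, hf, smul_zero]

theorem trace_eq_two_of_unipotent (ρ : ResidualGaloisRep k) {f : Module.End k ρ.V}
    (hf : (f - 1) * (f - 1) = 0) : LinearMap.trace k ρ.V f = 2 := by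
  have h0 : IsNilpotent (f - 1) := ⟨2, by rw [pow_two, hf]⟩
  have h1 := (LinearMap.isNilpotent_trace_of_isNilpotent h0).eq_zero
  rw [map_sub, LinearMap.trace_one, ρ.finrank_eq, sub_eq_zero] at h1
  exact_mod_cast h1

/-- Some element fixing `μ_m` has trace different from `2`. -/
theorem exists_cycloChar_eq_one_trace_ne_two (ρ : ResidualGaloisRep k)
    (habs : ρ.IsAbsolutelyIrreducible) (m : ℕ) [NeZero m]
    (hdet : ∀ g : Γℚ, EC.cycloChar m g = 1 → LinearMap.det (ρ.ρ g) = 1) :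
    ∃ g : Γℚ, EC.cycloChar m g = 1 ∧ LinearMap.trace k ρ.V (ρ.ρ g) ≠ 2 := by
  by_contra! hall
  have huni : ∀ g, EC.cycloChar m g = 1 → (ρ.ρ g - 1) * (ρ.ρ g - 1) = 0 := fun g hg =>
    sub_one_sq_eq_zero_of_trace_det ρ _ (hall g hg) (hdet g hg)
  by_cases htriv : ∀ g, EC.cycloChar m g = 1 → ρ.ρ g = 1
  · -- the image is abelian
    have hspan := (Density.isAbsolutelyIrreducible_iff_span ρ).1 habs
    have hcomm : ∀ a b : Γℚ, ρ.ρ a * ρ.ρ b = ρ.ρ b * ρ.ρ a := by
      intro a b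
      have h : ρ.ρ (a⁻¹ * b⁻¹ * a * b) = 1 := htriv _ (by
        simp [map_mul, mul_comm])
      have e : a * b = b * a * (a⁻¹ * b⁻¹ * a * b) := by group
      rw [← map_mul, e, map_mul, h, mul_one, map_mul]
    have hall' : ∀ X Y : Module.End k ρ.V, X * Y = Y * X := by
      intro X Y
      induction (hspan ▸ Submodule.mem_top : X ∈ Submodule.span k (Set.range ρ.ρ))
        using Submodule.span_induction with
      | mem Z hZ =>
        obtain ⟨a, rfl⟩ := hZ
        induction (hspan ▸ Submodule.mem_top : Y ∈ Submodule.span k (Set.range ρ.ρ))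
          using Submodule.span_induction with
        | mem W hW => obtain ⟨b, rfl⟩ := hW; exact hcomm a b
        | zero => simp
        | add _ _ _ _ h₁ h₂ => rw [mul_add, add_mul, h₁, h₂]
        | smul c _ _ h₁ => rw [mul_smul_comm, smul_mul_assoc, h₁]
      | zero => simp
      | add _ _ _ _ h₁ h₂ => rw [mul_add, add_mul, h₁, h₂]
      | smul c _ _ h₁ => rw [mul_smul_comm, smul_mul_assoc, h₁]
    let b := Module.finBasisOfFinrankEq k ρ.V ρ.finrank_eq
    have h := congrArg (fun f : Module.End k ρ.V => f (b 0))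
      (hall' (b.constr k ![b 0, 0]) (b.constr k ![b 1, 0]))
    simp [Module.End.mul_apply] at h
    exact b.ne_zero 1 h.symm
  · obtain ⟨g₀, hg₀, hne⟩ := not_forall₂.1 htriv
    set N₀ := ρ.ρ g₀ - 1 with hN₀
    have hN₀0 : N₀ ≠ 0 := sub_ne_zero.2 hne
    have hN₀sq : N₀ * N₀ = 0 := huni g₀ hg₀
    obtain ⟨x, hx⟩ : ∃ x, N₀ x ≠ 0 := by
      by_contra! h
      exact hN₀0 (LinearMap.ext fun y => by simp [h y])
    set e := N₀ x with he
    have hNe : N₀ e = 0 := LinearMap.congr_fun hN₀sq x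
    have hli : LinearIndependent k ![e, x] := LinearIndependent.pair_iff.2 fun s t hst => by
      have h1 := congrArg N₀ hst
      rw [map_add, map_smul, map_smul, hNe, smul_zero, zero_add, map_zero, smul_eq_zero] at h1
      have ht : t = 0 := h1.resolve_right hx
      subst ht
      rw [zero_smul, add_zero, smul_eq_zero] at hst
      exact ⟨hst.resolve_right hx, rfl⟩
    let b := basisOfLinearIndependentOfCardEqFinrank hli (by simp [ρ.finrank_eq])
    have hb0 : b 0 = e := by simp [b]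
    have hb1 : b 1 = x := by simp [b]
    have hker : ∀ y, N₀ y = 0 → y ∈ k ∙ e := by
      intro y hy
      have hy' := b.sum_repr y
      rw [Fin.sum_univ_two, hb0, hb1] at hy'
      rw [← hy', map_add, map_smul, map_smul, hNe, smul_zero, zero_add, smul_eq_zero] at hy
      rw [← hy', hy.resolve_right hx, zero_smul, add_zero]
      exact Submodule.smul_mem _ _ (Submodule.mem_span_singleton_self e)
    have hkill : ∀ h, EC.cycloChar m h = 1 → (ρ.ρ h - 1) e = 0 := by
      intro h hh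
      set N := ρ.ρ h - 1 with hN
      have hNsq : N * N = 0 := huni h hh
      have htr : LinearMap.trace k ρ.V (N₀ * N) = 0 := by
        have e1 := hall (g₀ * h) (by rw [map_mul, hg₀, hh, one_mul])
        rw [map_mul, show ρ.ρ g₀ * ρ.ρ h = N₀ * N + ((ρ.ρ g₀ - 1) + ρ.ρ h) by
          rw [hN₀, hN]; noncomm_ring, map_add, map_add, map_sub, hall g₀ hg₀, hall h hh,
          LinearMap.trace_one, ρ.finrank_eq] at e1
        push_cast at e1
        linear_combination e1
      rw [LinearMap.trace_eq_matrix_trace k b, Matrix.trace_fin_two] at htr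
      simp only [LinearMap.toMatrix_apply, Module.End.mul_apply] at htr
      have hdec : ∀ y, N₀ (N y) = b.repr (N y) 1 • e := by
        intro y
        conv_lhs => rw [← b.sum_repr (N y), Fin.sum_univ_two, hb0, hb1]
        rw [map_add, map_smul, map_smul, hNe, smul_zero, zero_add]
      rw [hdec, hdec, map_smul, map_smul, ← hb0, b.repr_self] at htr
      have hc : b.repr (N e) 1 = 0 := by
        rw [← hb0]
        simpa using htr
      obtain ⟨c₀, hc₀⟩ : ∃ c₀, N e = c₀ • e := ⟨b.repr (N e) 0, by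
        conv_lhs => rw [← b.sum_repr (N e), Fin.sum_univ_two, hb0, hb1, hc, zero_smul, add_zero]⟩
      have h2 := LinearMap.congr_fun hNsq e
      rw [Module.End.mul_apply, LinearMap.zero_apply, hc₀, map_smul, hc₀, smul_smul,
        smul_eq_zero, mul_self_eq_zero] at h2
      rw [hc₀, h2.resolve_right hx, zero_smul]
    suffices hstab : ∀ a : Γℚ, ∀ y ∈ k ∙ e, ρ.ρ a y ∈ k ∙ e by
      rcases Density.isIrreducible_of_absolutelyIrreducible ρ habs (k ∙ e) hstab with h | h
      · exact hx (Submodule.span_singleton_eq_bot.1 h)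
      · have h2 := congrArg (fun U : Submodule k ρ.V => Module.finrank k U) h
        simp only [finrank_span_singleton hx, finrank_top, ρ.finrank_eq] at h2
        omega
    intro a y hy
    obtain ⟨c, rfl⟩ := Submodule.mem_span_singleton.1 hy
    rw [map_smul]
    refine Submodule.smul_mem _ _ (hker _ ?_)
    have hconj := hkill (a⁻¹ * g₀ * a) (by simp [map_mul, hg₀])
    have e2 : ρ.ρ a * (ρ.ρ (a⁻¹ * g₀ * a) - 1) = N₀ * ρ.ρ a := by
      rw [mul_sub, mul_one, ← map_mul, show a * (a⁻¹ * g₀ * a) = g₀ * a by group, map_mul, hN₀,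
        sub_mul, one_mul]
    have h3 := LinearMap.congr_fun e2 e
    rw [Module.End.mul_apply, hconj, map_zero] at h3
    exact h3.symm

/-- A prime `ℓ ≡ 1 (mod m)` outside `S` whose Frobenius has trace different from `2`. -/
theorem exists_prime_trace_ne_two (ρ : ResidualGaloisRep k) (habs : ρ.IsAbsolutelyIrreducible)
    (m : ℕ) [NeZero m] (hdet : ∀ g : Γℚ, EC.cycloChar m g = 1 → LinearMap.det (ρ.ρ g) = 1)
    (S : Finset ℕ) :
    ∃ ℓ : ℕ, ℓ.Prime ∧ ℓ ∉ S ∧ (ℓ : ZMod m) = 1 ∧ ∃ (A : ValuationSubring ℚ̄) (σ : Γℚ),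
      A.LiesOverPrime ℓ ∧ A.IsFrobeniusAt σ ℓ ∧ LinearMap.trace k ρ.V (ρ.ρ σ) ≠ 2 := by
  classical
  obtain ⟨g, hg, hgt⟩ := exists_cycloChar_eq_one_trace_ne_two ρ habs m hdet
  obtain ⟨L₁, hL₁, h₁⟩ := ρ.factorsThroughFiniteLevel
  obtain ⟨L₂, hL₂, h₂⟩ := EC.cycloChar_factors m
  obtain ⟨ℓ, hℓ, hℓS, A, σ, hA, hσ, -, a, b, hga, hgb⟩ :=
    Density.exists_isFrobeniusAt_agree_pow (L₁ ⊔ L₂) g (S ∪ m.primeFactors)
  simp only [Finset.mem_union, Nat.mem_primeFactors, not_or] at hℓS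
  have agree : ∀ {M : Type} [Monoid M] (φ : Γℚ →* M) (L : IntermediateField ℚ ℚ̄), L ≤ L₁ ⊔ L₂ →
      (∀ τ : Γℚ, (∀ x ∈ L, τ x = x) → φ τ = 1) → φ σ = φ g ^ a ∧ φ g = φ σ ^ b := by
    intro M _ φ L hle hφ
    have key : ∀ s t : Γℚ, (∀ x ∈ L₁ ⊔ L₂, s x = t x) → φ s = φ t := by
      intro s t hst
      have hfix : φ (t⁻¹ * s) = 1 := hφ _ fun x hx => by
        rw [AlgEquiv.mul_apply, hst x (hle hx), ← AlgEquiv.mul_apply, inv_mul_cancel,
          AlgEquiv.one_apply]
      calc φ s = φ (t * (t⁻¹ * s)) := by rw [mul_inv_cancel_left]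
        _ = φ t := by rw [map_mul, hfix, mul_one]
    exact ⟨by rw [← map_pow]; exact key _ _ hga, by rw [← map_pow]; exact key _ _ hgb⟩
  obtain ⟨hχσ, -⟩ := agree (EC.cycloChar m) L₂ le_sup_right h₂
  rw [hg, one_pow] at hχσ
  have hℓm : ¬ ℓ ∣ m := fun hd => hℓS.2 ⟨hℓ, hd, NeZero.ne m⟩
  refine ⟨ℓ, hℓ, hℓS.1, ?_, A, σ, hA, hσ, fun ht => hgt ?_⟩
  · rw [← EC.cycloChar_eq_of_isFrobeniusAt hℓ hℓm hA hσ, hχσ, Units.val_one]
  · obtain ⟨-, hρg⟩ := agree ρ.ρ L₁ le_sup_left h₁
    rw [hρg]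
    exact trace_eq_two_of_unipotent ρ (unipotent_pow
      (sub_one_sq_eq_zero_of_trace_det ρ _ ht (hdet σ hχσ)) b)

/-- For a Frey package: a good prime `ℓ ≡ 1 (mod n)` outside `S` with `a_ℓ ≢ ℓ + 1 (mod p)`. -/
theorem frey_exists_nonEisenstein_prime (P : FreyPackage) [Fact P.p.Prime]
    (hirr : GaloisRepIsIrreducible (K := ℚ̄) ℚ P.freyCurve P.p) {n : ℕ} (hn : n ≠ 0)
    (S : Finset ℕ) :
    ∃ ℓ : ℕ, ℓ.Prime ∧ ℓ ∉ S ∧ ℓ ≠ P.p ∧ P.freyCurveInt.IsGoodPrimeFor ℓ ∧ (ℓ : ZMod n) = 1 ∧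
      (ℓ : ZMod P.p) = 1 ∧ ((P.freyCurveInt.apOfModel ℓ : ℤ) : ZMod P.p) ≠ (ℓ : ZMod P.p) + 1 := by
  classical
  haveI : NeZero P.p := ⟨P.pp.ne_zero⟩
  haveI : NeZero (n * P.p) := ⟨mul_ne_zero hn P.pp.ne_zero⟩
  have hmod : ∀ g : Γℚ, EC.cycloChar (n * P.p) g = 1 → EC.cycloChar P.p g = 1 := by
    intro g hg
    obtain ⟨ζ, hζ⟩ := EC.exists_primitiveRoot_qbar P.p
    have hfix : g ζ = ζ ^ 1 := by
      have h := EC.apply_eq_pow_cycloChar (n * P.p) g (x := ζ)
        (by rw [mul_comm, pow_mul, hζ.pow_eq_one, one_pow])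
      rw [hg, Units.val_one] at h
      rw [h]
      rcases eq_or_ne (n * P.p) 1 with h1 | h1
      · exact absurd (Nat.eq_one_of_mul_eq_one_left h1) P.pp.ne_one
      · haveI : Fact (1 < n * P.p) :=
          ⟨Nat.one_lt_iff_ne_zero_and_ne_one.2 ⟨mul_ne_zero hn P.pp.ne_zero, h1⟩⟩
        rw [ZMod.val_one]
    exact Units.ext (by rw [EC.cycloChar_eq_of_apply_eq_pow P.p g hζ hfix, Nat.cast_one,
      Units.val_one])
  obtain ⟨ℓ, hℓ, hℓS, hℓ1, A, σ, hA, hσ, ht⟩ :=
    exists_prime_trace_ne_two (freyRep P) (freyRep_isAbsolutelyIrreducible P hirr) (n * P.p)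
      (fun g hg => by rw [freyRep_det, hmod g hg, Units.val_one])
      (S ∪ {P.p} ∪ P.freyCurveInt.Δ.natAbs.primeFactors)
  simp only [Finset.mem_union, Finset.mem_singleton, Nat.mem_primeFactors, not_or] at hℓS
  obtain ⟨⟨hS, hℓp⟩, hΔ⟩ := hℓS
  have hgood : P.freyCurveInt.IsGoodPrimeFor ℓ := fun hd =>
    hΔ ⟨hℓ, Int.natCast_dvd.1 hd, Int.natAbs_ne_zero.2 (Endgame.freyCurveInt_Δ_ne_zero P)⟩
  have h1n : (ℓ : ZMod n) = 1 := by
    have := congrArg (ZMod.castHom (dvd_mul_right n P.p) (ZMod n)) hℓ1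
    simpa using this
  have h1p : (ℓ : ZMod P.p) = 1 := by
    have := congrArg (ZMod.castHom (dvd_mul_left P.p n) (ZMod P.p)) hℓ1
    simpa using this
  refine ⟨ℓ, hℓ, hS, hℓp, hgood, h1n, h1p, fun ha => ht ?_⟩
  have hch := torsionFrobeniusCharpoly P.freyCurveInt P.p ℓ hℓ hℓp hgood A hA σ hσ
  let b := Module.finBasisOfFinrankEq (ZMod P.p) (freyRep P).V (freyRep P).finrank_eq
  rw [← LinearMap.charpoly_toMatrix _ b, Matrix.charpoly_fin_two,
    ← LinearMap.trace_eq_matrix_trace] at hch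
  have hc := congrArg (fun q => Polynomial.coeff q 1) hch
  simp [Polynomial.coeff_X, Polynomial.coeff_C, Polynomial.coeff_X_pow] at hc
  rw [hc, ha, h1p]
  norm_num

end Fermat.Agent.RT
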