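import Fermat.Agent.FiniteFlat.Closure
import Fermat.Agent.EC.Flat.Tate
import Fermat.Agent.FiniteFlat.Galois
import Fermat.Agent.RT.FreyResidual
import Mathlib.LinearAlgebra.TensorProduct.Basis

/-!
# Flatness at `p` of the residual Frey representation over a finite extension of `𝔽_p`

If `E[N]` has a finite flat model over `ℤ_(p)` for all `N`, then `k ⊗ E[p]` is flat at `p` for
every finite field `k` of characteristic `p`: as a Galois module it is a finite power of `E[p]`.
-/

set_option autoImplicit false
set_option linter.style.haveILetI false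

noncomputable section

open scoped WeierstrassCurve.Affine TensorProduct

namespace Fermat.Agent.RT

local notation "Qbar" => AlgebraicClosure ℚ

/-- All torsion groups of `W` have finite flat models at `p`. -/
def HasFlatTorsion (W : WeierstrassCurve ℚ) (p : ℕ) : Prop :=
  ∀ N : ℕ, N ≠ 0 → EC.HasFlatModel p (Submodule.torsionBy ℤ (W⁄Qbar).Point N)

/-- A finite power of a module with a flat model has a flat model. -/
theorem hasFlatModel_pi {p : ℕ} [Fact p.Prime] {T : Type} [AddCommGroup T] [Finite T]
    [DistribMulAction (Qbar ≃ₐ[ℚ] Qbar) T] (h : EC.HasFlatModel p T) (d : ℕ) :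
    EC.HasFlatModel p (Fin d → T) := by
  obtain ⟨H, iC, iH, hfin, -, -, e, hadd, hgal⟩ := h
  obtain ⟨H', hfin', hequiv, hsep, hadd', hneg⟩ :=
    (FiniteFlat.hasFunctionModel_of_hopfAlgebra (R := GaloisRep.ratLocalizedAt p) (k := ℚ)
      (L := Qbar) H e hadd hgal).pi d
  exact FiniteFlat.exists_hopfAlgebra_of_functions H' hequiv hsep hadd' hneg

variable (W : WeierstrassCurve ℚ) [W.IsElliptic] (p : ℕ) [hp : Fact p.Prime]

theorem baseChangeAlong_isFlatAt {k : Type} [Field k] [Finite k] (f : ZMod p →+* k)
    (h : HasFlatTorsion W p) :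
    (GaloisRepAdic.ofResidualGaloisRep
      ((EC.torsionRepRat W p).baseChangeAlong f)).IsFlatAt p := by
  refine ⟨Finite.of_surjective _ Ideal.Quotient.mk_surjective, fun I _ => ?_⟩
  letI : Algebra (ZMod p) k := f.toAlgebra
  have : Finite (Submodule.torsionBy ℤ (W⁄Qbar).Point (p : ℕ)) :=
    Nat.finite_of_card_ne_zero
      (by rw [EC.natCard_torsion_rat W hp.out.ne_zero]; exact pow_ne_zero _ hp.out.ne_zero)
  rcases Ideal.eq_bot_or_top I with rfl | rfl
  · let b := Module.finBasis (ZMod p) k
    let V := (EC.torsionRepRat W p).V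
    let φ : k ⊗[ZMod p] V ≃ₗ[ZMod p] (Fin (Module.finrank (ZMod p) k) → V) :=
      TensorProduct.equivFinsuppOfBasisLeft b ≪≫ₗ Finsupp.linearEquivFunOnFinite _ _ _
    have hφ : ∀ (c : k) (t : V) i, φ (c ⊗ₜ t) i = b.repr c i • t := fun c t i =>
      TensorProduct.equivFinsuppOfBasisLeft_apply_tmul_apply b c t i
    let π : k ⊗[ZMod p] V →+
        (Fin (Module.finrank (ZMod p) k) → Submodule.torsionBy ℤ (W⁄Qbar).Point (p : ℕ)) :=
      φ.toLinearMap.toAddMonoidHom
    refine EC.flat_level_of_surjective _ _ π φ.surjective ?_ ?_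
      (hasFlatModel_pi (h p hp.out.ne_zero) _)
    · intro v
      rw [Submodule.bot_smul, Submodule.mem_bot]
      exact φ.map_eq_zero_iff
    · intro σ v
      show π (((EC.torsionRepRat W p).ρ σ).baseChange k v) = σ • π v
      induction v using TensorProduct.induction_on with
      | zero => simp
      | tmul c t =>
        funext i
        rw [Pi.smul_apply]
        show φ (((EC.torsionRepRat W p).ρ σ).baseChange k (c ⊗ₜ t)) i =
          (EC.torsionRepRat W p).ρ σ (φ (c ⊗ₜ t) i)
        rw [LinearMap.baseChange_tmul, hφ, hφ, map_smul]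
      | add x y hx hy => simp [map_add, hx, hy]
  · have : Subsingleton (Submodule.torsionBy ℤ (W⁄Qbar).Point (1 : ℕ)) :=
      ⟨fun a b => Subtype.ext <| by
        have ha := (Submodule.mem_torsionBy_iff _ _).1 a.2
        have hb := (Submodule.mem_torsionBy_iff _ _).1 b.2
        simp only [Nat.cast_one, one_smul] at ha hb
        rw [ha, hb]⟩
    exact EC.flat_level_of_surjective _ _
      (0 : _ →+ Submodule.torsionBy ℤ (W⁄Qbar).Point (1 : ℕ))
      (fun t => ⟨0, Subsingleton.elim _ _⟩)
      (fun v => ⟨fun _ => by rw [Submodule.top_smul]; exact Submodule.mem_top, fun _ => rfl⟩)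
      (fun σ v => Subsingleton.elim _ _) (h 1 one_ne_zero)

/-- The residual Frey representation over a finite field of characteristic `p` is flat at `p` as
soon as the torsion of the Frey curve has flat models (good reduction: `p ∤ abc`). -/
theorem freyRep_baseChange_isFlatAt (P : FreyPackage) [Fact P.p.Prime] {k : Type} [Field k]
    [Finite k] (f : ZMod P.p →+* k)
    (h : HasFlatTorsion (P.freyCurveInt.map (Int.castRingHom ℚ)) P.p) :
    (GaloisRepAdic.ofResidualGaloisRep ((freyRep P).baseChangeAlong f)).IsFlatAt P.p :=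
  baseChangeAlong_isFlatAt _ _ f h

end Fermat.Agent.RT
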