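import Fermat.Prelude.Def_GaloisRep_StrictOrdinary
import Fermat.Agent.RT.FreyResidual
import Fermat.Agent.EC.Mult.Decomposition
import Fermat.Agent.EC.Det.CyclotomicChar

/-!
# The residual Frey representation at `p`, multiplicative case

When `p ∣ abc` the mod `p` representation, over any field of characteristic `p`, is strictly
ordinary at `p`.
-/

set_option autoImplicit false
set_option linter.style.haveILetI false

noncomputable section

open scoped WeierstrassCurve.Affine TensorProduct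

namespace Fermat.Agent.RT

local notation "ℚ̄" => AlgebraicClosure ℚ
local notation "Γℚ" => (AlgebraicClosure ℚ ≃ₐ[ℚ] AlgebraicClosure ℚ)

theorem exists_basis_of_natCard_eq {p : ℕ} [hp : Fact p.Prime] {V : Type*} [AddCommGroup V]
    [Module (ZMod p) V] (hV : Module.finrank (ZMod p) V = 2) (N : Submodule (ZMod p) V)
    (hN : Nat.card N = p) :
    ∃ b : Module.Basis (Fin 2) (ZMod p) V, N = ZMod p ∙ b 0 := by
  have : Module.Finite (ZMod p) V := Module.finite_of_finrank_eq_succ hV
  have hN1 : Module.finrank (ZMod p) N = 1 := by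
    have h := Module.natCard_eq_pow_finrank (K := ZMod p) (V := N)
    rw [hN, Nat.card_zmod] at h
    exact (Nat.pow_eq_self_iff hp.out.one_lt).1 h.symm
  obtain ⟨n₀, hn₀, hn₀0⟩ := Submodule.exists_mem_ne_zero_of_ne_bot
    (show N ≠ ⊥ from fun h => by rw [h, finrank_bot] at hN1; exact zero_ne_one hN1)
  have hspan : ZMod p ∙ n₀ = N := Submodule.eq_of_le_of_finrank_le
    ((Submodule.span_singleton_le_iff_mem _ _).2 hn₀) (by rw [finrank_span_singleton hn₀0, hN1])
  obtain ⟨x, hx⟩ : ∃ x, x ∉ N := by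
    by_contra! h
    have : N = ⊤ := Submodule.eq_top_iff'.2 h
    rw [this, finrank_top, hV] at hN1
    exact absurd hN1 (by norm_num)
  have hli : LinearIndependent (ZMod p) ![n₀, x] := LinearIndependent.pair_iff.2 fun s t hst => by
    have ht : t = 0 := by
      by_contra ht
      apply hx
      have e : x = -(t⁻¹ * s) • n₀ := by
        have := congrArg (fun y => t⁻¹ • y) hst
        simp only [smul_add, smul_smul, inv_mul_cancel₀ ht, one_smul, smul_zero] at this
        rw [neg_smul]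
        exact eq_neg_of_add_eq_zero_right this
      rw [e]
      exact N.smul_mem _ hn₀
    subst ht
    rw [zero_smul, add_zero, smul_eq_zero] at hst
    exact ⟨hst.resolve_right hn₀0, rfl⟩
  exact ⟨basisOfLinearIndependentOfCardEqFinrank hli (by simp [hV]), by simp [hspan]⟩

variable (P : FreyPackage) [Fact P.p.Prime]

/-- Strict ordinarity at `p` of the residual Frey representation when `p ∣ abc`. -/
theorem freyRep_baseChange_isStrictOrdinaryAt (hp : (P.p : ℤ) ∣ P.a * P.b * P.c)
    {k : Type} [Field k] (f : ZMod P.p →+* k) :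
    (GaloisRepAdic.ofResidualGaloisRep ((freyRep P).baseChangeAlong f)).IsStrictOrdinaryAt
      P.p := by
  haveI : NeZero P.p := ⟨P.pp.ne_zero⟩
  have hp0 : (P.p : k) = 0 := by rw [← map_natCast f, ZMod.natCast_self, map_zero]
  have hΔp : (P.p : ℤ) ∣ P.freyCurveInt.Δ := (Endgame.prime_dvd_Δ_iff P P.pp).2 hp
  refine ⟨by rw [hp0]; exact Submodule.zero_mem _, fun A hA => ?_⟩
  obtain ⟨N, hN, hD, hI, hZ⟩ := EC.Mult.exists_decomposition_line (W := P.freyCurveInt)
    (p := P.p) (A := A) P.pp hA (Endgame.freyCurveInt_Δ_ne_zero P) hΔp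
    (Endgame.isSemistableModel P P.p P.pp hΔp) P.pp
  obtain ⟨b, hb⟩ := exists_basis_of_natCard_eq (p := P.p) (V := (freyRep P).V)
    (freyRep P).finrank_eq N hN
  letI : Algebra (ZMod P.p) k := f.toAlgebra
  let R : Γℚ → Module.End k (k ⊗[ZMod P.p] (freyRep P).V) := fun σ =>
    ((freyRep P).ρ σ).baseChange k
  have hRapp : ∀ σ (c : k) (v : (freyRep P).V),
      R σ (c ⊗ₜ[ZMod P.p] v) = c ⊗ₜ[ZMod P.p] (freyRep P).ρ σ v := fun σ c v =>
    LinearMap.baseChange_tmul ..
  let B := Algebra.TensorProduct.basis k b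
  have hB : ∀ i, B i = (1 : k) ⊗ₜ[ZMod P.p] b i := fun i => Algebra.TensorProduct.basis_apply b i
  have hmem : ∀ (c : k) (v : (freyRep P).V), v ∈ N → c ⊗ₜ[ZMod P.p] v ∈ k ∙ B 0 := by
    intro c v hv
    rw [hb] at hv
    obtain ⟨d, rfl⟩ := Submodule.mem_span_singleton.1 hv
    refine Submodule.mem_span_singleton.2 ⟨c * algebraMap (ZMod P.p) k d, ?_⟩
    rw [hB, TensorProduct.smul_tmul', smul_eq_mul, mul_one, TensorProduct.tmul_smul,
      TensorProduct.smul_tmul', Algebra.smul_def, mul_comm]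
  have hsub : ∀ (σ : Γℚ) (z : ZMod P.p), (∀ v, (freyRep P).ρ σ v - z • v ∈ N) →
      ∀ v, R σ v - algebraMap (ZMod P.p) k z • v ∈ k ∙ B 0 := by
    intro σ z hz v
    induction v using TensorProduct.induction_on with
    | zero => rw [LinearMap.map_zero, smul_zero, sub_zero]; exact Submodule.zero_mem _
    | tmul c v =>
      have e : c ⊗ₜ[ZMod P.p] (freyRep P).ρ σ v - algebraMap (ZMod P.p) k z • (c ⊗ₜ[ZMod P.p] v)
          = c ⊗ₜ[ZMod P.p] ((freyRep P).ρ σ v - z • v) := by
        rw [algebraMap_smul, TensorProduct.tmul_sub, TensorProduct.tmul_smul]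
      rw [hRapp]
      exact e ▸ hmem c _ (hz v)
    | add x y hx hy => rw [map_add, smul_add, add_sub_add_comm]; exact add_mem hx hy
  have hb0N : b 0 ∈ N := hb ▸ Submodule.mem_span_singleton_self _
  have hstab : ∀ σ ∈ A.decompositionSubgroup ℚ, ∀ v ∈ k ∙ B 0, R σ v ∈ k ∙ B 0 := by
    intro σ hσ v hv
    obtain ⟨c, rfl⟩ := Submodule.mem_span_singleton.1 hv
    rw [map_smul]
    refine Submodule.smul_mem _ _ ?_
    have h1 : R σ (B 0) = (1 : k) ⊗ₜ[ZMod P.p] (freyRep P).ρ σ (b 0) := by rw [hB 0, hRapp]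
    exact h1 ▸ hmem 1 _ (hD σ hσ _ hb0N)
  refine ⟨k ∙ B 0, ⟨B, rfl⟩, hstab, fun σ hσ v => ?_, fun σ hσ => ?_⟩
  · have h := hsub σ 1 (fun w => by rw [one_smul]; exact hI σ hσ w) v
    rwa [map_one, one_smul] at h
  · obtain ⟨z, hz1, hz⟩ := hZ σ hσ
    have hz' : ∀ v, (freyRep P).ρ σ v - (z : ZMod P.p) • v ∈ N := fun v => by
      rw [Int.cast_smul_eq_zsmul]; exact hz v
    obtain ⟨x, hx⟩ : ∃ x : ZMod P.p, (freyRep P).ρ σ (b 0) = x • b 0 := by
      have h : (freyRep P).ρ σ (b 0) ∈ N := hD σ hσ _ hb0N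
      rw [hb] at h
      obtain ⟨x, hx⟩ := Submodule.mem_span_singleton.1 h
      exact ⟨x, hx.symm⟩
    have hdet : LinearMap.det ((freyRep P).ρ σ) = x * (z : ZMod P.p) := by
      have h1 := hz' (b 1)
      rw [hb] at h1
      obtain ⟨d, hd⟩ := Submodule.mem_span_singleton.1 h1
      have e : (freyRep P).ρ σ (b 1) = d • b 0 + (z : ZMod P.p) • b 1 := by
        rw [hd, sub_add_cancel]
      rw [← LinearMap.det_toMatrix b, Matrix.det_fin_two]
      simp [LinearMap.toMatrix_apply, hx, e]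
    refine ⟨algebraMap (ZMod P.p) k x, algebraMap (ZMod P.p) k (z : ZMod P.p), fun w hw => ?_,
      fun v => hsub σ _ hz' v, fun n a ha => ?_⟩
    · obtain ⟨c, rfl⟩ := Submodule.mem_span_singleton.1 hw
      show R σ (c • B 0) = _ • c • B 0
      rw [map_smul, hB, hRapp, hx, TensorProduct.tmul_smul, ← algebraMap_smul k x, smul_comm]
      rfl
    · rcases Nat.eq_zero_or_pos n with rfl | hn
      · simp
      obtain ⟨ζ, hζ⟩ := EC.exists_primitiveRoot_qbar P.p
      have hc := EC.cycloChar_eq_of_apply_eq_pow P.p σ hζ (ha ζ (by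
        obtain ⟨m, hm⟩ := dvd_pow_self P.p hn.ne'
        rw [hm, pow_mul, hζ.pow_eq_one, one_pow]))
      have hx' : x = (a : ZMod P.p) * (z : ZMod P.p) := by
        have h := hdet.symm.trans ((freyRep_det P σ).trans hc)
        have hzz : ((z : ZMod P.p)) * z = 1 := by exact_mod_cast congrArg (Int.cast : ℤ → ZMod P.p) hz1
        linear_combination (z : ZMod P.p) * h - x * hzz
      rw [hx', map_mul, map_natCast, sub_self]
      exact Submodule.zero_mem _

end Fermat.Agent.RT
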