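import Fermat.Prelude.Def_CuspForm_HeckeLocal
import Fermat.Agent.Periods.Integral
import Fermat.Agent.FiniteFlat.HeckePoints
import Fermat.Agent.EichlerShimura.TraceCongruence
import Fermat.Agent.Density.FrobeniusDensity
import Fermat.Agent.Density.Transfer
import Fermat.Agent.Density.AbsIrr
import Fermat.Agent.RT.CarayolDescentGalois
import Fermat.Agent.EC.Det.AbsIrreducible

/-!
# Hecke–Galois data exist

* `GaloisRepOfPoints p N S`: the statement of S30 at one prime, level and finite set of primes.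
* `exists_datum`: for an absolutely irreducible residual representation attached to a residual
  Hecke eigen-system `θ` there is a `HeckeGaloisRepDatum` on the localised Hecke algebra.
-/

set_option autoImplicit false

noncomputable section

open IsLocalRing Polynomial
open scoped TensorProduct

namespace Fermat.Agent.RT

local notation "ℚ̄" => AlgebraicClosure ℚ
local notation "Γℚ" => (AlgebraicClosure ℚ ≃ₐ[ℚ] AlgebraicClosure ℚ)

/-- Statement S30 at a fixed prime, level and finite set of primes. -/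
def GaloisRepOfPoints (p N : ℕ) [NeZero N] (S : Finset ℕ) : Prop :=
  ∀ (𝒪' : Type) [CommRing 𝒪'] [IsDomain 𝒪'] [IsDiscreteValuationRing 𝒪']
    [IsAdicComplete (maximalIdeal 𝒪') 𝒪'] [Finite (ResidueField 𝒪')]
    [CharZero 𝒪'] (_hp : (p : 𝒪') ∈ maximalIdeal 𝒪')
    (χ : CuspForm.heckeAlgebra N 2 (↑S : Set ℕ) →+* 𝒪'),
    ∃ (𝒪'' : Type) (_ : CommRing 𝒪'') (_ : IsDomain 𝒪'') (_ : IsDiscreteValuationRing 𝒪'')
      (_ : IsAdicComplete (maximalIdeal 𝒪'') 𝒪'')
      (_ : Finite (ResidueField 𝒪'')) (_ : CharZero 𝒪'')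
      (_ : Algebra 𝒪' 𝒪'') (_ : Module.Finite 𝒪' 𝒪'') (_ : IsLocalHom (algebraMap 𝒪' 𝒪'')),
    Function.Injective (algebraMap 𝒪' 𝒪'') ∧
    ∃ ρ : GaloisRepAdic 𝒪'',
      (∀ (ℓ : ℕ) (hℓ : ℓ.Prime) (hℓN : ¬ ℓ ∣ N) (hℓS : ℓ ∉ (↑S : Set ℕ)),
        ∀ A : ValuationSubring ℚ̄, A.LiesOverPrime ℓ →
          ∀ σ : Γℚ, A.IsFrobeniusAt σ ℓ →
            LinearMap.charpoly (ρ.ρ σ) =
              X ^ 2 - C (algebraMap 𝒪' 𝒪'' (χ (CuspForm.heckeAlgebra.T hℓ hℓN hℓS))) * X
                + C ((ℓ : 𝒪''))) ∧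
      (∀ q : ℕ, q.Prime → ¬ q ∣ N → q ≠ p → ρ.IsUnramifiedAt q)

instance fact_hasIntegralStructure_two (N : ℕ) [NeZero N] :
    Fact (CuspForm.HasIntegralStructure N 2) :=
  ⟨Periods.hasIntegralStructure_two N⟩

section HeckeLocal

variable (N : ℕ) [NeZero N] (S : Set ℕ) (𝒪 : Type) [CommRing 𝒪] [IsDomain 𝒪]
  [IsDiscreteValuationRing 𝒪] [IsAdicComplete (maximalIdeal 𝒪) 𝒪]
  (θ : CuspForm.heckeAlgebra N 2 S →+* ResidueField 𝒪)

/-- The structural map from `𝒪 ⊗ 𝕋` to the localised Hecke algebra. -/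
def toHeckeLocal : (𝒪 ⊗[ℤ] CuspForm.heckeAlgebra N 2 S) →+* CuspForm.heckeLocal N S 𝒪 θ :=
  (algebraMap (CuspForm.heckeBaseAlgebra N S 𝒪) (CuspForm.heckeLocal N S 𝒪 θ)).comp
    (CuspForm.latticeBaseChange N S 𝒪)

omit [IsAdicComplete (maximalIdeal 𝒪) 𝒪] in
theorem toHeckeLocal_one_tmul (t : CuspForm.heckeAlgebra N 2 S) :
    toHeckeLocal N S 𝒪 θ ((1 : 𝒪) ⊗ₜ[ℤ] t) = CuspForm.heckeLocal.π N S 𝒪 θ t :=
  rfl

omit [IsAdicComplete (maximalIdeal 𝒪) 𝒪] in
theorem toHeckeLocal_algebraMap (a : 𝒪) :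
    toHeckeLocal N S 𝒪 θ (algebraMap 𝒪 _ a) = algebraMap 𝒪 (CuspForm.heckeLocal N S 𝒪 θ) a := by
  rw [toHeckeLocal, RingHom.comp_apply, CuspForm.latticeBaseChange_algebraMap,
    ← IsScalarTower.algebraMap_apply]

theorem toHeckeLocal_surjective : Function.Surjective (toHeckeLocal N S 𝒪 θ) := by
  classical
  have : Module.Finite 𝒪 (CuspForm.heckeBaseAlgebra N S 𝒪) :=
    inferInstanceAs (Module.Finite 𝒪 (𝒪 ⊗[ℤ] ↥(CuspForm.heckeLatticeAlgebra N S)))
  rw [toHeckeLocal, RingHom.coe_comp]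
  refine Function.Surjective.comp ?_ (CuspForm.latticeBaseChange_surjective N S 𝒪)
  have hmax := CuspForm.heckeLocalIdeal.instIsMaximal N S 𝒪 θ
  obtain ⟨-, hbij, -, -⟩ :=
    Algebra.finite_maximalSpectrum_and_bijective_localization_of_module_finite (𝒪 := 𝒪)
      (CuspForm.heckeBaseAlgebra N S 𝒪)
  let P : MaximalSpectrum (CuspForm.heckeBaseAlgebra N S 𝒪) :=
    ⟨CuspForm.heckeLocalIdeal N S 𝒪 θ, hmax⟩
  let e := IsLocalization.algEquiv P.asIdeal.primeCompl
    (Localization.AtPrime P.asIdeal) (CuspForm.heckeLocal N S 𝒪 θ)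
  intro z
  obtain ⟨b, hb⟩ := hbij.2 (Function.update 0 P (e.symm z))
  refine ⟨b, e.symm.injective ?_⟩
  rw [AlgEquiv.commutes]
  simpa using congrFun hb P

omit [IsAdicComplete (maximalIdeal 𝒪) 𝒪] in
theorem toHeckeLocal_mem_maximalIdeal_iff (x : 𝒪 ⊗[ℤ] CuspForm.heckeAlgebra N 2 S) :
    toHeckeLocal N S 𝒪 θ x ∈ maximalIdeal (CuspForm.heckeLocal N S 𝒪 θ) ↔
      CuspForm.residualCharacter N S 𝒪 θ x = 0 := by
  rw [toHeckeLocal, RingHom.comp_apply,
    IsLocalization.AtPrime.to_map_mem_maximal_iff (CuspForm.heckeLocal N S 𝒪 θ)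
      (CuspForm.heckeLocalIdeal N S 𝒪 θ), ← Ideal.mem_comap,
    CuspForm.comap_heckeLocalIdeal N S 𝒪 θ
      (CuspForm.ker_latticeBaseChange_le_heckeCharKernel N S 𝒪 θ),
    CuspForm.mem_heckeCharKernel_iff]

theorem residue_toHeckeLocal (x : 𝒪 ⊗[ℤ] CuspForm.heckeAlgebra N 2 S) :
    residue (CuspForm.heckeLocal N S 𝒪 θ) (toHeckeLocal N S 𝒪 θ x) =
      ResidueField.map (algebraMap 𝒪 (CuspForm.heckeLocal N S 𝒪 θ))
        (CuspForm.residualCharacter N S 𝒪 θ x) := by
  obtain ⟨a, ha⟩ := residue_surjective (CuspForm.residualCharacter N S 𝒪 θ x)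
  rw [← ha, ResidueField.map_residue, ← toHeckeLocal_algebraMap, ← sub_eq_zero, ← map_sub,
    ← map_sub, residue_eq_zero_iff, toHeckeLocal_mem_maximalIdeal_iff, map_sub,
    CuspForm.residualCharacter_algebraMap, ha, sub_self]

theorem residue_heckeLocal_π (t : CuspForm.heckeAlgebra N 2 S) :
    residue (CuspForm.heckeLocal N S 𝒪 θ) (CuspForm.heckeLocal.π N S 𝒪 θ t) =
      ResidueField.map (algebraMap 𝒪 (CuspForm.heckeLocal N S 𝒪 θ)) (θ t) := by
  rw [← toHeckeLocal_one_tmul, residue_toHeckeLocal, CuspForm.residualCharacter_tmul, map_one,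
    one_mul]

theorem residue_algebraMap_heckeLocal_surjective :
    Function.Surjective (residue (CuspForm.heckeLocal N S 𝒪 θ) ∘
      algebraMap 𝒪 (CuspForm.heckeLocal N S 𝒪 θ)) := by
  intro y
  obtain ⟨y, rfl⟩ := residue_surjective y
  obtain ⟨x, rfl⟩ := toHeckeLocal_surjective N S 𝒪 θ y
  obtain ⟨a, ha⟩ := residue_surjective (CuspForm.residualCharacter N S 𝒪 θ x)
  exact ⟨a, by rw [Function.comp_apply, residue_toHeckeLocal, ← ha, ResidueField.map_residue]⟩

theorem adjoin_range_heckeLocal_π :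
    Algebra.adjoin 𝒪 (Set.range (CuspForm.heckeLocal.π N S 𝒪 θ)) = ⊤ := by
  rw [eq_top_iff]
  rintro y -
  obtain ⟨x, rfl⟩ := toHeckeLocal_surjective N S 𝒪 θ y
  induction x using TensorProduct.induction_on with
  | zero => rw [map_zero]; exact zero_mem _
  | tmul a t =>
    have h : a ⊗ₜ[ℤ] t =
        algebraMap 𝒪 (𝒪 ⊗[ℤ] CuspForm.heckeAlgebra N 2 S) a * ((1 : 𝒪) ⊗ₜ[ℤ] t) := by
      rw [Algebra.TensorProduct.algebraMap_apply, Algebra.algebraMap_self, RingHom.id_apply,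
        Algebra.TensorProduct.tmul_mul_tmul, mul_one, one_mul]
    rw [h, map_mul, toHeckeLocal_algebraMap, toHeckeLocal_one_tmul]
    exact mul_mem (Subalgebra.algebraMap_mem _ _) (Algebra.subset_adjoin ⟨t, rfl⟩)
  | add u v hu hv => rw [map_add]; exact add_mem hu hv

theorem exists_point_heckeLocal (χ : CuspForm.heckeAlgebra N 2 S →+* 𝒪)
    (hχ : ∀ t, residue 𝒪 (χ t) = θ t) :
    ∃ ψ : CuspForm.heckeLocal N S 𝒪 θ →ₐ[𝒪] 𝒪,
      ∀ t, ψ (CuspForm.heckeLocal.π N S 𝒪 θ t) = χ t := by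
  let c : (𝒪 ⊗[ℤ] CuspForm.heckeAlgebra N 2 S) →ₐ[𝒪] 𝒪 :=
    Algebra.TensorProduct.lift (AlgHom.id 𝒪 𝒪) χ.toIntAlgHom fun _ _ => Commute.all _ _
  have hc : ∀ x, residue 𝒪 (c x) = CuspForm.residualCharacter N S 𝒪 θ x := by
    intro x
    induction x using TensorProduct.induction_on with
    | zero => simp
    | tmul a t =>
      rw [Algebra.TensorProduct.lift_tmul, CuspForm.residualCharacter_tmul, map_mul,
        ← hχ t]
      rfl
    | add u v hu hv => rw [map_add, map_add, hu, hv, map_add]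
  let eB := RingEquiv.ofBijective (CuspForm.latticeBaseChange N S 𝒪)
    ⟨CuspForm.latticeBaseChange_injective N S 𝒪 Fact.out,
      CuspForm.latticeBaseChange_surjective N S 𝒪⟩
  let g : CuspForm.heckeBaseAlgebra N S 𝒪 →+* 𝒪 := (c : _ →+* 𝒪).comp eB.symm.toRingHom
  have hg : ∀ x, g (CuspForm.latticeBaseChange N S 𝒪 x) = c x := fun x =>
    congrArg c (eB.symm_apply_apply x)
  have hu : ∀ y : CuspForm.heckeLocalSubmonoid N S 𝒪 θ, IsUnit (g y) := by
    rintro ⟨_, x, hx, rfl⟩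
    show IsUnit (g (CuspForm.latticeBaseChange N S 𝒪 x))
    rw [hg, ← IsLocalRing.notMem_maximalIdeal, ← residue_eq_zero_iff, hc]
    exact fun h => hx ((CuspForm.mem_heckeCharKernel_iff N S 𝒪 θ x).mpr h)
  let L : CuspForm.heckeLocal N S 𝒪 θ →+* 𝒪 := IsLocalization.lift hu
  have hL : ∀ x, L (toHeckeLocal N S 𝒪 θ x) = c x := fun x =>
    (IsLocalization.lift_eq hu _).trans (hg x)
  refine ⟨{ L with commutes' := fun a => ?_ }, fun t => ?_⟩
  · show L (algebraMap 𝒪 _ a) = _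
    rw [← toHeckeLocal_algebraMap, hL, AlgHom.commutes]
  · show L _ = _
    rw [← toHeckeLocal_one_tmul, hL, Algebra.TensorProduct.lift_tmul, map_one, one_mul]
    rfl

theorem isReduced_heckeLocal [CharZero 𝒪] (hS : ∀ q : ℕ, q.Prime → q ∣ N → q ∈ S) :
    IsReduced (CuspForm.heckeLocal N S 𝒪 θ) :=
  have := Hecke.isReduced_heckeAlgebra N 2 S hS
  have := HeckeFinite.moduleFinite_heckeAlgebra N 2 S
  FiniteFlat.isReduced_of_adjoin_range_eq_top 𝒪 (CuspForm.heckeAlgebra N 2 S) _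
    (CuspForm.heckeLocal.π N S 𝒪 θ) (adjoin_range_heckeLocal_π N S 𝒪 θ)

end HeckeLocal

section Points

/-- An absolutely irreducible representation stays absolutely irreducible over every extension. -/
theorem isAbsolutelyIrreducible_baseChange {k : Type} [Field k] (ρ : ResidualGaloisRep k)
    (h : ρ.IsAbsolutelyIrreducible) (k' : Type) [Field k'] [Algebra k k'] :
    (ρ.baseChange k').IsAbsolutelyIrreducible := by
  rw [Density.isAbsolutelyIrreducible_iff_span]
  let b := Module.finBasisOfFinrankEq k ρ.V ρ.finrank_eq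
  let b' := Algebra.TensorProduct.basis k' b
  have hs := span_map_eq_top (algebraMap k k') (fun g => LinearMap.toMatrix b b (ρ.ρ g))
    (Density.residual_span_toMatrix_eq_top ρ h b)
  have h' := congrArg (Submodule.map (Matrix.toLin b' b').toLinearMap) hs
  rw [Submodule.map_span, Submodule.map_top, LinearEquiv.range, ← Set.range_comp] at h'
  have hfun : ((Matrix.toLin b' b').toLinearMap ∘
      fun g => (LinearMap.toMatrix b b (ρ.ρ g)).map (algebraMap k k')) = (ρ.baseChange k').ρ := by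
    funext g
    show Matrix.toLin b' b' ((LinearMap.toMatrix b b (ρ.ρ g)).map (algebraMap k k')) =
      (ρ.ρ g).baseChange k'
    rw [← LinearMap.toMatrix_baseChange, Matrix.toLin_toMatrix]
  rw [hfun] at h'
  exact h'

/-- A homomorphism from a finite local algebra to a domain is local if it is so on scalars. -/
theorem isLocalHom_of_algHom {O T O' : Type} [CommRing O] [IsLocalRing O] [CommRing T]
    [IsLocalRing T] [CommRing O'] [IsLocalRing O'] [Algebra O T] [Module.Finite O T]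
    [Algebra O O'] [IsLocalHom (algebraMap O O')] (f : T →ₐ[O] O') :
    IsLocalHom (f : T →+* O') := by
  have hmax : ((maximalIdeal O').comap (f : T →+* O')).IsMaximal := by
    have : (((maximalIdeal O').comap (f : T →+* O')).comap (algebraMap O T)).IsMaximal := by
      rw [Ideal.comap_comap, AlgHom.comp_algebraMap, maximalIdeal_comap]
      exact maximalIdeal.isMaximal O
    exact Ideal.isMaximal_of_isIntegral_of_isMaximal_comap _ this
  refine ⟨fun x hx => not_not.mp fun hxu => ?_⟩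
  have hmem : x ∈ (maximalIdeal O').comap (f : T →+* O') := by
    rw [eq_maximalIdeal hmax]
    exact hxu
  exact hmem hx

theorem map_maximalIdeal_pow_mem {A B : Type} [CommRing A] [IsLocalRing A] [CommRing B]
    [IsLocalRing B] (f : A →+* B) (hf : IsLocalHom f) {n : ℕ} {x : A}
    (hx : x ∈ maximalIdeal A ^ n) : f x ∈ maximalIdeal B ^ n := by
  have h := Ideal.mem_map_of_mem f hx
  rw [Ideal.map_pow] at h
  refine Ideal.pow_right_mono (Ideal.map_le_iff_le_comap.mpr ?_) n h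
  rw [maximalIdeal_comap]

theorem trace_eq_trace_adicMatrix {A : Type} [CommRing A] [IsLocalRing A] (ρ : GaloisRepAdic A)
    (g : Γℚ) : ρ.trace g = (EichlerShimura.adicMatrix ρ g).trace :=
  LinearMap.trace_eq_matrix_trace A (EichlerShimura.adicBasis ρ) (ρ.ρ g)

/-- Representations over jointly injective local maps out of a complete ring whose traces of
Frobenius come from the ring have all their traces in the ring, lifting the residual traces. -/
theorem exists_trace_of_frobenius {A : Type} [CommRing A] [IsLocalRing A] [IsNoetherianRing A]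
    [IsAdicComplete (maximalIdeal A) A] {J : Type} [Finite J] {R : J → Type}
    [∀ j, CommRing (R j)] [∀ j, IsLocalRing (R j)] [∀ j, IsHausdorff (maximalIdeal (R j)) (R j)]
    (φ : ∀ j, A →+* R j) (hφ : ∀ j, IsLocalHom (φ j))
    (hsep : ∀ x : A, (∀ j, φ j x = 0) → x = 0) (r : ∀ j, GaloisRepAdic (R j))
    (ρbar : ResidualGaloisRep (ResidueField A)) (S : Finset ℕ)
    (h : ∀ ℓ : ℕ, ℓ.Prime → ℓ ∉ S → ∀ P : ValuationSubring ℚ̄, P.LiesOverPrime ℓ →
      ∀ σ : Γℚ, P.IsFrobeniusAt σ ℓ → ∃ a : A,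
        (∀ j, LinearMap.charpoly ((r j).ρ σ) = X ^ 2 - C (φ j a) * X + C ((ℓ : R j))) ∧
        LinearMap.charpoly (ρbar.ρ σ) = X ^ 2 - C (residue A a) * X + C ((ℓ : ResidueField A)))
    (g : Γℚ) :
    ∃ t : A, (∀ j, φ j t = (r j).trace g) ∧
      residue A t = LinearMap.trace (ResidueField A) ρbar.V (ρbar.ρ g) := by
  classical
  let rb := GaloisRepAdic.ofResidualGaloisRep ρbar
  -- approximations
  have happrox : ∀ n : ℕ, ∃ s : A, (∀ j, φ j s - (r j).trace g ∈ maximalIdeal (R j) ^ n) ∧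
      residue A s = LinearMap.trace (ResidueField A) ρbar.V (ρbar.ρ g) := by
    intro n
    choose L hLfin hL using fun j => EichlerShimura.exists_level_adicMatrix (r j) n
    obtain ⟨Lb, hLbfin, hLb⟩ := EichlerShimura.exists_level_adicMatrix rb 1
    have : FiniteDimensional ℚ ↥(⨆ j, L j) :=
      IntermediateField.finiteDimensional_iSup_of_finite
    obtain ⟨ℓ, hℓ, hℓS, P, σ, hP, hσ, -, a, b, -, hb⟩ :=
      Density.exists_isFrobeniusAt_agree_pow ((⨆ j, L j) ⊔ Lb) g S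
    obtain ⟨x, hx, hxbar⟩ := h ℓ hℓ hℓS P hP σ hσ
    refine ⟨EichlerShimura.lucasTr x (ℓ : A) b, fun j => ?_, ?_⟩
    · rw [EichlerShimura.map_lucasTr, map_natCast, trace_eq_trace_adicMatrix, ← neg_mem_iff,
        neg_sub]
      exact EichlerShimura.trace_sub_lucasTr_mem (r j) n (hL j)
        (fun y hy => hb y (le_sup_left (a := ⨆ j, L j) (le_iSup L j hy))) (hx j)
    · have h1 := EichlerShimura.trace_sub_lucasTr_mem rb 1 hLb
        (fun y hy => hb y (le_sup_right (a := ⨆ j, L j) hy)) hxbar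
      rw [pow_one, maximalIdeal_eq_bot, Ideal.mem_bot, sub_eq_zero,
        ← trace_eq_trace_adicMatrix] at h1
      rw [EichlerShimura.map_lucasTr, map_natCast, ← h1]
      rfl
  choose s hs hsres using happrox
  choose M hM using fun n => exists_forall_mem_pow_imp φ hsep n
  let K : ℕ → ℕ := fun n => n + ∑ i ∈ Finset.range (n + 1), M i
  have hK : ∀ n m, n ≤ m → M n ≤ K m := fun n m hnm =>
    (Finset.single_le_sum (fun i _ => Nat.zero_le (M i))
      (Finset.mem_range.mpr (Nat.lt_succ_of_le hnm))).trans (Nat.le_add_left _ m)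
  obtain ⟨t, ht⟩ := IsPrecomplete.prec (IsAdicComplete.toIsPrecomplete
    (I := maximalIdeal A) (M := A)) (f := fun n => s (K n)) (fun {m n} hmn => by
      rw [SModEq.sub_mem, smul_eq_mul, Ideal.mul_top]
      refine hM m _ fun j => ?_
      rw [map_sub, ← sub_sub_sub_cancel_right (φ j (s (K m))) (φ j (s (K n))) ((r j).trace g)]
      exact sub_mem (Ideal.pow_le_pow_right (hK m m le_rfl) (hs _ j))
        (Ideal.pow_le_pow_right (hK m n hmn) (hs _ j)))
  refine ⟨t, fun j => ?_, ?_⟩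
  · rw [← sub_eq_zero]
    refine IsHausdorff.haus' (I := maximalIdeal (R j)) _ fun n => ?_
    have h1 := ht n
    rw [SModEq.sub_mem, smul_eq_mul, Ideal.mul_top] at h1
    rw [SModEq.zero, smul_eq_mul, Ideal.mul_top]
    have h2 := map_maximalIdeal_pow_mem (φ j) (hφ j) h1
    have h3 := Ideal.pow_le_pow_right (Nat.le_add_right n _) (hs (K n) j)
    have h4 := sub_mem h3 h2
    rwa [map_sub, sub_sub_sub_cancel_left] at h4
  · have h1 := ht 1
    rw [SModEq.sub_mem, smul_eq_mul, Ideal.mul_top, pow_one, ← residue_eq_zero_iff, map_sub,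
      sub_eq_zero] at h1
    rw [← h1, hsres]

variable {p : ℕ} {N : ℕ} [NeZero N] {S : Finset ℕ} {𝒪 : Type} [CommRing 𝒪] [IsDomain 𝒪]
  [IsDiscreteValuationRing 𝒪] [IsAdicComplete (maximalIdeal 𝒪) 𝒪]
  (θ : CuspForm.heckeAlgebra N 2 (↑S : Set ℕ) →+* ResidueField 𝒪)

/-- A point of the localised Hecke algebra with its Galois representation. -/
structure RepPoint : Type 1 where
  R : Type
  [instCommRing : CommRing R]
  [instDomain : IsDomain R]
  [instDVR : IsDiscreteValuationRing R]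
  [instComplete : IsAdicComplete (maximalIdeal R) R]
  ψ : CuspForm.heckeLocal N (↑S : Set ℕ) 𝒪 θ →+* R
  ψ_local : IsLocalHom ψ
  ρ : GaloisRepAdic R
  charpoly_frob : ∀ (ℓ : ℕ) (hℓ : ℓ.Prime) (hℓN : ¬ ℓ ∣ N) (hℓS : ℓ ∉ (↑S : Set ℕ)),
    ∀ A : ValuationSubring ℚ̄, A.LiesOverPrime ℓ → ∀ σ : Γℚ, A.IsFrobeniusAt σ ℓ →
      LinearMap.charpoly (ρ.ρ σ) = X ^ 2 -
        C (ψ (CuspForm.heckeLocal.π N (↑S : Set ℕ) 𝒪 θ
          (CuspForm.heckeAlgebra.T hℓ hℓN hℓS))) * X + C ((ℓ : R))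

attribute [instance] RepPoint.instCommRing RepPoint.instDomain RepPoint.instDVR
  RepPoint.instComplete

variable [CharZero 𝒪] [Finite (ResidueField 𝒪)]

/-- The localised Hecke algebra is separated by finitely many points with representations. -/
theorem exists_repPoints (hp𝒪 : (p : 𝒪) ∈ maximalIdeal 𝒪)
    (hNS : ∀ q : ℕ, q.Prime → q ∣ N → q ∈ S) (hS30 : GaloisRepOfPoints p N S) :
    ∃ (J : Type) (_ : Finite J) (P : J → RepPoint θ),
      ∀ x : CuspForm.heckeLocal N (↑S : Set ℕ) 𝒪 θ, (∀ j, (P j).ψ x = 0) → x = 0 := by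
  classical
  set T := CuspForm.heckeLocal N (↑S : Set ℕ) 𝒪 θ with hT
  have := isReduced_heckeLocal N (↑S : Set ℕ) 𝒪 θ hNS
  have hfin : Finite ↥(minimalPrimes T) :=
    (minimalPrimes.finite_of_isNoetherianRing T).to_subtype
  have key : ∀ P : ↥(minimalPrimes T), ∃ pt : RepPoint θ, ∀ x, pt.ψ x = 0 → x ∈ (P : Ideal T) := by
    rintro ⟨P, hP⟩
    have : P.IsPrime := Ideal.IsMinimalPrime.isPrime hP
    have hP0 : ∀ a : 𝒪, algebraMap 𝒪 T a ∈ P → a = 0 := by
      intro a ha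
      by_contra h0
      refine Set.disjoint_left.mp (Ideal.disjoint_nonZeroDivisors_of_mem_minimalPrimes hP) ha ?_
      rw [SetLike.mem_coe, mem_nonZeroDivisors_iff_right]
      intro x hx
      rw [mul_comm, ← Algebra.smul_def] at hx
      exact (smul_eq_zero.mp hx).resolve_left h0
    obtain ⟨O₁, _, _, _, _, _, _, _, _, hloc₁, -, f, hf⟩ :=
      EichlerShimura.exists_finiteDVR_extension 𝒪 T P hP0
    have hpO₁ : (p : O₁) ∈ maximalIdeal O₁ := by
      rw [← map_natCast (algebraMap 𝒪 O₁) p]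
      exact map_nonunit _ _ hp𝒪
    obtain ⟨O₂, _, _, _, _, _, _, _, _, hloc₂, hinj₂, ρ, hρ, -⟩ :=
      hS30 O₁ hpO₁ ((f : T →+* O₁).comp (CuspForm.heckeLocal.π N (↑S : Set ℕ) 𝒪 θ))
    have hf₁ : IsLocalHom (f : T →+* O₁) := isLocalHom_of_algHom f
    refine ⟨{ R := O₂
              ψ := (algebraMap O₁ O₂).comp (f : T →+* O₁)
              ψ_local := RingHom.isLocalHom_comp _ _
              ρ := ρ
              charpoly_frob := hρ }, fun x hx => ?_⟩
    show x ∈ P
    rw [← hf, RingHom.mem_ker]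
    exact hinj₂ (hx.trans (map_zero _).symm)
  choose pt hpt using key
  refine ⟨↥(minimalPrimes T), hfin, pt, fun x hx => ?_⟩
  have hmem : x ∈ sInf (minimalPrimes T) :=
    Submodule.mem_sInf.mpr fun P hP => hpt ⟨P, hP⟩ x (hx _)
  rw [show sInf (minimalPrimes T) = (⊥ : Ideal T).radical from Ideal.sInf_minimalPrimes,
    show (⊥ : Ideal T).radical = ⊥ from nilradical_eq_zero T, Ideal.mem_bot] at hmem
  exact hmem

variable (ρbar : ResidualGaloisRep (ResidueField 𝒪))

/-- A Hecke–Galois datum exists on the localised Hecke algebra. -/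
theorem exists_datum (hp : p.Prime) (hp2 : p ≠ 2) (hp𝒪 : (p : 𝒪) ∈ maximalIdeal 𝒪)
    (hNS : ∀ q : ℕ, q.Prime → q ∣ N → q ∈ S) (hS30 : GaloisRepOfPoints p N S)
    (habs : ρbar.IsAbsolutelyIrreducible)
    (hρbar : ∀ (ℓ : ℕ) (hℓ : ℓ.Prime) (hℓN : ¬ ℓ ∣ N) (hℓS : ℓ ∉ (↑S : Set ℕ)),
      ∀ A : ValuationSubring ℚ̄, A.LiesOverPrime ℓ → ∀ σ : Γℚ, A.IsFrobeniusAt σ ℓ →
        LinearMap.charpoly (ρbar.ρ σ) = X ^ 2 -
          C (θ (CuspForm.heckeAlgebra.T hℓ hℓN hℓS)) * X + C ((ℓ : ResidueField 𝒪))) :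
    ∃ H : CuspForm.HeckeGaloisRepDatum N (↑S : Set ℕ) 𝒪 θ
        (CuspForm.heckeLocal N (↑S : Set ℕ) 𝒪 θ),
      H.π = CuspForm.heckeLocal.π N (↑S : Set ℕ) 𝒪 θ ∧
      H.ρ.residual.IsEquiv (ρbar.baseChangeAlong
        (ResidueField.map (algebraMap 𝒪 (CuspForm.heckeLocal N (↑S : Set ℕ) 𝒪 θ)))) := by
  classical
  set T := CuspForm.heckeLocal N (↑S : Set ℕ) 𝒪 θ with hT
  obtain ⟨J, hJ, P, hsep⟩ := exists_repPoints θ hp𝒪 hNS hS30
  let ι : ResidueField 𝒪 →+* ResidueField T := ResidueField.map (algebraMap 𝒪 T)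
  let ρb := ρbar.baseChangeAlong ι
  choose t ht htres using exists_trace_of_frobenius (fun j => (P j).ψ) (fun j => (P j).ψ_local)
    hsep (fun j => (P j).ρ) ρb S fun ℓ hℓ hℓS A hA σ hσ => by
      have hℓS' : ℓ ∉ (↑S : Set ℕ) := fun h => hℓS (Finset.mem_coe.mp h)
      have hℓN : ¬ ℓ ∣ N := fun h => hℓS (hNS ℓ hℓ h)
      refine ⟨CuspForm.heckeLocal.π N (↑S : Set ℕ) 𝒪 θ (CuspForm.heckeAlgebra.T hℓ hℓN hℓS'),
        fun j => (P j).charpoly_frob ℓ hℓ hℓN hℓS' A hA σ hσ, ?_⟩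
      rw [residue_heckeLocal_π]
      let : Algebra (ResidueField 𝒪) (ResidueField T) := ι.toAlgebra
      show LinearMap.charpoly ((ρbar.ρ σ).baseChange (ResidueField T)) = _
      rw [LinearMap.charpoly_baseChange, hρbar ℓ hℓ hℓN hℓS' A hA σ hσ,
        RingHom.algebraMap_toAlgebra]
      simp [ι]
      rfl
  have habs' : ρb.IsAbsolutelyIrreducible :=
    letI : Algebra (ResidueField 𝒪) (ResidueField T) := ι.toAlgebra
    isAbsolutelyIrreducible_baseChange ρbar habs (ResidueField T)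
  have htrb : ∀ g, LinearMap.trace (ResidueField T) ρb.V (ρb.ρ g) = residue T (t g) := fun g =>
    (htres g).symm
  have hp0 : (p : T) ∈ maximalIdeal T := by
    rw [← map_natCast (algebraMap 𝒪 T) p]
    exact map_nonunit _ _ hp𝒪
  have hdet : ∀ j, LinearMap.det ((P j).ρ.ρ complexConjugation) = -1 := by
    intro j
    refine Density.det_eq_neg_one_of_detIsCyclotomic _ hp hp2 ?_ complexConjugation_mul_self
      EC.complexConjugation_ne_one
    refine Density.detIsCyclotomic_of_charpoly_frobenius _ p hp ?_ S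
      fun ℓ hℓ hℓS A hA σ hσ => ?_
    · have := map_maximalIdeal_pow_mem (P j).ψ (P j).ψ_local (n := 1) (x := (p : T))
        (by rwa [pow_one])
      rwa [pow_one, map_natCast] at this
    · exact ⟨_, (P j).charpoly_frob ℓ hℓ (fun h => hℓS (hNS ℓ hℓ h))
        (fun h => hℓS (Finset.mem_coe.mp h)) A hA σ hσ⟩
  have h2 : IsUnit (2 : T) := by
    by_contra h
    have hodd : ¬ 2 ∣ p := fun hd =>
      hp2 ((Nat.prime_dvd_prime_iff_eq Nat.prime_two hp).mp hd).symm
    obtain ⟨k, hk⟩ := Nat.odd_iff.mpr (Nat.two_dvd_ne_zero.mp hodd)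
    have hmem : (2 : T) * (k : T) ∈ maximalIdeal T := Ideal.mul_mem_right _ _ h
    have h1 := sub_mem hp0 hmem
    rw [hk, Nat.cast_add, Nat.cast_mul, Nat.cast_ofNat, Nat.cast_one, add_sub_cancel_left] at h1
    exact (maximalIdeal.isMaximal T).ne_top ((Ideal.eq_top_iff_one _).mpr h1)
  obtain ⟨ρ, -, hmap, hres, hirr, -⟩ := exists_galoisRepAdic_of_family
    (fun j => (P j).ψ) (fun j => (P j).ψ_local) hsep (fun j => (P j).ρ) t
    (fun j g => (ht g j).symm) hdet ρb habs' htrb h2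
  refine ⟨{ π := CuspForm.heckeLocal.π N (↑S : Set ℕ) 𝒪 θ
            residue_π := residue_heckeLocal_π N (↑S : Set ℕ) 𝒪 θ
            adjoin_range_π := adjoin_range_heckeLocal_π N (↑S : Set ℕ) 𝒪 θ
            exists_point := exists_point_heckeLocal N (↑S : Set ℕ) 𝒪 θ
            residue_surjective := residue_algebraMap_heckeLocal_surjective N (↑S : Set ℕ) 𝒪 θ
            ρ := ρ
            charpoly_frob := ?_
            residual_absIrr := hirr }, rfl, hres⟩
  intro ℓ hℓ hℓN hℓS A hA σ hσ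
  refine Polynomial.ext fun i => sub_eq_zero.mp (hsep _ fun j => ?_)
  have h := congrArg (fun q => Polynomial.coeff q i) ((hmap j σ).trans
    ((P j).charpoly_frob ℓ hℓ hℓN hℓS A hA σ hσ))
  simp only [Polynomial.coeff_map] at h
  rw [map_sub, sub_eq_zero, h, ← Polynomial.coeff_map]
  simp

end Points

end Fermat.Agent.RT
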