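import Fermat.Agent.Endgame.Wiring
import Fermat.Agent.RT.FreyLowering
import Fermat.Agent.RT.TorsionFrobenius
import Fermat.Agent.S05
import Fermat.Agent.S08

/-!
# Assembly of S43 and S45 (PATCH part 0)

* `MazurPrincipleAway` is the contract G2 (Mazur's principle at `q ≢ 1 mod p`);
* `NoMinimalTWLevel` is the output of the patching argument: no minimal level carries an odd
  prime `q ≠ p` when all of these are `≡ 1 mod p`.
-/

set_option autoImplicit false

noncomputable section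

open WeierstrassCurve.Affine.Point (GaloisRepIsIrreducible)

namespace Fermat.Agent.RT

/-- G2: Mazur's principle at a prime `q ∥ M`, `q ≠ p`, `q ≢ 1 mod p`, residually unramified. -/
def MazurPrincipleAway : Prop :=
  ∀ (P : FreyPackage) (M q : ℕ), P.IsConductorLevel M → q.Prime → q ≠ 2 → q ≠ P.p → q ∣ M →
    (q : ZMod P.p) ≠ 1 →
    GaloisRepIsIrreducible (K := AlgebraicClosure ℚ) ℚ P.freyCurve P.p →
    P.freyCurveInt.IsResiduallyModularOfLevel P.p M → P.GaloisRepUnramifiedAt q →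
    ∃ M' : ℕ, M' ∣ M ∧ ¬ q ∣ M' ∧ P.freyCurveInt.IsResiduallyModularOfLevel P.p M'

/-- A level at which the Frey representation is residually modular, minimal for divisibility. -/
structure IsMinimalLevel (P : FreyPackage) (M : ℕ) : Prop where
  cond : P.IsConductorLevel M
  modular : P.freyCurveInt.IsResiduallyModularOfLevel P.p M
  minimal : ∀ M' : ℕ, M' ∣ M → P.freyCurveInt.IsResiduallyModularOfLevel P.p M' → M' = M

/-- The output of patching. -/
def NoMinimalTWLevel : Prop :=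
  ∀ (P : FreyPackage) (M : ℕ),
    GaloisRepIsIrreducible (K := AlgebraicClosure ℚ) ℚ P.freyCurve P.p → IsMinimalLevel P M →
    (∀ q : ℕ, q.Prime → q ∣ M → q ≠ 2 → q ≠ P.p → (q : ZMod P.p) = 1) →
    ∀ q : ℕ, q.Prime → q ∣ M → q ≠ 2 → q ≠ P.p → False

theorem exists_minimalLevel (P : FreyPackage) {N : ℕ} (hcond : P.IsConductorLevel N)
    (hmod : P.freyCurveInt.IsResiduallyModularOfLevel P.p N) :
    ∃ M : ℕ, M ∣ N ∧ IsMinimalLevel P M := by
  classical
  have hex : ∃ M : ℕ, M ∣ N ∧ P.freyCurveInt.IsResiduallyModularOfLevel P.p M :=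
    ⟨N, dvd_rfl, hmod⟩
  obtain ⟨hMN, hM⟩ := Nat.find_spec hex
  have hpos : 0 < Nat.find hex := Nat.pos_of_dvd_of_pos hMN hcond.pos
  exact ⟨_, hMN, hcond.of_dvd hMN hpos, hM, fun M' hd hm =>
    (Nat.le_of_dvd hpos hd).antisymm (Nat.find_min' hex ⟨hd.trans hMN, hm⟩)⟩

/-- A minimal level has no odd prime other than `p`. -/
theorem not_dvd_minimalLevel (hG2 : MazurPrincipleAway) (hTW : NoMinimalTWLevel)
    (P : FreyPackage) {M : ℕ}
    (hirr : GaloisRepIsIrreducible (K := AlgebraicClosure ℚ) ℚ P.freyCurve P.p)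
    (hM : IsMinimalLevel P M) {q : ℕ} (hq : q.Prime) (hq2 : q ≠ 2) (hqp : q ≠ P.p) :
    ¬ q ∣ M := by
  have hone : ∀ r : ℕ, r.Prime → r ∣ M → r ≠ 2 → r ≠ P.p → (r : ZMod P.p) = 1 := by
    intro r hr hrM hr2 hrp
    by_contra h1
    obtain ⟨M', hd, hr', hm⟩ := hG2 P M r hM.cond hr hr2 hrp hrM h1 hirr hM.modular
      (Fermat.Agent.S05.result P hr hr2 hrp)
    exact hr' (hM.minimal M' hd hm ▸ hrM)
  exact fun hqM => hTW P M hirr hM hone q hq hqM hq2 hqp

/-- The statement of S43, from G2, the patching output and S29. -/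
theorem frey_level_lowering_of (hS29 : EigenformResidualRep) (hG2 : MazurPrincipleAway)
    (hTW : NoMinimalTWLevel)
    (P : FreyPackage) {N q : ℕ} (hcond : P.IsConductorLevel N) (hq : q.Prime) (hq2 : q ≠ 2)
    (hqp : q ≠ P.p)
    (hirr : GaloisRepIsIrreducible (K := AlgebraicClosure ℚ) ℚ P.freyCurve P.p)
    (hmod : P.ModularRepOfLevel N) : ∃ M : ℕ, M ∣ N ∧ ¬ q ∣ M ∧ P.ModularRepOfLevel M := by
  obtain ⟨M, hMN, hM⟩ := exists_minimalLevel P hcond
    (freyCurveInt_isResiduallyModular P hS29 torsionFrobeniusCharpoly hcond.pos hmod)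
  exact ⟨M, hMN, not_dvd_minimalLevel hG2 hTW P hirr hM hq hq2 hqp,
    modularRepOfLevel_of_freyCurveInt P hM.modular⟩

/-- The statement of S45, from S06, S43 and S44. -/
theorem level_two_of_lowering
    (hS06 : ∀ P : FreyPackage, ∃ N : ℕ, P.IsConductorLevel N ∧ P.ModularRepOfLevel N)
    (hS43 : ∀ (P : FreyPackage) {N q : ℕ}, P.IsConductorLevel N → q.Prime → q ≠ 2 → q ≠ P.p →
      q ∣ N → GaloisRepIsIrreducible (K := AlgebraicClosure ℚ) ℚ P.freyCurve P.p →
      P.ModularRepOfLevel N → P.GaloisRepUnramifiedAt q →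
      ∃ M : ℕ, M ∣ N ∧ ¬ q ∣ M ∧ P.ModularRepOfLevel M)
    (hS44 : ∀ (P : FreyPackage) {N : ℕ}, P.IsConductorLevel N → P.p ∣ N →
      GaloisRepIsIrreducible (K := AlgebraicClosure ℚ) ℚ P.freyCurve P.p →
      P.ModularRepOfLevel N → ∃ M : ℕ, M ∣ N ∧ ¬ P.p ∣ M ∧ P.ModularRepOfLevel M)
    (P : FreyPackage)
    (hirr : GaloisRepIsIrreducible (K := AlgebraicClosure ℚ) ℚ P.freyCurve P.p) :
    ∃ f : CuspForm (CongruenceSubgroup.Gamma0 2) 2, f ≠ 0 :=
  Endgame.level_two_of (fun P {q} hq hq2 hqp => Fermat.Agent.S05.result P hq hq2 hqp) hS06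
    Fermat.Agent.S08.result hS43 hS44 P hirr

end Fermat.Agent.RT
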